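import Fermat.Agent.M59.Top.Chain.LvSys

/-!
M59 / [CHAIN-inst], the cut of the level system into its two sides (helper25, deputy; ruling #48).
Prefix `m59ci_`.

`m59ci_lvSys_of : m59ci_ActSys … → m59ci_PairSys … → m59ci_LvSys …`  (PROVED).

The chain system `m59ci_LvSys` (M59/Top/Chain/LvSys.lean) at one patching level is the composite of

* the **module side** `m59ci_ActSys`, over the Hecke ring `T'` of the TOP level of the chain (in
  use `T' = (L (Fin.last m)).T'`, `tr = (L (Fin.last m)).H'.ρ.trace`): the actions `act k` of `T'`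
  on the free modules of ALL the levels (helper26's `m59ac_chain` composed with `m59ac_Pi`), the
  Galois diamonds `uT i ↦ 1 + y_i`, the four degeneracy matrices of every step with their
  equivariance, `A'A = B'B = l + 1`, `A'B = B'A = tr ρ(Frob_l)` for EVERY Frobenius element at `l`
  (trace compatibility [CI-TR] + `charpoly_frob`), (I1), (I2), (I3) in trace form, [UNR-0] in trace
  form (`act 0` kills `tr ρ(σ τ) - tr ρ(σ)`, `τ` in an inertia group at a prime of the chain), and the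
  reduction modulo `𝔞`;  NO local coordinates, NO pair ring;
* the **pair side** `m59ci_PairSys`: the pair ring `T` (block [PAIR]) with its local coordinates
  `z`, the cotangent bound, the relations, the projection `pr : T → T'`, the diamonds `u i` with
  `pr (u i) = uT i`, Frobenius elements `gφ k` at the primes of the chain with
  `pr (tr-coordinate) = tr ρ(gφ k)`, the `N`-coordinates in the ideal of `T'` generated by the
  `tr ρ(σ τ) - tr ρ(σ)`, and `π0 : T ↠ T₀`;  NO modules.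
-/

set_option autoImplicit false
set_option linter.style.haveILetI false
set_option linter.unusedSectionVars false
set_option linter.unusedVariables false

open IsLocalRing MvPowerSeries Matrix Fermat.Agent.TW

namespace Fermat.Agent.M59

noncomputable section

local notation "GQ" => (AlgebraicClosure ℚ ≃ₐ[ℚ] AlgebraicClosure ℚ)
local notation "Qbar" => AlgebraicClosure ℚ

/-- `σ` is a Frobenius element at `l` (for some place of `ℚ̄` over `l`). -/
def m59ci_IsFrob (σ : GQ) (l : ℕ) : Prop :=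
  ∃ P : ValuationSubring Qbar, P.LiesOverPrime l ∧ P.IsFrobeniusAt σ l

/-- `τ` lies in an inertia group at `l`. -/
def m59ci_IsInert (τ : GQ) (l : ℕ) : Prop :=
  ∃ P : ValuationSubring Qbar, P.LiesOverPrime l ∧ τ ∈ P.inertiaSubgroupIn ℚ

/-- the generators of the ideal of ramification at the primes of the chain. -/
def m59ci_ramSet {m : ℕ} (l : Fin m → ℕ) {T' : Type} [CommRing T'] (tr : GQ → T') : Set T' :=
  {x | ∃ (k : Fin m) (σ τ : GQ), m59ci_IsInert τ (l k) ∧ x = tr (σ * τ) - tr σ}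

/-- **the module side** of the chain system at one patching level. -/
structure m59ci_ActSys (𝒪 : Type) [CommRing 𝒪] (rr : ℕ) {m : ℕ}
    (d : Fin (m + 1) → ℕ) (l : Fin m → ℕ) (ee : Fin m → ℕ)
    (𝔞 𝔟 : Ideal (MvPowerSeries (Fin rr) 𝒪)) (h𝔟𝔞 : 𝔟 ≤ 𝔞)
    (T' : Type) [CommRing T'] [Algebra 𝒪 T'] (tr : GQ → T')
    (jT : T' →+* Matrix (Fin (d (Fin.last m))) (Fin (d (Fin.last m)))
      (MvPowerSeries (Fin rr) 𝒪 ⧸ 𝔞))
    (uT : Fin rr → T') : Type where
  /-- the actions on the free modules `M_k = (S ⧸ 𝔟)^(d k)` -/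
  act : ∀ k : Fin (m + 1), T' →ₐ[𝒪] Matrix (Fin (d k)) (Fin (d k)) (MvPowerSeries (Fin rr) 𝒪 ⧸ 𝔟)
  act_u : ∀ k i, act k (uT i) = Matrix.scalar (Fin (d k)) (1 + Ideal.Quotient.mk 𝔟 (X i))
  /-- `α^*` -/
  A : ∀ k : Fin m, Matrix (Fin (d k.succ)) (Fin (d k.castSucc)) (MvPowerSeries (Fin rr) 𝒪 ⧸ 𝔟)
  /-- `β^*` -/
  B : ∀ k : Fin m, Matrix (Fin (d k.succ)) (Fin (d k.castSucc)) (MvPowerSeries (Fin rr) 𝒪 ⧸ 𝔟)
  /-- `α_*` -/
  A' : ∀ k : Fin m, Matrix (Fin (d k.castSucc)) (Fin (d k.succ)) (MvPowerSeries (Fin rr) 𝒪 ⧸ 𝔟)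
  /-- `β_*` -/
  B' : ∀ k : Fin m, Matrix (Fin (d k.castSucc)) (Fin (d k.succ)) (MvPowerSeries (Fin rr) 𝒪 ⧸ 𝔟)
  A_act : ∀ k x, act k.succ x * A k = A k * act k.castSucc x
  B_act : ∀ k x, act k.succ x * B k = B k * act k.castSucc x
  A'_act : ∀ k x, A' k * act k.succ x = act k.castSucc x * A' k
  B'_act : ∀ k x, B' k * act k.succ x = act k.castSucc x * B' k
  A'_A : ∀ k, A' k * A k = act k.castSucc (((l k : ℕ) : T') + 1)
  B'_B : ∀ k, B' k * B k = act k.castSucc (((l k : ℕ) : T') + 1)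
  /-- `α_* β^* = T_l = tr ρ(Frob_l)`, for every Frobenius element at `l` -/
  A'_B : ∀ k (σ : GQ), m59ci_IsFrob σ (l k) → A' k * B k = act k.castSucc (tr σ)
  B'_A : ∀ k (σ : GQ), m59ci_IsFrob σ (l k) → B' k * A k = act k.castSucc (tr σ)
  /-- **(I1)** -/
  split : ∀ k, ∃ L1 L2 : Matrix (Fin (d k.castSucc)) (Fin (d k.succ))
      (MvPowerSeries (Fin rr) 𝒪 ⧸ 𝔟),
    L1 * A k = 1 ∧ L1 * B k = 0 ∧ L2 * A k = 0 ∧ L2 * B k = 1
  /-- **(I2)** -/
  onto : ∀ k, ∃ V1 : Matrix (Fin (d k.succ)) (Fin (d k.castSucc))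
      (MvPowerSeries (Fin rr) 𝒪 ⧸ 𝔟), A' k * V1 = 1 ∧ B' k * V1 = 0
  /-- **(I3)**, trace form -/
  new : ∀ k (σ : GQ), m59ci_IsFrob σ (l k) →
    ∃ Y1 Y2 : Matrix (Fin (d k.castSucc)) (Fin (d k.succ)) (MvPowerSeries (Fin rr) 𝒪 ⧸ 𝔟),
      act k.succ ((tr σ ^ 2 - (((l k : ℕ) : T') + 1) ^ 2) ^ ee k) = A k * Y1 + B k * Y2
  /-- **[UNR-0]**, trace form: the base level is unramified at the primes of the chain -/
  unr0 : ∀ x ∈ m59ci_ramSet l tr, act 0 x = 0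
  act_mod : ∀ t : T', (act (Fin.last m) t).map (Ideal.Quotient.factor h𝔟𝔞) = jT t

/-- **the pair side** of the chain system at one patching level. -/
structure m59ci_PairSys (𝒪 : Type) [CommRing 𝒪] [IsLocalRing 𝒪] (rr : ℕ) {m : ℕ} (dl : ℕ)
    (l : Fin m → ℕ) {T8 Tn : Type} (κ : Type) [Fintype κ]
    (a : T8 → 𝒪) (l8 : T8 → ℕ) (t0 : Tn → 𝒪) (ln : Tn → ℕ) (ch : Fin m → T8 ⊕ Tn)
    (𝔞 : Ideal (MvPowerSeries (Fin rr) 𝒪))
    (T0 : Type) [CommRing T0] [Algebra 𝒪 T0]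
    (j : T0 →+* Matrix (Fin dl) (Fin dl) (MvPowerSeries (Fin rr) 𝒪 ⧸ 𝔞))
    (β : (T8 × Fin 6) ⊕ Tn → T0)
    (T' : Type) [CommRing T'] [Algebra 𝒪 T'] (tr : GQ → T')
    (jT : T' →+* Matrix (Fin dl) (Fin dl) (MvPowerSeries (Fin rr) 𝒪 ⧸ 𝔞))
    (uT : Fin rr → T') : Type 1 where
  /-- the pair ring -/
  T : Type
  [instCommRing : CommRing T]
  [instIsLocalRing : IsLocalRing T]
  [instIsNoetherianRing : IsNoetherianRing T]
  [instIsAdicComplete : IsAdicComplete (maximalIdeal T) T]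
  [instAlgebra : Algebra 𝒪 T]
  [instIsLocalHom : IsLocalHom (algebraMap 𝒪 T)]
  residue_surjective : Function.Surjective (residue T ∘ algebraMap 𝒪 T)
  /-- the local coordinates -/
  z : m59ci_Iz T8 Tn → maximalIdeal T
  finrank_le : Module.finrank (ResidueField T) (CotangentSpace T ⧸ twc_relW 𝒪 z) ≤
    Fintype.card κ
  rel : ∀ γ : m59b_P 𝒪 T8 Tn κ →ₐ[𝒪] T, (∀ c, γ (X (m59ci_emb κ c)) = (z c : T)) →
    m59b_J 𝒪 κ a l8 t0 ln ≤ RingHom.ker (γ : m59b_P 𝒪 T8 Tn κ →+* T)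
  /-- the Galois diamonds in the pair ring -/
  u : Fin rr → T
  u_mem : ∀ i, u i - 1 ∈ maximalIdeal T
  /-- the projection to the Hecke ring of the top level -/
  pr : T →ₐ[𝒪] T'
  pr_u : ∀ i, pr (u i) = uT i
  /-- Frobenius elements at the primes of the chain -/
  gφ : Fin m → GQ
  gφ_frob : ∀ k, m59ci_IsFrob (gφ k) (l k)
  /-- the trace coordinate is the trace of Frobenius -/
  pr_tr : ∀ k, pr (m59ci_trT a t0 z (ch k)) = tr (gφ k)
  /-- the `N`-coordinates lie in the ideal of ramification -/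
  pr_N : ∀ i, pr (z (m59ci_embN i) : T) ∈ Ideal.span (m59ci_ramSet l tr)
  /-- the map to `T₀` -/
  π0 : T →ₐ[𝒪] T0
  π0_surjective : Function.Surjective π0
  j_π0 : ∀ t : T, j (π0 t) = jT (pr t)
  π0_u : ∀ i, π0 (u i) = 1
  π0_ν : ∀ c, π0 (m59ci_nuT a t0 z c) = β c

attribute [instance] m59ci_PairSys.instCommRing m59ci_PairSys.instIsLocalRing
  m59ci_PairSys.instIsNoetherianRing m59ci_PairSys.instIsAdicComplete m59ci_PairSys.instAlgebra
  m59ci_PairSys.instIsLocalHom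

section glue

variable {𝒪 : Type} [CommRing 𝒪] [IsLocalRing 𝒪] {rr : ℕ} {m : ℕ}
  {d : Fin (m + 1) → ℕ} {l : Fin m → ℕ} {ee : Fin m → ℕ}
  {T8 Tn κ : Type} [Fintype κ]
  {a : T8 → 𝒪} {l8 : T8 → ℕ} {t0 : Tn → 𝒪} {ln : Tn → ℕ} {ch : Fin m → T8 ⊕ Tn}
  {𝔞 𝔟 : Ideal (MvPowerSeries (Fin rr) 𝒪)} {h𝔟𝔞 : 𝔟 ≤ 𝔞}
  {T0 : Type} [CommRing T0] [Algebra 𝒪 T0]
  {j : T0 →+* Matrix (Fin (d (Fin.last m))) (Fin (d (Fin.last m)))
    (MvPowerSeries (Fin rr) 𝒪 ⧸ 𝔞)}
  {β : (T8 × Fin 6) ⊕ Tn → T0}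
  {T' : Type} [CommRing T'] [Algebra 𝒪 T'] {tr : GQ → T'}
  {jT : T' →+* Matrix (Fin (d (Fin.last m))) (Fin (d (Fin.last m)))
    (MvPowerSeries (Fin rr) 𝒪 ⧸ 𝔞)}
  {uT : Fin rr → T'}

/-- a ring homomorphism to a (matrix) ring which kills a set kills the ideal it generates. -/
theorem m59ci_kills_span {R E : Type*} [CommRing R] [Ring E] (f : R →+* E) (s : Set R)
    (h : ∀ x ∈ s, f x = 0) : ∀ x ∈ Ideal.span s, f x = 0 := by
  intro x hx
  induction hx using Submodule.span_induction with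
  | mem x hx => exact h x hx
  | zero => exact map_zero f
  | add x y _ _ hx hy => rw [map_add, hx, hy, add_zero]
  | smul c x _ hx => rw [smul_eq_mul, map_mul, hx, mul_zero]

/-- **the chain system from its two sides.** -/
def m59ci_lvSys_of (hl : ∀ k, l k = m59ci_lc l8 ln (ch k))
    (AS : m59ci_ActSys 𝒪 rr d l ee 𝔞 𝔟 h𝔟𝔞 T' tr jT uT)
    (PS : m59ci_PairSys 𝒪 rr (d (Fin.last m)) l κ a l8 t0 ln ch 𝔞 T0 j β T' tr jT uT) :
    m59ci_LvSys 𝒪 rr d κ a l8 t0 ln ch ee 𝔞 𝔟 h𝔟𝔞 T0 j β where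
  T := PS.T
  residue_surjective := PS.residue_surjective
  z := PS.z
  finrank_le := PS.finrank_le
  rel := PS.rel
  act := fun k => (AS.act k).comp PS.pr
  u := PS.u
  u_mem := PS.u_mem
  act_u := fun k i => by
    rw [AlgHom.comp_apply, PS.pr_u, AS.act_u]
  A := AS.A
  B := AS.B
  A' := AS.A'
  B' := AS.B'
  A_act := fun k x => AS.A_act k (PS.pr x)
  B_act := fun k x => AS.B_act k (PS.pr x)
  A'_act := fun k x => AS.A'_act k (PS.pr x)
  B'_act := fun k x => AS.B'_act k (PS.pr x)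
  A'_A := fun k => by
    rw [AlgHom.comp_apply, map_add, map_natCast, map_one, ← hl k]
    exact AS.A'_A k
  B'_B := fun k => by
    rw [AlgHom.comp_apply, map_add, map_natCast, map_one, ← hl k]
    exact AS.B'_B k
  A'_B := fun k => by
    rw [AlgHom.comp_apply, PS.pr_tr k]
    exact AS.A'_B k (PS.gφ k) (PS.gφ_frob k)
  B'_A := fun k => by
    rw [AlgHom.comp_apply, PS.pr_tr k]
    exact AS.B'_A k (PS.gφ k) (PS.gφ_frob k)
  split := AS.split
  onto := AS.onto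
  new := fun k => by
    obtain ⟨Y1, Y2, hY⟩ := AS.new k (PS.gφ k) (PS.gφ_frob k)
    refine ⟨Y1, Y2, ?_⟩
    have e : PS.pr ((m59ci_trT a t0 PS.z (ch k) ^ 2 -
        (((m59ci_lc l8 ln (ch k) : ℕ) : PS.T) + 1) ^ 2) ^ ee k) =
        (tr (PS.gφ k) ^ 2 - (((l k : ℕ) : T') + 1) ^ 2) ^ ee k := by
      rw [map_pow, map_sub, map_pow, map_pow, map_add, map_natCast, map_one, PS.pr_tr k, ← hl k]
    rw [AlgHom.comp_apply, e]
    exact hY
  unr0 := fun i => by
    rw [AlgHom.comp_apply]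
    exact m59ci_kills_span (AS.act 0).toRingHom _ AS.unr0 _ (PS.pr_N i)
  π0 := PS.π0
  π0_surjective := PS.π0_surjective
  act_mod := fun t => by
    rw [AlgHom.comp_apply, AS.act_mod, PS.j_π0]
  π0_u := PS.π0_u
  π0_ν := PS.π0_ν

end glue

end

end Fermat.Agent.M59
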