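import Fermat.Agent.M59.Top.Chain.SysGlue
import Fermat.Agent.M59.EP.Seams
import Fermat.Agent.M59.Act.Chain
import Fermat.Agent.M59.C.KillJ
import Fermat.Agent.M59.C.Present
import Fermat.Agent.M59.S38g.MachSeams

/-!
M59 / [CHAIN-inst], THE CELLS OF [CI-SYS] (helper25, deputy; ruling #48).  Prefix `m59ci_`.

Statements only.  The leaf [CI-SYS] `m59ci_Sys_stmt` (M59/Top/Chain/LevelOfSys.lean) is cut along
the glue `m59ci_lvSys_of` (M59/Top/Chain/SysGlue.lean) into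

* **[CI-ACT]** `m59ci_Act_stmt` (module side; owner helper26): from the OUTPUT of block [E']
  (`m59ep_Chain_stmt`: bases `B k`, levels `L k`, steps) at one Taylor–Wiles set `Q`, and Galois
  diamonds `u` at the top level, to `m59ci_ActSys` over `(L m).T'` (= `m59ac_chain` composed with
  `m59ac_Pi`, + the trace compatibility [CI-TR] along the `πT`'s in `A'_B`, `B'_A`, `new`, `unr0`);
* **[CI-U]** `m59ci_U_stmt` (owner helper2): the EXPLICIT twin of `m59lg_tw_level`: the Galois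
  diamond `u t` is the eigenvalue of `ρ(σ_t)` on an eigenvector of `ρ(φ_t)`, in trace form
  (`u (a₀ - a₁) = tr ρ(φ σ) - a₁ tr ρ(σ)`), so that `(u t, 1)` lies in the pair ring;
* **[CI-PAIR]** `m59ci_Pair_stmt` (pair side; owner helper21): from ONE level `L` (the top level of
  the chain at `Q`), the frame `rW` of `ρ_W`, the base pair `H0` (`T₀ := H0.T`), the tame datum and
  the adapted frames at the primes of the chain, the explicit Galois diamonds and the cotangent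
  bound `m59ci_CotBound`, to `m59ci_PairSys` with `β` = the `ν`-coordinates of `H0`.

* `m59ci_zV` : the coordinates of a Hecke pair (helper21's `m59c_coordHg`, `m59c_coordN`);
* `m59ci_nuV` : the `ν`-coordinates computed from plain coordinate values;
* `m59ci_PairType` : the type of the pair rings (flat specialisations in case (d0), ordinary in case
  (II)); `m59ci_CotBound` : the cotangent bound for every pair of that type, in the coordinates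
  `m59ci_zV` (producer: `m59c_finrank_le`; in case (II) with helper13's coordinate at `p`).
-/

set_option autoImplicit false
set_option linter.style.haveILetI false
set_option linter.unusedSectionVars false
set_option linter.unusedVariables false

open Polynomial CuspForm IsLocalRing Fermat.Agent.TW Fermat.Agent.S53 Fermat.Agent.S56
  Fermat.Agent.JT3

namespace Fermat.Agent.M59

noncomputable section

local notation "GQ" => (AlgebraicClosure ℚ ≃ₐ[ℚ] AlgebraicClosure ℚ)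
local notation "Qbar" => AlgebraicClosure ℚ

attribute [local instance] S53.dualNumberAlgebra

/-! ### coordinates of a Hecke pair -/

section coords

variable {𝒪 : Type} [CommRing 𝒪] [IsLocalRing 𝒪] {rb : FramedResidual (ResidueField 𝒪)}

/-- **the coordinates of a Hecke pair** at the primes of the chain: helper21's `m59c_coordHg` at the
scalar-hard primes `T8` (frames `g ℓ` over `𝒪`), `m59c_coordN` at the non-scalar primes `Tn`
(cyclic vectors `e ℓ`). -/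
def m59ci_zV (gσ gφ : Nat.Primes → GQ) (T8 Tn : Finset Nat.Primes) (a : Nat.Primes → 𝒪)
    (g gi : Nat.Primes → Matrix (Fin 2) (Fin 2) 𝒪) (t₀ : Nat.Primes → 𝒪)
    (e : Nat.Primes → Fin 2 → 𝒪) (H : twc_HPair 𝒪 rb) : m59ci_Iz ↥T8 ↥Tn → H.T :=
  Sum.elim (m59c_coordHg gσ gφ a g gi H) (m59c_coordN gσ gφ t₀ e H)

variable {T : Type} [CommRing T] [Algebra 𝒪 T] {T8 Tn : Type}

/-- the entries of `Φ_t` from plain coordinate values. -/
def m59ci_PhiV (a : T8 → 𝒪) (z : m59ci_Iz T8 Tn → T) (t : T8) (i j : Fin 2) : T :=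
  (if i = j then algebraMap 𝒪 T (a t) else 0) + z (Sum.inl (t, 1, i, j))

/-- the `ν`-coordinates from plain coordinate values. -/
def m59ci_nuV (a : T8 → 𝒪) (t0 : Tn → 𝒪) (z : m59ci_Iz T8 Tn → T) : (T8 × Fin 6) ⊕ Tn → T :=
  Sum.elim
    (fun ti => ![m59ci_PhiV a z ti.1 0 0, m59ci_PhiV a z ti.1 1 0, m59ci_PhiV a z ti.1 1 1,
      z (Sum.inl (ti.1, 0, 0, 0)), z (Sum.inl (ti.1, 0, 1, 0)), z (Sum.inl (ti.1, 0, 1, 1))] ti.2)
    (fun l => algebraMap 𝒪 T (t0 l) + z (Sum.inr (l, 0)))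

theorem m59ci_nuT_eq_nuV [IsLocalRing T] (a : T8 → 𝒪) (t0 : Tn → 𝒪)
    (z : m59ci_Iz T8 Tn → maximalIdeal T) :
    m59ci_nuT a t0 z = m59ci_nuV a t0 (fun c => (z c : T)) := rfl

end coords

/-! ### the type of the pair rings and the cotangent bound -/

section types

variable {𝒪 : Type} [CommRing 𝒪] [IsLocalRing 𝒪] {rb : FramedResidual (ResidueField 𝒪)}

/-- **the type of the pair rings**: cyclotomic determinant; unramified outside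
`Smin ∪ Th ∪ Q ∪ {p}`; unipotent inertia at `Smin` and at the primes `Th` of the chain; at `p`:
FLAT specialisations if `good` (case (d0)), ORDINARY otherwise (case (II)).  `Smin` is the set of the
primes `q ≠ p` where `ρ̄` is ramified. -/
def m59ci_PairType (p : ℕ) (good : Prop) (Smin : Finset ℕ) (Th : Finset Nat.Primes)
    (Q : Finset ℕ) (H : twc_HPair 𝒪 rb) : Prop :=
  H.r.toGaloisRepAdic.DetIsCyclotomic p ∧
  (∀ q : ℕ, q.Prime → q ≠ p → q ∉ Smin ∪ Th.image (fun ℓ : Nat.Primes => (ℓ : ℕ)) ∪ Q →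
    H.r.toGaloisRepAdic.IsUnramifiedAt q) ∧
  (∀ q ∈ Smin, q.Prime → q ≠ p → H.r.toGaloisRepAdic.IsUnipotentOnInertiaAt q) ∧
  (∀ ℓ ∈ Th, H.r.toGaloisRepAdic.IsUnipotentOnInertiaAt ((ℓ : Nat.Primes) : ℕ)) ∧
  (good → ∀ φ : H.T →ₐ[𝒪] DualNumber (ResidueField 𝒪), Function.Surjective φ →
    (twc_frame H.r φ).toGaloisRepAdic.IsFlatAt p) ∧
  (¬ good → H.r.toGaloisRepAdic.IsOrdinaryAt p)

/-- **the cotangent bound**: for every Hecke pair of the type of the pair rings, the cotangent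
space modulo the coordinates `m59ci_zV` has dimension `≤ c`. -/
def m59ci_CotBound (p : ℕ) (good : Prop) (Smin : Finset ℕ) (T8 Tn : Finset Nat.Primes)
    (Q : Finset ℕ) (gσ gφ : Nat.Primes → GQ) (a : Nat.Primes → 𝒪)
    (g gi : Nat.Primes → Matrix (Fin 2) (Fin 2) 𝒪) (t₀ : Nat.Primes → 𝒪)
    (e : Nat.Primes → Fin 2 → 𝒪) (c : ℕ) : Prop :=
  ∀ H : twc_HPair 𝒪 rb, m59ci_PairType p good Smin (T8 ∪ Tn) Q H →
    ∀ z : m59ci_Iz ↥T8 ↥Tn → maximalIdeal H.T,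
      (∀ x, (z x : H.T) = m59ci_zV gσ gφ T8 Tn a g gi t₀ e H x) →
      Module.finrank (ResidueField H.T) (CotangentSpace H.T ⧸ twc_relW 𝒪 z) ≤ c

end types

/-! ### [CI-ACT] -/

/-- **[CI-ACT]** (module side): the output of block [E'] at one Taylor–Wiles set `Q`, with Galois
diamonds at the top level, gives `m59ci_ActSys` over the Hecke ring of the top level. -/
def m59ci_Act_stmt : Prop :=
  ∀ (p : ℕ) [Fact p.Prime], p ≠ 2 →
  ∀ (𝒪 : Type) [CommRing 𝒪] [IsDomain 𝒪] [IsDiscreteValuationRing 𝒪]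
    [IsAdicComplete (maximalIdeal 𝒪) 𝒪] [Finite (ResidueField 𝒪)] [CharZero 𝒪],
    (p : 𝒪) ∈ maximalIdeal 𝒪 →
  ∀ (N : ℕ) [NeZero N] (S₀ : Finset ℕ), p ∈ S₀ → (∀ ℓ : ℕ, ℓ.Prime → ℓ ∣ N → ℓ ∈ S₀) →
  ∀ (m : ℕ) (l : Fin m → ℕ), Function.Injective l →
    (∀ i, (l i).Prime ∧ l i ∉ S₀ ∧ l i ≠ p) →
  ∀ [∀ k : ℕ, NeZero (m59ep_lvl N l k)]
    (θ : ∀ k : ℕ, heckeAlgebra (m59ep_lvl N l k) 2 (↑(m59ep_bad S₀ l k) : Set ℕ) →+*
      ResidueField 𝒪)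
    (ρbar : ResidualGaloisRep (ResidueField 𝒪)),
    (∀ k, twt_Compat (θ k) ρbar) → ρbar.IsAbsolutelyIrreducible →
  ∀ (B : ∀ k : ℕ, twe_Base 𝒪 (m59ep_lvl N l k) (m59ep_bad S₀ l k) (θ k))
    (Q : Finset ℕ) [∀ k : ℕ, NeZero (twe_Nbal (m59ep_lvl N l k) Q ∅)],
    (∀ t ∈ Q, t ∉ S₀ ∧ ∀ i, t ≠ l i) → (∀ k, twe_IsTWSet (θ k) p Q) →
  ∀ (L : ∀ k : ℕ, twe_Level (B k) p Q),
    (∀ k : Fin m, Nonempty (m59ep_Step (L (k : ℕ)) (L ((k : ℕ) + 1)) (l k))) →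
  ∀ (u : ∀ t : ℕ, t ∈ Q → (L m).T'), m59ac_IsDia (L m) u →
  ∀ (rr : ℕ) (qv : Fin rr → ℕ) (hqv : ∀ i, qv i ∈ Q), Function.Injective qv →
    (∀ t ∈ Q, ∃ i, qv i = t) →
  ∀ n : ℕ, (∀ i, p ^ n ∣ twe_ord p (qv i)) →
    Nonempty (m59ci_ActSys 𝒪 rr (fun k : Fin (m + 1) => (B (k : ℕ)).d * 2 ^ rr) l
      (fun k : Fin m => (B ((k : ℕ) + 1)).d * 2 ^ rr)
      (twds_a 𝒪 rr) (twds_b 𝒪 rr (p ^ n)) (twds_b_le_a rr (p ^ n))
      (L m).T' (fun σ => (L m).H'.ρ.trace σ)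
      ((twc_j (B m) rr).comp ((L m).π0 : (L m).T' →+* (B m).T))
      (fun i => u (qv i) (hqv i)))

/-! ### [CI-U] -/

/-- the Galois description of a diamond `u` at the Taylor–Wiles prime `t`, in trace form: `φ` a
Frobenius element, `σ` in inertia, `a₀, a₁` the eigenvalues of `ρ(φ)` (distinct modulo `𝔪`),
`u, u'` those of `ρ(σ)` on the same eigenvectors. -/
def m59ci_IsGalDia {T' : Type} [CommRing T'] [IsLocalRing T'] (ρ : GaloisRepAdic T') (t : ℕ)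
    (u : T') : Prop :=
  ∃ (φ σ : GQ) (a0 a1 u' : T'), m59ci_IsFrob φ t ∧ m59ci_IsInert σ t ∧ IsUnit (a0 - a1) ∧
    a0 + a1 = ρ.trace φ ∧ a0 * a1 = LinearMap.det (ρ.ρ φ) ∧
    u * u' = 1 ∧ u + u' = ρ.trace σ ∧ a0 * u + a1 * u' = ρ.trace (φ * σ)

/-- **[CI-U]**: the explicit twin of `m59lg_tw_level` (M59/LG/TWLevel.lean). -/
def m59ci_U_stmt : Prop :=
  ∀ (p : ℕ) [Fact p.Prime], p ≠ 2 →
  ∀ (𝒪 : Type) [CommRing 𝒪] [IsDomain 𝒪] [IsDiscreteValuationRing 𝒪]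
    [IsAdicComplete (maximalIdeal 𝒪) 𝒪] [Finite (ResidueField 𝒪)] [CharZero 𝒪],
    (p : 𝒪) ∈ maximalIdeal 𝒪 → ∀ (ζ : 𝒪), IsPrimitiveRoot ζ p →
  ∀ (N : ℕ) [NeZero N] (S : Finset ℕ), p ∈ S → (∀ ℓ : ℕ, ℓ.Prime → ℓ ∣ N → ℓ ∈ S) →
  ∀ (θ : heckeAlgebra N 2 (↑S : Set ℕ) →+* ResidueField 𝒪)
    (ρbar : ResidualGaloisRep (ResidueField 𝒪)), twt_Compat θ ρbar →
  ∀ (B : twe_Base 𝒪 N S θ) (Q : Finset ℕ) [NeZero (twe_Nbal N Q ∅)],
    (∀ t ∈ Q, ρbar.IsUnramifiedAt t) → (∀ t ∈ Q, t ∉ S) → twe_IsTWSet θ p Q →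
    (∀ t ∈ Q, ∀ P : ValuationSubring Qbar, P.LiesOverPrime t → ∀ φ : GQ,
      P.IsFrobeniusAt φ t →
      ∃ α β : ResidueField 𝒪, α ≠ β ∧ LinearMap.charpoly (ρbar.ρ φ) = (X - C α) * (X - C β)) →
  ∀ (L : twe_Level B p Q), L.IsLG2 →
    ∃ u : ∀ t : ℕ, t ∈ Q → L.T', m59ac_IsDia L u ∧
      (∀ t ht, u t ht - 1 ∈ maximalIdeal L.T') ∧
      ∀ t ht, m59ci_IsGalDia L.H'.ρ t (u t ht)

/-! ### [CI-PAIR] -/

/-- **[CI-PAIR]** (pair side): the pair ring of the top level `L` of the chain at `Q = image qv`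
and of `ρ_W` (frame `rW`), over the base pair `H0` (`T₀ := H0.T`). -/
def m59ci_Pair_stmt : Prop :=
  ∀ (p : ℕ) [Fact p.Prime], p ≠ 2 →
  ∀ (𝒪 : Type) [CommRing 𝒪] [IsDomain 𝒪] [IsDiscreteValuationRing 𝒪]
    [IsAdicComplete (maximalIdeal 𝒪) 𝒪] [Finite (ResidueField 𝒪)] [CharZero 𝒪],
    (p : 𝒪) ∈ maximalIdeal 𝒪 →
  -- the top level of the chain
  ∀ (N : ℕ) [NeZero N], Squarefree N →
  ∀ (S : Finset ℕ), p ∈ S → (∀ ℓ : ℕ, ℓ.Prime → ℓ ∣ N → ℓ ∈ S) →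
  ∀ (θ : heckeAlgebra N 2 (↑S : Set ℕ) →+* ResidueField 𝒪)
    (rb : FramedResidual (ResidueField 𝒪)),
    twt_Compat θ rb.toResidualGaloisRep → s56a_Hyp p rb.toResidualGaloisRep →
  -- the primes where `ρ̄` is ramified
  ∀ (Smin : Finset ℕ), p ∉ Smin → (∀ q ∈ Smin, q.Prime ∧ q ∣ N) →
    (∀ q : ℕ, q.Prime → q ≠ p →
      (q ∈ Smin ↔ ¬ rb.toResidualGaloisRep.IsUnramifiedAt q)) →
  -- the representation of `W`
  ∀ (rW : FramedRep 𝒪), (∀ σ, (rW σ).map (residue 𝒪) = rb σ) →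
    rW.toGaloisRepAdic.DetIsCyclotomic p →
    (∀ q : ℕ, q.Prime → q ≠ p → rW.toGaloisRepAdic.IsUnipotentOnInertiaAt q) →
  -- the primes of the chain: scalar-hard `T8`, non-scalar `Tn`
  ∀ (T8 Tn : Finset Nat.Primes), Disjoint T8 Tn →
    (∀ ℓ ∈ T8 ∪ Tn, ((ℓ : Nat.Primes) : ℕ) ∣ N ∧ ((ℓ : Nat.Primes) : ℕ) ∉ Smin ∧
      ((ℓ : Nat.Primes) : ℕ) ≠ p) →
    (∀ q : ℕ, q.Prime → q ≠ p → q ∉ Smin →
      q ∉ (T8 ∪ Tn).image (fun ℓ : Nat.Primes => (ℓ : ℕ)) → rW.toGaloisRepAdic.IsUnramifiedAt q) →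
    (∀ q : ℕ, q.Prime → q ∣ N → q ≠ p → q ∉ Smin →
      q ∉ (T8 ∪ Tn).image (fun ℓ : Nat.Primes => (ℓ : ℕ)) →
      m59m_IsHarmless p rb.toResidualGaloisRep q) →
  -- the condition at `p`: case (d0) `good`, case (II) `¬ good`
  ∀ (good : Prop), (good → ¬ p ∣ N ∧ rW.toGaloisRepAdic.IsFlatAt p) →
    (¬ good → p ∣ N ∧ rW.toGaloisRepAdic.IsOrdinaryAt p) →
  -- the tame datum and the adapted frames
  ∀ (td : m59c_TameData p (T8 ∪ Tn)) (a : Nat.Primes → 𝒪)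
    (g gi : Nat.Primes → Matrix (Fin 2) (Fin 2) 𝒪) (t₀ : Nat.Primes → 𝒪)
    (e : Nat.Primes → Fin 2 → 𝒪),
    (∀ ℓ ∈ T8, gi ℓ * g ℓ = 1) →
    (∀ ℓ ∈ T8, rb (td.gφ ℓ) = Matrix.scalar (Fin 2) (residue 𝒪 (a ℓ))) →
    (∀ ℓ ∈ Tn, residue 𝒪 (t₀ ℓ) = Matrix.trace (rb (td.gφ ℓ))) →
    (∀ ℓ ∈ Tn, (m59c_cyc (rb (td.gφ ℓ)) (fun i => residue 𝒪 (e ℓ i))).det ≠ 0) →
  -- the enumeration of the chain
  ∀ (m : ℕ) (ch : Fin m → ↥T8 ⊕ ↥Tn), Function.Bijective ch →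
  -- the base package and the base pair
  ∀ (B : twe_Base 𝒪 N S θ) (H0 : twc_HPair 𝒪 rb) [Module.Finite 𝒪 H0.T]
    (p1 : H0.T →ₐ[𝒪] B.T) (p2 : H0.T →ₐ[𝒪] 𝒪),
    (∀ t t' : H0.T, p1 t = p1 t' → p2 t = p2 t' → t = t') →
    (∀ σ, p1 (Matrix.trace (H0.r σ)) = B.H.ρ.trace σ) →
    (∀ σ, p2 (Matrix.trace (H0.r σ)) = Matrix.trace (rW σ)) →
    Algebra.adjoin 𝒪 (Set.range fun σ : GQ => Matrix.trace (H0.r σ)) = ⊤ →
  -- the Taylor–Wiles set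
  ∀ (rr : ℕ) (qv : Fin rr → ℕ), Function.Injective qv →
    (∀ i, (qv i).Prime ∧ qv i ∉ S ∧ qv i % p = 1) →
    (∀ i, ∀ P : ValuationSubring Qbar, P.LiesOverPrime (qv i) →
      ∀ φ : GQ, P.IsFrobeniusAt φ (qv i) → ∃ α β : ResidueField 𝒪, α ≠ β ∧
        LinearMap.charpoly (rb.toResidualGaloisRep.ρ φ) = (X - C α) * (X - C β)) →
  ∀ [NeZero (twe_Nbal N (Finset.univ.image qv) ∅)]
    (L : twe_Level B p (Finset.univ.image qv))
    (u : ∀ t : ℕ, t ∈ Finset.univ.image qv → L.T'),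
    (∀ t ht, u t ht - 1 ∈ maximalIdeal L.T') →
    (∀ t ht, m59ci_IsGalDia L.H'.ρ t (u t ht)) →
  -- the cotangent bound
  ∀ (c : ℕ), m59ci_CotBound (rb := rb) p good Smin T8 Tn (Finset.univ.image qv) td.gσ td.gφ a g gi
      t₀ e c →
    Nonempty (m59ci_PairSys 𝒪 rr (B.d * 2 ^ rr)
      (fun k => m59ci_lc (fun ℓ : ↥T8 => ((ℓ : Nat.Primes) : ℕ))
        (fun ℓ : ↥Tn => ((ℓ : Nat.Primes) : ℕ)) (ch k))
      (Fin c) (fun ℓ : ↥T8 => a ℓ) (fun ℓ : ↥T8 => ((ℓ : Nat.Primes) : ℕ))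
      (fun ℓ : ↥Tn => t₀ ℓ) (fun ℓ : ↥Tn => ((ℓ : Nat.Primes) : ℕ)) ch
      (twds_a 𝒪 rr) H0.T ((twc_j B rr).comp (p1 : H0.T →+* B.T))
      (m59ci_nuV (fun ℓ : ↥T8 => a ℓ) (fun ℓ : ↥Tn => t₀ ℓ)
        (m59ci_zV td.gσ td.gφ T8 Tn a g gi t₀ e H0))
      L.T' (fun σ => L.H'.ρ.trace σ)
      ((twc_j B rr).comp (L.π0 : L.T' →+* B.T))
      (fun i => u (qv i) (Finset.mem_image.2 ⟨i, Finset.mem_univ _, rfl⟩)))

end

end Fermat.Agent.M59
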