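import Mathlib
import Fermat.Agent.TW.Aut.LocAlg
import Fermat.Agent.TW.Patch.T0Inst

/-!
M59 / [CHAIN-inst], cell [ADJ] (helper9, chief architect; ruling #48).  Prefix `m59ci_adj`.

The base ring `T₀'` of `m59d_ChainInput_stmt` (M59/Top/CoreOf.lean), as pure algebra.

`𝒪` a complete noetherian local ring with finite residue field, `C` a commutative `𝒪`-algebra which
is a finite `𝒪`-module (in use: `C = T_∅(N)_𝔪`, the localised Hecke algebra of the TOP level of the
chain, `twe_Base.T`), `g : I → C` (in use: `g ℓ = T_ℓ`), `a : I → 𝒪` (in use: `a ℓ = a_ℓ(W)`).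

* `m59ci_adj g a : Subalgebra 𝒪 (C × 𝒪)` := the `𝒪`-subalgebra generated by the pairs
  `(g i, a i)`;  `m59ci_adj_gen g a i` the pair as an element;
* `m59ci_adj_fst`, `m59ci_adj_snd` : the two projections (`x₂ := snd`), with
  `m59ci_adj_fst_gen`, `m59ci_adj_snd_gen`;
* `m59ci_adj_finite` : a finite `𝒪`-module;  `m59ci_adj_complete`, `m59ci_adj_finite_quot` : the
  fields `complT0`, `hT0` of `m59d_ChainData`;
* `m59ci_adj_hgen` : a FINITE family `γ` which together with the range of any ring hom `θ` whose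
  range contains the image of `𝒪` generates `T₀'` as a ring (field `hgen`).
* `m59ci_adj_exists` : everything bundled in the shape the assembly consumes.
-/

set_option autoImplicit false
set_option linter.style.haveILetI false

open IsLocalRing

namespace Fermat.Agent.M59

open Fermat.Agent.TW

section

variable {𝒪 : Type} [CommRing 𝒪] {C : Type} [CommRing C] [Algebra 𝒪 C] {I : Type*}

/-- `T₀'` : the `𝒪`-subalgebra of `C × 𝒪` generated by the pairs `(g i, a i)`. -/
def m59ci_adj (g : I → C) (a : I → 𝒪) : Subalgebra 𝒪 (C × 𝒪) :=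
  Algebra.adjoin 𝒪 (Set.range fun i => (g i, a i))

/-- the generator `(g i, a i)`. -/
def m59ci_adj_gen (g : I → C) (a : I → 𝒪) (i : I) : m59ci_adj g a :=
  ⟨(g i, a i), Algebra.subset_adjoin ⟨i, rfl⟩⟩

/-- the first projection `T₀' → C`. -/
def m59ci_adj_fst (g : I → C) (a : I → 𝒪) : m59ci_adj g a →ₐ[𝒪] C :=
  (AlgHom.fst 𝒪 C 𝒪).comp (m59ci_adj g a).val

/-- the second projection `x₂ : T₀' → 𝒪`. -/
def m59ci_adj_snd (g : I → C) (a : I → 𝒪) : m59ci_adj g a →ₐ[𝒪] 𝒪 :=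
  (AlgHom.snd 𝒪 C 𝒪).comp (m59ci_adj g a).val

@[simp] theorem m59ci_adj_fst_gen (g : I → C) (a : I → 𝒪) (i : I) :
    m59ci_adj_fst g a (m59ci_adj_gen g a i) = g i := rfl

@[simp] theorem m59ci_adj_snd_gen (g : I → C) (a : I → 𝒪) (i : I) :
    m59ci_adj_snd g a (m59ci_adj_gen g a i) = a i := rfl

/-- the two projections are jointly injective. -/
theorem m59ci_adj_ext (g : I → C) (a : I → 𝒪) {t t' : m59ci_adj g a}
    (h1 : m59ci_adj_fst g a t = m59ci_adj_fst g a t')
    (h2 : m59ci_adj_snd g a t = m59ci_adj_snd g a t') : t = t' :=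
  Subtype.ext (Prod.ext h1 h2)

/-- `T₀'` is a finite `𝒪`-module. -/
theorem m59ci_adj_finite [IsNoetherianRing 𝒪] [Module.Finite 𝒪 C] (g : I → C) (a : I → 𝒪) :
    Module.Finite 𝒪 (m59ci_adj g a) := by
  haveI : IsNoetherian 𝒪 (C × 𝒪) := isNoetherian_of_isNoetherianRing_of_finite 𝒪 (C × 𝒪)
  exact Module.Finite.of_injective (m59ci_adj g a).val.toLinearMap Subtype.val_injective

/-- field `hT0`. -/
theorem m59ci_adj_finite_quot [IsLocalRing 𝒪] [IsNoetherianRing 𝒪] [Finite (ResidueField 𝒪)]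
    [Module.Finite 𝒪 C] (g : I → C) (a : I → 𝒪) (lam : 𝒪)
    (hlam : maximalIdeal 𝒪 = Ideal.span {lam}) (k : ℕ) :
    Finite ((m59ci_adj g a) ⧸ (Ideal.span {algebraMap 𝒪 (m59ci_adj g a) lam}) ^ k) := by
  haveI := m59ci_adj_finite g a
  exact twd_t0_finite_quot lam hlam k

/-- field `complT0`. -/
theorem m59ci_adj_complete [IsLocalRing 𝒪] [IsNoetherianRing 𝒪]
    [IsAdicComplete (maximalIdeal 𝒪) 𝒪] [Module.Finite 𝒪 C] (g : I → C) (a : I → 𝒪) (lam : 𝒪)
    (hlam : maximalIdeal 𝒪 = Ideal.span {lam}) :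
    IsAdicComplete (Ideal.span {algebraMap 𝒪 (m59ci_adj g a) lam}) (m59ci_adj g a) := by
  haveI := m59ci_adj_finite g a
  have h := twe_la_isAdicComplete_J (𝒪 := 𝒪) (B := m59ci_adj g a)
  have he : twe_la_J 𝒪 (m59ci_adj g a) = Ideal.span {algebraMap 𝒪 (m59ci_adj g a) lam} := by
    unfold twe_la_J
    rw [hlam, Ideal.map_span, Set.image_singleton]
  rwa [he] at h

/-- field `hgen`: a finite family of module generators generates `T₀'` as a ring together with the
range of any ring hom whose range contains the image of `𝒪`. -/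
theorem m59ci_adj_hgen [IsNoetherianRing 𝒪] [Module.Finite 𝒪 C] (g : I → C) (a : I → 𝒪) :
    ∃ (n : ℕ) (γ : Fin n → m59ci_adj g a),
      ∀ {S : Type*} [CommRing S] (θ : S →+* m59ci_adj g a),
        (∀ c : 𝒪, algebraMap 𝒪 (m59ci_adj g a) c ∈ θ.range) →
        Subring.closure (Set.range γ ∪ Set.range θ) = ⊤ := by
  haveI := m59ci_adj_finite g a
  obtain ⟨n, γ, hγ⟩ := Module.Finite.exists_fin (R := 𝒪) (M := m59ci_adj g a)
  refine ⟨n, γ, fun {S} _ θ hθ => ?_⟩
  rw [eq_top_iff]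
  rintro t -
  have ht : t ∈ Submodule.span 𝒪 (Set.range γ) := by rw [hγ]; trivial
  induction ht using Submodule.span_induction with
  | mem x hx => exact Subring.subset_closure (Or.inl hx)
  | zero => exact Subring.zero_mem _
  | add x y _ _ hx hy => exact Subring.add_mem _ hx hy
  | smul c x _ hx =>
    rw [Algebra.smul_def]
    refine Subring.mul_mem _ (Subring.subset_closure (Or.inr ?_)) hx
    obtain ⟨s, hs⟩ := hθ c
    exact ⟨s, hs⟩

end

/-- **[ADJ], bundled**: the base ring `T₀'` with its point `x₂`, the generators `t_i`, and the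
instance obligations of `m59d_ChainData`. -/
theorem m59ci_adj_exists {𝒪 : Type} [CommRing 𝒪] [IsLocalRing 𝒪] [IsNoetherianRing 𝒪]
    [IsAdicComplete (maximalIdeal 𝒪) 𝒪] [Finite (ResidueField 𝒪)] (lam : 𝒪)
    (hlam : maximalIdeal 𝒪 = Ideal.span {lam})
    {C : Type} [CommRing C] [Algebra 𝒪 C] [Module.Finite 𝒪 C] {I : Type} (g : I → C) (a : I → 𝒪) :
    ∃ (T0 : Type) (_ : CommRing T0) (_ : Algebra 𝒪 T0) (pr : T0 →ₐ[𝒪] C) (x₂ : T0 →ₐ[𝒪] 𝒪)
      (t : I → T0) (n : ℕ) (γ : Fin n → T0),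
      Module.Finite 𝒪 T0 ∧
      IsAdicComplete (Ideal.span {algebraMap 𝒪 T0 lam}) T0 ∧
      (∀ k, Finite (T0 ⧸ (Ideal.span {algebraMap 𝒪 T0 lam}) ^ k)) ∧
      (∀ i, pr (t i) = g i) ∧ (∀ i, x₂ (t i) = a i) ∧
      (∀ s s' : T0, pr s = pr s' → x₂ s = x₂ s' → s = s') ∧
      ∀ {S : Type} [CommRing S] (θ : S →+* T0),
        (∀ c : 𝒪, algebraMap 𝒪 T0 c ∈ θ.range) →
        Subring.closure (Set.range γ ∪ Set.range θ) = ⊤ := by
  obtain ⟨n, γ, hγ⟩ := m59ci_adj_hgen g a
  exact ⟨m59ci_adj g a, inferInstance, inferInstance, m59ci_adj_fst g a, m59ci_adj_snd g a,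
    m59ci_adj_gen g a, n, γ, m59ci_adj_finite g a, m59ci_adj_complete g a lam hlam,
    m59ci_adj_finite_quot g a lam hlam, fun _ => rfl, fun _ => rfl,
    fun _ _ h1 h2 => m59ci_adj_ext g a h1 h2, fun θ hθ => hγ θ hθ⟩

end Fermat.Agent.M59
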