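import Fermat.Agent.M59.Top.Chain.Seams
import Fermat.Agent.M59.E.AbsStep
import Fermat.Agent.TW.Def.Level

/-!
M59 / [CHAIN-inst], the level system of the chain (helper25, deputy; ruling #48).  Prefix `m59ci_`.

`structure m59ci_LvSys` : the chain analogue of main's `twc_LvSys` / `twc_LvIn2` (TW/Def/Level.lean)
on the concrete frame of M59/Top/Chain/Seams.lean, at ONE patching level `n` (`𝔟 = 𝔟_n`):

* ONE complete noetherian local `𝒪`-algebra `T` (in use: the PAIR ring `T''_n ⊆ T'_n × 𝒪` of the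
  top level of the chain, block [PAIR] of helper21), with local coordinates
  `z : (T8 × Fin 2 × Fin 2 × Fin 2) ⊕ (Tn × Fin 3) → 𝔪_T` (entries of `Σ_t - 1`, `Φ_t - a_t` in the
  adapted frame; `tr Φ_l - t0_l`, `n₁`, `n₂`), the cotangent bound `finrank_le` (`≤ |κ|`) and the
  relations `rel` (`m59b_J` dies under every presentation sending the coordinate variables to `z`:
  helper21's `m59c_J_le_ker`);
* for EVERY level `k` of the chain the action `act k : T → Mat_{d k}(S_∞ / 𝔟)` (in use: helper26's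
  `m59ac_chain`: `act k ∘ m59ac_Pi k ∘ pr₁`), the Galois diamonds `u i` with
  `act k (u i) = 1 + y_i` at every level;
* for every step `k` the four degeneracy matrices `A, B, A', B'` with their `T`-equivariance, the
  relations `A'A = B'B = l + 1`, `A'B = B'A = tr Φ_l` (the TRACE COORDINATE `m59ci_trT`), (I1), (I2),
  and (I3) for `((tr Φ_l)² - (l + 1)²) ^ (ee k)`;
* [UNR-0] the `N`-coordinates act by `0` at the level `0`;
* `π0 : T ↠ T₀` with `act_mod`, `π0 (u i) = 1`, and `π0` of the `ν`-coordinates `= β`.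

`m59ci_abs_step` : helper8's `m59eo_abs_step` (M59/E/AbsStep.lean) with an ARBITRARY element `x` in
(I3) (here `x = r ^ e`) and the formula `alN f = p * al' f * q` exported.
-/

set_option autoImplicit false
set_option linter.style.haveILetI false
set_option linter.unusedSectionVars false
set_option linter.unusedVariables false

open IsLocalRing MvPowerSeries Matrix Fermat.Agent.TW

namespace Fermat.Agent.M59

noncomputable section

/-! ### the one-step datum with a general element in (I3) -/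

section absstep

variable {Λ R : Type*} [CommRing Λ] [IsLocalRing Λ] [CommRing R]

/-- **the one-step datum** (helper8's `m59eo_abs_step`, proof verbatim) with (I3) for an arbitrary
`x : R` and the compression formula exported. -/
theorem m59ci_abs_step {d d' e : ℕ} (he : e + 2 * d = d')
    (al : R →+* Matrix (Fin d) (Fin d) Λ) (al' : R →+* Matrix (Fin d') (Fin d') Λ)
    (A B : Matrix (Fin d') (Fin d) Λ) (A' B' : Matrix (Fin d) (Fin d') Λ)
    (l : ℕ) (ε : ℤ) (hε : ε * ε = 1) (t : R)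
    (hA : ∀ f, al' f * A = A * al f) (hB : ∀ f, al' f * B = B * al f)
    (hA' : ∀ f, A' * al' f = al f * A') (hB' : ∀ f, B' * al' f = al f * B')
    (hAA : A' * A = al ((l : R) + 1)) (hBB : B' * B = al ((l : R) + 1))
    (hAB : A' * B = al t) (hBA : B' * A = al t)
    (L1 L2 : Matrix (Fin d) (Fin d') Λ)
    (hL1A : L1 * A = 1) (hL1B : L1 * B = 0) (hL2A : L2 * A = 0) (hL2B : L2 * B = 1)
    (V1 : Matrix (Fin d') (Fin d) Λ) (hAV : A' * V1 = 1) (hBV : B' * V1 = 0)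
    (x : R) (Y1 Y2 : Matrix (Fin d) (Fin d') Λ) (hY : al' x = A * Y1 + B * Y2) :
    ∃ (p : Matrix (Fin e) (Fin d') Λ) (q : Matrix (Fin d') (Fin e) Λ)
      (alN : R →+* Matrix (Fin e) (Fin e) Λ),
      p * q = 1 ∧ (∀ f, p * al' f = alN f * p) ∧
      (A' - ε • B') * V1 = 1 ∧ (∀ f, (A' - ε • B') * al' f = al f * (A' - ε • B')) ∧
      (A' - ε • B') * (1 - q * p) = al (((l : R) + 1) - ε • t) * (L1 - ε • L2) ∧
      alN x = 0 ∧ (∀ f, alN f = p * al' f * q) := by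
  classical
  have hLI : Matrix.fromRows L1 L2 * Matrix.fromCols A B = 1 := by
    rw [Matrix.fromRows_mul_fromCols, hL1A, hL1B, hL2A, hL2B, Matrix.fromBlocks_one]
  have hIL : Matrix.fromCols A B * Matrix.fromRows L1 L2 = A * L1 + B * L2 :=
    Matrix.fromCols_mul_fromRows A B L1 L2
  have hcard : e + Fintype.card (Fin d ⊕ Fin d) = d' := by
    rw [Fintype.card_sum, Fintype.card_fin]
    omega
  obtain ⟨p, q, hpq, hqp⟩ := m59eo_abs_idem (Λ := Λ) hcard _ _ hLI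
  rw [hIL] at hqp
  have hPA : q * p * A = 0 := by
    rw [hqp, Matrix.sub_mul, Matrix.one_mul, Matrix.add_mul, Matrix.mul_assoc, Matrix.mul_assoc,
      hL1A, hL2A, Matrix.mul_one, Matrix.mul_zero, add_zero, sub_self]
  have hPB : q * p * B = 0 := by
    rw [hqp, Matrix.sub_mul, Matrix.one_mul, Matrix.add_mul, Matrix.mul_assoc, Matrix.mul_assoc,
      hL1B, hL2B, Matrix.mul_one, Matrix.mul_zero, zero_add, sub_self]
  have hpA : p * A = 0 := by
    have : p * (q * p * A) = 0 := by rw [hPA, Matrix.mul_zero]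
    rwa [← Matrix.mul_assoc, ← Matrix.mul_assoc, hpq, Matrix.one_mul] at this
  have hpB : p * B = 0 := by
    have : p * (q * p * B) = 0 := by rw [hPB, Matrix.mul_zero]
    rwa [← Matrix.mul_assoc, ← Matrix.mul_assoc, hpq, Matrix.one_mul] at this
  have hst : ∀ f, q * p * al' f = q * p * al' f * (q * p) := by
    intro f
    have h1 : q * p * al' f * (A * L1 + B * L2) = 0 := by
      rw [Matrix.mul_add, Matrix.mul_assoc (q * p) (al' f) (A * L1),
        Matrix.mul_assoc (q * p) (al' f) (B * L2), ← Matrix.mul_assoc (al' f) A L1,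
        ← Matrix.mul_assoc (al' f) B L2, hA f, hB f, Matrix.mul_assoc A, Matrix.mul_assoc B,
        ← Matrix.mul_assoc (q * p) A, ← Matrix.mul_assoc (q * p) B, hPA, hPB, Matrix.zero_mul,
        Matrix.zero_mul, add_zero]
    calc q * p * al' f = q * p * al' f * 1 - q * p * al' f * (A * L1 + B * L2) := by
          rw [h1, sub_zero, Matrix.mul_one]
      _ = q * p * al' f * (1 - (A * L1 + B * L2)) := by rw [Matrix.mul_sub]
      _ = q * p * al' f * (q * p) := by rw [← hqp]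
  obtain ⟨alN, halN⟩ := m59eo_abs_compress al' p q hpq hst
  have hpP : p * (q * p) = p := by rw [← Matrix.mul_assoc, hpq, Matrix.one_mul]
  refine ⟨p, q, alN, hpq, ?_, ?_, ?_, ?_, ?_, halN⟩
  · intro f
    rw [halN f]
    have h1 : p * al' f * (q * p) = p * al' f := by
      calc p * al' f * (q * p) = p * (q * p * al' f * (q * p)) := by
            rw [← Matrix.mul_assoc p, ← Matrix.mul_assoc p, hpP]
        _ = p * (q * p * al' f) := by rw [← hst f]
        _ = p * al' f := by rw [← Matrix.mul_assoc p, hpP]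
    calc p * al' f = p * al' f * (q * p) := h1.symm
      _ = p * al' f * q * p := by rw [← Matrix.mul_assoc]
  · rw [Matrix.sub_mul, Matrix.smul_mul, hAV, hBV, smul_zero, sub_zero]
  · intro f
    rw [Matrix.sub_mul, Matrix.smul_mul, hA' f, hB' f, Matrix.mul_sub, Matrix.mul_smul]
  · have hs : al (((l : R) + 1) - ε • t) = al ((l : R) + 1) - ε • al t := by
      rw [map_sub, map_zsmul]
    have hεε : ∀ X : Matrix (Fin d) (Fin d') Λ, ε • ε • X = X := by
      intro X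
      rw [smul_smul, hε, one_smul]
    rw [hqp, sub_sub_cancel, hs]
    have e1 : (A' - ε • B') * (A * L1 + B * L2) =
        (A' * A) * L1 - ε • ((B' * A) * L1) + ((A' * B) * L2 - ε • ((B' * B) * L2)) := by
      rw [Matrix.mul_add, Matrix.sub_mul, Matrix.sub_mul, Matrix.smul_mul, Matrix.smul_mul,
        Matrix.mul_assoc, Matrix.mul_assoc, Matrix.mul_assoc, Matrix.mul_assoc]
    have e2 : (al ((l : R) + 1) - ε • al t) * (L1 - ε • L2) =
        al ((l : R) + 1) * L1 - ε • (al t * L1) +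
          (ε • ε • (al t * L2) - ε • (al ((l : R) + 1) * L2)) := by
      rw [Matrix.sub_mul, Matrix.mul_sub, Matrix.mul_sub, Matrix.smul_mul, Matrix.smul_mul,
        Matrix.mul_smul, Matrix.mul_smul]
      abel
    rw [e1, e2, hAA, hBB, hAB, hBA, hεε]
  · rw [halN, hY, Matrix.mul_add, ← Matrix.mul_assoc p A, ← Matrix.mul_assoc p B, hpA, hpB,
      Matrix.zero_mul, Matrix.zero_mul, add_zero, Matrix.zero_mul]

end absstep

/-! ### the level system -/

section defs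

/-- the index type of the local coordinates. -/
abbrev m59ci_Iz (T8 Tn : Type) : Type := (T8 × Fin 2 × Fin 2 × Fin 2) ⊕ (Tn × Fin 3)

/-- the coordinate variables of `m59b_P`. -/
def m59ci_emb {T8 Tn : Type} (κ : Type) :
    m59ci_Iz T8 Tn → twb_r8_Idx T8 (m59b_Aux Tn κ) :=
  Sum.elim Sum.inl (fun c => Sum.inr (Sum.inl c))

/-- the `N`-coordinates among the local coordinates (the index of `m59b_u`). -/
def m59ci_embN {T8 Tn : Type} : (T8 × Fin 2 × Fin 2) ⊕ (Tn × Fin 2) → m59ci_Iz T8 Tn :=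
  Sum.elim (fun c => Sum.inl (c.1, 0, c.2.1, c.2.2)) (fun c => Sum.inr (c.1, Fin.succ c.2))

/-- the prime number attached to a prime of `B'`. -/
def m59ci_lc {T8 Tn : Type} (l8 : T8 → ℕ) (ln : Tn → ℕ) : T8 ⊕ Tn → ℕ := Sum.elim l8 ln

variable {𝒪 : Type} [CommRing 𝒪] {T : Type} [CommRing T] [IsLocalRing T] [Algebra 𝒪 T]
  {T8 Tn : Type}

/-- the entries of `Φ_t` in `T`: `a_t δ_{ij} + z (t, 1, i, j)`. -/
def m59ci_PhiT (a : T8 → 𝒪) (z : m59ci_Iz T8 Tn → maximalIdeal T) (t : T8) (i j : Fin 2) : T :=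
  (if i = j then algebraMap 𝒪 T (a t) else 0) + (z (Sum.inl (t, 1, i, j)) : T)

/-- **the trace coordinate** `tr Φ_b` in `T`. -/
def m59ci_trT (a : T8 → 𝒪) (t0 : Tn → 𝒪) (z : m59ci_Iz T8 Tn → maximalIdeal T) : T8 ⊕ Tn → T :=
  Sum.elim (fun t => m59ci_PhiT a z t 0 0 + m59ci_PhiT a z t 1 1)
    (fun l => algebraMap 𝒪 T (t0 l) + (z (Sum.inr (l, 0)) : T))

/-- the images in `T` of the coordinates `ν` (`m59ci_nu`). -/
def m59ci_nuT (a : T8 → 𝒪) (t0 : Tn → 𝒪) (z : m59ci_Iz T8 Tn → maximalIdeal T) :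
    (T8 × Fin 6) ⊕ Tn → T :=
  Sum.elim
    (fun ti => ![m59ci_PhiT a z ti.1 0 0, m59ci_PhiT a z ti.1 1 0, m59ci_PhiT a z ti.1 1 1,
      (z (Sum.inl (ti.1, 0, 0, 0)) : T), (z (Sum.inl (ti.1, 0, 1, 0)) : T),
      (z (Sum.inl (ti.1, 0, 1, 1)) : T)] ti.2)
    (fun l => algebraMap 𝒪 T (t0 l) + (z (Sum.inr (l, 0)) : T))

end defs

/-- **the chain system at one patching level** (`𝔟 = 𝔟_n`). -/
structure m59ci_LvSys (𝒪 : Type) [CommRing 𝒪] [IsLocalRing 𝒪] (rr : ℕ) {m : ℕ}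
    (d : Fin (m + 1) → ℕ) {T8 Tn : Type} (κ : Type) [Fintype κ]
    (a : T8 → 𝒪) (l8 : T8 → ℕ) (t0 : Tn → 𝒪) (ln : Tn → ℕ)
    (ch : Fin m → T8 ⊕ Tn) (ee : Fin m → ℕ)
    (𝔞 𝔟 : Ideal (MvPowerSeries (Fin rr) 𝒪)) (h𝔟𝔞 : 𝔟 ≤ 𝔞)
    (T0 : Type) [CommRing T0] [Algebra 𝒪 T0]
    (j : T0 →+* Matrix (Fin (d (Fin.last m))) (Fin (d (Fin.last m)))
      (MvPowerSeries (Fin rr) 𝒪 ⧸ 𝔞))
    (β : (T8 × Fin 6) ⊕ Tn → T0) : Type 1 where
  /-- the pair ring of the top level of the chain -/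
  T : Type
  [instCommRing : CommRing T]
  [instIsLocalRing : IsLocalRing T]
  [instIsNoetherianRing : IsNoetherianRing T]
  [instIsAdicComplete : IsAdicComplete (maximalIdeal T) T]
  [instAlgebra : Algebra 𝒪 T]
  [instIsLocalHom : IsLocalHom (algebraMap 𝒪 T)]
  residue_surjective : Function.Surjective (residue T ∘ algebraMap 𝒪 T)
  /-- the local coordinates -/
  z : m59ci_Iz T8 Tn → maximalIdeal T
  finrank_le : Module.finrank (ResidueField T) (CotangentSpace T ⧸ twc_relW 𝒪 z) ≤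
    Fintype.card κ
  /-- the local relations hold -/
  rel : ∀ γ : m59b_P 𝒪 T8 Tn κ →ₐ[𝒪] T, (∀ c, γ (X (m59ci_emb κ c)) = (z c : T)) →
    m59b_J 𝒪 κ a l8 t0 ln ≤ RingHom.ker (γ : m59b_P 𝒪 T8 Tn κ →+* T)
  /-- the actions on the free modules `M_k = (S ⧸ 𝔟)^(d k)` -/
  act : ∀ k : Fin (m + 1), T →ₐ[𝒪] Matrix (Fin (d k)) (Fin (d k)) (MvPowerSeries (Fin rr) 𝒪 ⧸ 𝔟)
  /-- the Galois diamonds -/
  u : Fin rr → T
  u_mem : ∀ i, u i - 1 ∈ maximalIdeal T
  act_u : ∀ k i, act k (u i) = Matrix.scalar (Fin (d k)) (1 + Ideal.Quotient.mk 𝔟 (X i))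
  /-- `α^*` -/
  A : ∀ k : Fin m, Matrix (Fin (d k.succ)) (Fin (d k.castSucc)) (MvPowerSeries (Fin rr) 𝒪 ⧸ 𝔟)
  /-- `β^*` -/
  B : ∀ k : Fin m, Matrix (Fin (d k.succ)) (Fin (d k.castSucc)) (MvPowerSeries (Fin rr) 𝒪 ⧸ 𝔟)
  /-- `α_*` -/
  A' : ∀ k : Fin m, Matrix (Fin (d k.castSucc)) (Fin (d k.succ)) (MvPowerSeries (Fin rr) 𝒪 ⧸ 𝔟)
  /-- `β_*` -/
  B' : ∀ k : Fin m, Matrix (Fin (d k.castSucc)) (Fin (d k.succ)) (MvPowerSeries (Fin rr) 𝒪 ⧸ 𝔟)
  A_act : ∀ k x, act k.succ x * A k = A k * act k.castSucc x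
  B_act : ∀ k x, act k.succ x * B k = B k * act k.castSucc x
  A'_act : ∀ k x, A' k * act k.succ x = act k.castSucc x * A' k
  B'_act : ∀ k x, B' k * act k.succ x = act k.castSucc x * B' k
  A'_A : ∀ k, A' k * A k = act k.castSucc (((m59ci_lc l8 ln (ch k) : ℕ) : T) + 1)
  B'_B : ∀ k, B' k * B k = act k.castSucc (((m59ci_lc l8 ln (ch k) : ℕ) : T) + 1)
  A'_B : ∀ k, A' k * B k = act k.castSucc (m59ci_trT a t0 z (ch k))
  B'_A : ∀ k, B' k * A k = act k.castSucc (m59ci_trT a t0 z (ch k))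
  /-- **(I1)** -/
  split : ∀ k, ∃ L1 L2 : Matrix (Fin (d k.castSucc)) (Fin (d k.succ))
      (MvPowerSeries (Fin rr) 𝒪 ⧸ 𝔟),
    L1 * A k = 1 ∧ L1 * B k = 0 ∧ L2 * A k = 0 ∧ L2 * B k = 1
  /-- **(I2)** -/
  onto : ∀ k, ∃ V1 : Matrix (Fin (d k.succ)) (Fin (d k.castSucc))
      (MvPowerSeries (Fin rr) 𝒪 ⧸ 𝔟), A' k * V1 = 1 ∧ B' k * V1 = 0
  /-- **(I3)** -/
  new : ∀ k, ∃ Y1 Y2 : Matrix (Fin (d k.castSucc)) (Fin (d k.succ))
      (MvPowerSeries (Fin rr) 𝒪 ⧸ 𝔟),
    act k.succ ((m59ci_trT a t0 z (ch k) ^ 2 -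
      (((m59ci_lc l8 ln (ch k) : ℕ) : T) + 1) ^ 2) ^ ee k) = A k * Y1 + B k * Y2
  /-- **[UNR-0]** the base level is unramified at `B'` -/
  unr0 : ∀ i, act 0 (z (m59ci_embN i) : T) = 0
  /-- the map to `T₀` -/
  π0 : T →ₐ[𝒪] T0
  π0_surjective : Function.Surjective π0
  act_mod : ∀ t : T, (act (Fin.last m) t).map (Ideal.Quotient.factor h𝔟𝔞) = j (π0 t)
  π0_u : ∀ i, π0 (u i) = 1
  π0_ν : ∀ c, π0 (m59ci_nuT a t0 z c) = β c

attribute [instance] m59ci_LvSys.instCommRing m59ci_LvSys.instIsLocalRing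
  m59ci_LvSys.instIsNoetherianRing m59ci_LvSys.instIsAdicComplete m59ci_LvSys.instAlgebra
  m59ci_LvSys.instIsLocalHom

end

end Fermat.Agent.M59
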