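import Fermat.Agent.M59.Top.Chain.ArithSet
import Fermat.Agent.TW.Top.TWSet
import Fermat.Agent.TW.Def.LevelAsm

/-!
M59 / [CHAIN-inst], [CI-ARITH], the core of the wiring (helper25, deputy; ruling #48).
Prefix `m59ci_`.

`m59ci_sys_core` (PROVED): from the leaves [E'-0], [CI-ACT], [CI-U], [CI-PAIRTOP], [CI-COT] and the
arithmetic data of the chain (base level `N₀`, bad set `S₀`, chain primes `T8 ⊔ Tn` enumerated by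
`ch`, eigensystems `θ k`, the frame `rW` of `ρ_W` with its adapted frames) to the base packages
`B k`, the base ring `T₀` and the chain systems `m59ci_LvSys` at every patching level `n`.

* `m59ci_two_mul_le` : (I1) forces `2 d ≤ d'` (strong rank condition);
* `m59ci_lch` : the enumeration of the chain primes.
-/

set_option autoImplicit false
set_option linter.style.haveILetI false
set_option linter.unusedSectionVars false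
set_option linter.unusedVariables false

open Polynomial CuspForm IsLocalRing WeierstrassCurve ExtCitation
open Fermat.Agent.S53 Fermat.Agent.S56 Fermat.Agent.TW Fermat.Agent.JT3 Fermat.Agent.S55
open Fermat.Agent.SS Fermat.Agent.DS

namespace Fermat.Agent.M59

noncomputable section

local notation "GQ" => (AlgebraicClosure ℚ ≃ₐ[ℚ] AlgebraicClosure ℚ)
local notation "Qbar" => AlgebraicClosure ℚ

/-- **(I1) forces `2 d ≤ d'`.** -/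
theorem m59ci_two_mul_le {R : Type*} [CommRing R] [Nontrivial R] {d d' : ℕ}
    (A B : Matrix (Fin d') (Fin d) R) (L1 L2 : Matrix (Fin d) (Fin d') R)
    (h11 : L1 * A = 1) (h12 : L1 * B = 0) (h21 : L2 * A = 0) (h22 : L2 * B = 1) :
    2 * d ≤ d' := by
  let f : ((Fin d → R) × (Fin d → R)) →ₗ[R] (Fin d' → R) :=
    (Matrix.mulVecLin A).coprod (Matrix.mulVecLin B)
  have hf : Function.Injective f := by
    rw [injective_iff_map_eq_zero]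
    rintro ⟨x, y⟩ h
    have h0 : A.mulVec x + B.mulVec y = 0 := h
    have h1 : L1.mulVec (A.mulVec x + B.mulVec y) = 0 := by rw [h0, Matrix.mulVec_zero]
    have h2 : L2.mulVec (A.mulVec x + B.mulVec y) = 0 := by rw [h0, Matrix.mulVec_zero]
    rw [Matrix.mulVec_add, Matrix.mulVec_mulVec, Matrix.mulVec_mulVec, h11, h12,
      Matrix.one_mulVec, Matrix.zero_mulVec, add_zero] at h1
    rw [Matrix.mulVec_add, Matrix.mulVec_mulVec, Matrix.mulVec_mulVec, h21, h22,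
      Matrix.one_mulVec, Matrix.zero_mulVec, zero_add] at h2
    rw [h1, h2]
    rfl
  have h := LinearMap.finrank_le_finrank_of_injective hf
  rw [Module.finrank_prod, Module.finrank_fin_fun, Module.finrank_fin_fun] at h
  omega

/-- the enumeration of the chain primes. -/
abbrev m59ci_lch {T8 Tn : Finset Nat.Primes} {m : ℕ} (ch : Fin m → ↥T8 ⊕ ↥Tn) : Fin m → ℕ :=
  fun k => m59ci_lc (fun ℓ : ↥T8 => ((ℓ : Nat.Primes) : ℕ))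
    (fun ℓ : ↥Tn => ((ℓ : Nat.Primes) : ℕ)) (ch k)

theorem m59ci_lch_mem {T8 Tn : Finset Nat.Primes} {m : ℕ} (ch : Fin m → ↥T8 ⊕ ↥Tn) (k : Fin m) :
    ∃ ℓ ∈ T8 ∪ Tn, m59ci_lch ch k = ((ℓ : Nat.Primes) : ℕ) := by
  unfold m59ci_lch m59ci_lc
  rcases ch k with ℓ | ℓ
  · exact ⟨ℓ.1, Finset.mem_union_left _ ℓ.2, rfl⟩
  · exact ⟨ℓ.1, Finset.mem_union_right _ ℓ.2, rfl⟩

theorem m59ci_lch_surj {T8 Tn : Finset Nat.Primes} {m : ℕ} (ch : Fin m → ↥T8 ⊕ ↥Tn)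
    (hch : Function.Bijective ch) (ℓ : Nat.Primes) (hℓ : ℓ ∈ T8 ∪ Tn) :
    ∃ k : Fin m, m59ci_lch ch k = (ℓ : ℕ) := by
  rcases Finset.mem_union.1 hℓ with h | h
  · obtain ⟨k, hk⟩ := hch.2 (Sum.inl ⟨ℓ, h⟩)
    refine ⟨k, ?_⟩
    unfold m59ci_lch m59ci_lc
    rw [hk]
    rfl
  · obtain ⟨k, hk⟩ := hch.2 (Sum.inr ⟨ℓ, h⟩)
    refine ⟨k, ?_⟩
    unfold m59ci_lch m59ci_lc
    rw [hk]
    rfl

theorem m59ci_lch_injective {T8 Tn : Finset Nat.Primes} (hdisj : Disjoint T8 Tn) {m : ℕ}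
    (ch : Fin m → ↥T8 ⊕ ↥Tn) (hch : Function.Bijective ch) :
    Function.Injective (m59ci_lch ch) := by
  intro k k' h
  apply hch.1
  unfold m59ci_lch m59ci_lc at h
  rcases hk : ch k with ℓ | ℓ <;> rcases hk' : ch k' with ℓ' | ℓ' <;> rw [hk, hk'] at h
  · have : ℓ = ℓ' := Subtype.ext (Subtype.ext h)
    rw [this]
  · exfalso
    have h1 : (ℓ : Nat.Primes) = (ℓ' : Nat.Primes) := Subtype.ext h
    exact Finset.disjoint_left.1 hdisj ℓ.2 (h1 ▸ ℓ'.2)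
  · exfalso
    have h1 : (ℓ : Nat.Primes) = (ℓ' : Nat.Primes) := Subtype.ext h
    exact Finset.disjoint_left.1 hdisj ℓ'.2 (h1 ▸ ℓ.2)
  · have : ℓ = ℓ' := Subtype.ext (Subtype.ext h)
    rw [this]

/-! ### the core -/

section core

variable {p : ℕ} [hpF : Fact p.Prime]
  {𝒪 : Type} [CommRing 𝒪] [IsDomain 𝒪] [IsDiscreteValuationRing 𝒪]
  [IsAdicComplete (maximalIdeal 𝒪) 𝒪] [Finite (ResidueField 𝒪)] [CharZero 𝒪]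

/-- **the core of the wiring [CI-ARITH].** -/
theorem m59ci_sys_core
    (hE : m59ci_Chain0_stmt) (hA : m59ci_Act_stmt) (hU : m59ci_U_stmt)
    (hP : m59ci_PairTop_stmt) (hC : m59ci_Cot_stmt)
    (hp2 : p ≠ 2) (hp𝒪 : (p : 𝒪) ∈ maximalIdeal 𝒪) (ζ : 𝒪) (hζ : IsPrimitiveRoot ζ p)
    (rW : FramedRep 𝒪)
    (hyp : s56a_Hyp p rW.residual.toResidualGaloisRep)
    (hdet : rW.toGaloisRepAdic.DetIsCyclotomic p)
    (hunip : ∀ q : ℕ, q.Prime → q ≠ p → rW.toGaloisRepAdic.IsUnipotentOnInertiaAt q)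
    (N₀ : ℕ) [NeZero N₀] (hrig : m59ep_Rigid p N₀) (S₀ : Finset ℕ) (hpS₀ : p ∈ S₀)
    (hN₀S₀ : ∀ ℓ : ℕ, ℓ.Prime → ℓ ∣ N₀ → ℓ ∈ S₀)
    (T8 Tn : Finset Nat.Primes) (hdisj : Disjoint T8 Tn)
    (m : ℕ) (ch : Fin m → ↥T8 ⊕ ↥Tn) (hch : Function.Bijective ch)
    (hTh : ∀ ℓ ∈ T8 ∪ Tn, ((ℓ : Nat.Primes) : ℕ) ∉ S₀ ∧ ((ℓ : Nat.Primes) : ℕ) ≠ p ∧
      ¬ rW.toGaloisRepAdic.IsUnramifiedAt ((ℓ : Nat.Primes) : ℕ))
    (hT8 : ∀ ℓ ∈ T8, ((ℓ : Nat.Primes) : ℕ) % p = 1)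
    (hsq : Squarefree (m59ep_lvl N₀ (m59ci_lch ch) m))
    [hNZ : ∀ k : ℕ, NeZero (m59ep_lvl N₀ (m59ci_lch ch) k)]
    (θ : ∀ k : ℕ, heckeAlgebra (m59ep_lvl N₀ (m59ci_lch ch) k) 2
      (↑(m59ep_bad S₀ (m59ci_lch ch) k) : Set ℕ) →+* ResidueField 𝒪)
    (hcompat : ∀ k, twt_Compat (θ k) rW.residual.toResidualGaloisRep)
    (Smin : Finset ℕ) (hpSmin : p ∉ Smin) (hSminN : ∀ q ∈ Smin, q.Prime ∧ q ∣ N₀)
    (hmin : ∀ q : ℕ, q.Prime → q ≠ p →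
      (q ∈ Smin ↔ ¬ rW.residual.toResidualGaloisRep.IsUnramifiedAt q))
    (hunr : ∀ q : ℕ, q.Prime → q ≠ p → q ∉ Smin →
      q ∉ (T8 ∪ Tn).image (fun ℓ : Nat.Primes => (ℓ : ℕ)) → rW.toGaloisRepAdic.IsUnramifiedAt q)
    (hharm : ∀ q : ℕ, q.Prime → q ∣ N₀ → q ≠ p → q ∉ Smin →
      m59m_IsHarmless p rW.residual.toResidualGaloisRep q)
    (good : Prop) (hgood : good → ¬ p ∣ N₀ ∧ rW.toGaloisRepAdic.IsFlatAt p)
    (hbad : ¬ good → p ∣ N₀ ∧ rW.toGaloisRepAdic.IsOrdinaryAt p ∧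
      m59mo_IsTres p rW.residual.toResidualGaloisRep)
    (td : m59c_TameData p (T8 ∪ Tn)) (hgen : m59ct_InertiaGen td)
    (ε : Nat.Primes → ℤ) (g gi : Nat.Primes → Matrix (Fin 2) (Fin 2) 𝒪)
    (e : Nat.Primes → Fin 2 → 𝒪)
    (hframe : ∀ ℓ ∈ T8 ∪ Tn, ε ℓ * ε ℓ = 1 ∧ gi ℓ * g ℓ = 1 ∧ g ℓ * gi ℓ = 1 ∧
      (gi ℓ * rW (td.gφ ℓ) * g ℓ) 0 0 = ((ε ℓ : ℤ) : 𝒪) * (((ℓ : Nat.Primes) : ℕ) : 𝒪) ∧
      (gi ℓ * rW (td.gφ ℓ) * g ℓ) 1 0 = 0 ∧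
      (gi ℓ * rW (td.gφ ℓ) * g ℓ) 1 1 = ((ε ℓ : ℤ) : 𝒪) ∧
      (gi ℓ * (rW (td.gσ ℓ) - 1) * g ℓ) 0 0 = 0 ∧
      (gi ℓ * (rW (td.gσ ℓ) - 1) * g ℓ) 1 0 = 0 ∧
      (gi ℓ * (rW (td.gσ ℓ) - 1) * g ℓ) 1 1 = 0)
    (hscal : ∀ ℓ ∈ T8, rW.residual (td.gφ ℓ) =
      Matrix.scalar (Fin 2) (residue 𝒪 (((ε ℓ : ℤ) : 𝒪))))
    (hcyc : ∀ ℓ ∈ Tn,
      (m59c_cyc (rW.residual (td.gφ ℓ)) (fun i => residue 𝒪 (e ℓ i))).det ≠ 0) :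
    ∃ (rr c : ℕ), rr = c + 3 * T8.card + Tn.card ∧
    ∃ B : ∀ k : ℕ, twe_Base 𝒪 (m59ep_lvl N₀ (m59ci_lch ch) k)
      (m59ep_bad S₀ (m59ci_lch ch) k) (θ k),
    ∃ (T0 : Type) (_ : CommRing T0) (_ : Algebra 𝒪 T0) (_ : Module.Finite 𝒪 T0)
      (x₂ : T0 →ₐ[𝒪] 𝒪) (p1 : T0 →ₐ[𝒪] (B m).T) (β : (↥T8 × Fin 6) ⊕ ↥Tn → T0),
      (∀ cc, x₂ (β cc) = m59ci_xval (fun ℓ : ↥T8 => ((ℓ : Nat.Primes) : ℕ))
        (fun ℓ : ↥Tn => ((ℓ : Nat.Primes) : ℕ)) (fun ℓ : ↥T8 => ε ℓ) (fun ℓ : ↥Tn => ε ℓ) cc) ∧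
      (∀ σ : GQ, ∃ t : T0, p1 t = (B m).H.ρ.trace σ ∧ x₂ t = Matrix.trace (rW σ)) ∧
      (∀ k : Fin m, 2 * ((B (k : ℕ)).d * 2 ^ rr) ≤ (B ((k : ℕ) + 1)).d * 2 ^ rr) ∧
      ∀ n : ℕ, Nonempty (m59ci_LvSys 𝒪 rr (fun k : Fin (m + 1) => (B (k : ℕ)).d * 2 ^ rr)
        (Fin c) (fun ℓ : ↥T8 => ((ε ℓ : ℤ) : 𝒪)) (fun ℓ : ↥T8 => ((ℓ : Nat.Primes) : ℕ))
        (fun ℓ : ↥Tn => ((ε ℓ : ℤ) : 𝒪) * ((((ℓ : Nat.Primes) : ℕ) : 𝒪) + 1))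
        (fun ℓ : ↥Tn => ((ℓ : Nat.Primes) : ℕ)) ch
        (fun k : Fin m => (B ((k : ℕ) + 1)).d * 2 ^ rr)
        (twds_a 𝒪 rr) (twds_b 𝒪 rr (p ^ n)) (twds_b_le_a rr (p ^ n)) T0
        ((twc_j (B m) rr).comp (p1 : T0 →+* (B m).T)) β) := by
  classical
  have hpp : p.Prime := hpF.out
  haveI : CharP (ResidueField 𝒪) p := s56a_charP p hp𝒪
  set l : Fin m → ℕ := m59ci_lch ch with hldef
  set rbρ : ResidualGaloisRep (ResidueField 𝒪) := rW.residual.toResidualGaloisRep with hrbρ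
  -- the chain primes
  have hlmem : ∀ k, ∃ ℓ ∈ T8 ∪ Tn, l k = ((ℓ : Nat.Primes) : ℕ) := m59ci_lch_mem ch
  have hl : ∀ i, (l i).Prime ∧ l i ∉ S₀ ∧ l i ≠ p := by
    intro i
    obtain ⟨ℓ, hℓ, hli⟩ := hlmem i
    rw [hli]
    exact ⟨ℓ.2, (hTh ℓ hℓ).1, (hTh ℓ hℓ).2.1⟩
  have hlinj : Function.Injective l := m59ci_lch_injective hdisj ch hch
  have hlp : ∀ i, (l i).Prime := fun i => (hl i).1
  -- the top level
  have hpS' : p ∈ m59ep_bad S₀ l m := m59ci_subset_bad S₀ l m hpS₀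
  have hNS' : ∀ q : ℕ, q.Prime → q ∣ m59ep_lvl N₀ l m → q ∈ m59ep_bad S₀ l m :=
    m59ci_lvl_primes_bad hlp hN₀S₀ m
  have hSminS₀ : Smin ⊆ S₀ := fun q hq => hN₀S₀ q (hSminN q hq).1 (hSminN q hq).2
  have hSminS' : Smin ⊆ m59ep_bad S₀ l m := fun q hq => m59ci_subset_bad S₀ l m (hSminS₀ hq)
  have hThbad : ∀ ℓ ∈ T8 ∪ Tn, ((ℓ : Nat.Primes) : ℕ) ∈ m59ep_bad S₀ l m := by
    intro ℓ hℓ
    obtain ⟨k, hk⟩ := m59ci_lch_surj ch hch ℓ hℓ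
    exact m59ci_mem_bad.2 (Or.inr ⟨k, k.2, hk.symm⟩)
  have hThN : ∀ ℓ ∈ T8 ∪ Tn, ((ℓ : Nat.Primes) : ℕ) ∣ m59ep_lvl N₀ l m := by
    intro ℓ hℓ
    obtain ⟨k, hk⟩ := m59ci_lch_surj ch hch ℓ hℓ
    rw [← hk]
    exact m59ci_dvd_lvl_of_lt N₀ l k k.2
  have hThSmin : ∀ ℓ ∈ T8 ∪ Tn, ((ℓ : Nat.Primes) : ℕ) ∉ Smin :=
    fun ℓ hℓ h => (hTh ℓ hℓ).1 (hSminS₀ h)
  -- the frames: values
  set a : Nat.Primes → 𝒪 := fun ℓ => ((ε ℓ : ℤ) : 𝒪) with hadef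
  set t₀ : Nat.Primes → 𝒪 := fun ℓ => ((ε ℓ : ℤ) : 𝒪) * ((((ℓ : Nat.Primes) : ℕ) : 𝒪) + 1)
    with ht₀def
  have ht₀ : ∀ ℓ ∈ Tn, residue 𝒪 (t₀ ℓ) = Matrix.trace (rW.residual (td.gφ ℓ)) := by
    intro ℓ hℓ
    obtain ⟨-, hgig, hggi, h00, -, h11, -, -, -⟩ := hframe ℓ (Finset.mem_union_right _ hℓ)
    have htr : Matrix.trace (rW (td.gφ ℓ)) = t₀ ℓ := by
      have h1 : Matrix.trace (gi ℓ * rW (td.gφ ℓ) * g ℓ) = Matrix.trace (rW (td.gφ ℓ)) := by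
        rw [Matrix.trace_mul_comm, ← Matrix.mul_assoc, hggi, Matrix.one_mul]
      rw [← h1, Matrix.trace_fin_two, h00, h11, ht₀def]
      ring
    rw [FramedRep.residual_apply, ← htr]
    simp only [Matrix.trace, Matrix.diag_apply, Matrix.map_apply, map_sum]
  -- block [E']
  obtain ⟨B, hB⟩ := hE p hp2 𝒪 hp𝒪 N₀ hrig S₀ hpS₀ hN₀S₀ m l hlinj hl θ rbρ hcompat hyp.habs
  -- the Taylor–Wiles primes
  obtain ⟨rr, c, hrr, hqv⟩ := hC p hp2 𝒪 hp𝒪 rW hyp (m59ep_bad S₀ l m) Smin hpS'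
    hSminS' hmin good (fun h => (hbad h).2.2) T8 Tn hdisj
    (fun ℓ hℓ => ⟨hThbad ℓ hℓ, hThSmin ℓ hℓ, (hTh ℓ hℓ).2.1⟩) td a e hscal hcyc
  -- the pair ring of the top level
  obtain ⟨T0, iCR, iAlg, iFin, x₂, p1, β, hβ, htr, hPS⟩ := hP p hp2 𝒪 hp𝒪 (m59ep_lvl N₀ l m) hsq
    (m59ep_bad S₀ l m) hpS' hNS' rW (θ m) (hcompat m) hyp hdet hunip Smin hpSmin
    (fun q hq => ⟨(hSminN q hq).1, dvd_trans (hSminN q hq).2 (m59ci_dvd_lvl N₀ l m)⟩) hmin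
    T8 Tn hdisj
    (fun ℓ hℓ => ⟨hThN ℓ hℓ, hThSmin ℓ hℓ, (hTh ℓ hℓ).2.1, (hTh ℓ hℓ).2.2⟩) hT8 hunr
    (fun q hq hqN hqp hqSmin hqTh => by
      rcases m59ci_prime_dvd_lvl hlp hq hqN with h | ⟨i, -, hi⟩
      · exact hharm q hq h hqp hqSmin
      · exfalso
        obtain ⟨ℓ, hℓ, hli⟩ := hlmem i
        exact hqTh (Finset.mem_image.2 ⟨ℓ, hℓ, by rw [hi, hli]⟩))
    good
    (fun h => ⟨fun hd => by
      rcases m59ci_prime_dvd_lvl hlp hpp hd with h1 | ⟨i, -, hi⟩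
      · exact (hgood h).1 h1
      · exact (hl i).2.2 hi.symm, (hgood h).2⟩)
    (fun h => ⟨dvd_trans (hbad h).1 (m59ci_dvd_lvl N₀ l m), (hbad h).2.1⟩)
    td hgen ε g gi e hframe hscal hcyc m ch hch (B m) rr c
  refine ⟨rr, c, hrr, B, T0, iCR, iAlg, iFin, x₂, p1, β, hβ, htr, ?_⟩
  -- the systems at every patching level
  have hsys : ∀ n : ℕ, Nonempty (m59ci_LvSys 𝒪 rr
      (fun k : Fin (m + 1) => (B (k : ℕ)).d * 2 ^ rr)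
      (Fin c) (fun ℓ : ↥T8 => ((ε ℓ : ℤ) : 𝒪)) (fun ℓ : ↥T8 => ((ℓ : Nat.Primes) : ℕ))
      (fun ℓ : ↥Tn => ((ε ℓ : ℤ) : 𝒪) * ((((ℓ : Nat.Primes) : ℕ) : 𝒪) + 1))
      (fun ℓ : ↥Tn => ((ℓ : Nat.Primes) : ℕ)) ch
      (fun k : Fin m => (B ((k : ℕ) + 1)).d * 2 ^ rr)
      (twds_a 𝒪 rr) (twds_b 𝒪 rr (p ^ n)) (twds_b_le_a rr (p ^ n)) T0
      ((twc_j (B m) rr).comp (p1 : T0 →+* (B m).T)) β) := by
    intro n
    obtain ⟨qv, hinj, hqv1, hqv2, hcot⟩ := hqv n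
    set Q : Finset ℕ := Finset.univ.image qv with hQdef
    have hqvQ : ∀ i, qv i ∈ Q := fun i => Finset.mem_image.2 ⟨i, Finset.mem_univ _, rfl⟩
    have hQonto : ∀ t ∈ Q, ∃ i, qv i = t := fun t ht => by
      obtain ⟨i, -, hi⟩ := Finset.mem_image.1 ht
      exact ⟨i, hi⟩
    have hQp : ∀ t ∈ Q, t.Prime := fun t ht => by
      obtain ⟨i, rfl⟩ := hQonto t ht
      exact (hqv1 i).1
    have hqvbad : ∀ i k, qv i ∉ m59ep_bad S₀ l k := by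
      intro i k h
      apply (hqv1 i).2.1
      rcases m59ci_mem_bad.1 h with h | ⟨j, -, hj⟩
      · exact m59ci_subset_bad S₀ l m h
      · exact m59ci_mem_bad.2 (Or.inr ⟨j, j.2, hj⟩)
    have hQS₀ : ∀ t ∈ Q, t ∉ S₀ ∧ ∀ i, t ≠ l i := by
      intro t ht
      obtain ⟨i, rfl⟩ := hQonto t ht
      refine ⟨fun h => hqvbad i 0 (m59ci_subset_bad S₀ l 0 h), fun j hj => ?_⟩
      exact hqvbad i m (m59ci_mem_bad.2 (Or.inr ⟨j, j.2, hj⟩))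
    have hTWk : ∀ k, twe_IsTWSet (θ k) p Q := fun k =>
      (twt_ts_isTWSet (θ k) rbρ (hcompat k) qv
        (fun i => ⟨(hqv1 i).1, hqvbad i k, (hqv1 i).2.2⟩) hqv2).1
    haveI : ∀ k : ℕ, NeZero (twe_Nbal (m59ep_lvl N₀ l k) Q ∅) := fun k =>
      ⟨twc_la_nbal_ne (NeZero.ne _) (fun t ht => (hQp t ht).ne_zero) (by simp)⟩
    obtain ⟨L, hLG, hSt⟩ := hB Q hQS₀ hTWk
    -- the Galois diamonds
    have hQS' : ∀ t ∈ Q, t ∉ m59ep_bad S₀ l m := by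
      intro t ht
      obtain ⟨i, rfl⟩ := hQonto t ht
      exact hqvbad i m
    have hunrQ : ∀ t ∈ Q, rbρ.IsUnramifiedAt t := by
      intro t ht
      have htp : t ≠ p := fun h => hQS' t ht (h ▸ hpS')
      by_contra hcon
      exact hQS' t ht (hSminS' ((hmin t (hQp t ht) htp).2 hcon))
    have hsplitQ : ∀ t ∈ Q, ∀ P : ValuationSubring Qbar, P.LiesOverPrime t → ∀ φ : GQ,
        P.IsFrobeniusAt φ t → ∃ α β : ResidueField 𝒪, α ≠ β ∧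
          LinearMap.charpoly (rbρ.ρ φ) = (X - C α) * (X - C β) := by
      intro t ht
      obtain ⟨i, rfl⟩ := hQonto t ht
      exact hqv2 i
    obtain ⟨u, hdia, hu1, hgal⟩ := hU p hp2 𝒪 hp𝒪 ζ hζ (m59ep_lvl N₀ l m) (m59ep_bad S₀ l m)
      hpS' hNS' (θ m) rbρ (hcompat m) (B m) Q hunrQ hQS' (hTWk m) hsplitQ (L m) (hLG m)
    -- the module side
    have hord : ∀ i, p ^ n ∣ twe_ord p (qv i) := fun i =>
      twt_ts_pow_dvd_ord (hqv1 i).1.one_lt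
        ((pow_dvd_pow p (Nat.le_succ n)).trans (hqv1 i).2.2)
    obtain ⟨AS⟩ := hA p hp2 𝒪 hp𝒪 N₀ S₀ hpS₀ hN₀S₀ m l hlinj hl θ rbρ hcompat hyp.habs B Q
      hQS₀ hTWk L hSt u hdia rr qv hqvQ hinj hQonto n hord
    -- the pair side
    have hqv1' : ∀ i, (qv i).Prime ∧ qv i ∉ m59ep_bad S₀ l m ∧ qv i % p = 1 := fun i =>
      ⟨(hqv1 i).1, (hqv1 i).2.1, ((hTWk m) (qv i) (hqvQ i)).2.1⟩
    obtain ⟨PS⟩ := hPS qv hinj hqv1' hqv2 hcot (L m) u hu1 hgal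
    exact ⟨m59ci_lvSys_of (fun k => rfl) AS PS⟩
  refine ⟨fun k => ?_, hsys⟩
  obtain ⟨sys⟩ := hsys 0
  obtain ⟨L1, L2, h11, h12, h21, h22⟩ := sys.split k
  haveI : Nontrivial (MvPowerSeries (Fin rr) 𝒪 ⧸ twds_b 𝒪 rr (p ^ 0)) :=
    Ideal.Quotient.nontrivial_iff.2 (fun h => (twds_a_isPrime 𝒪 rr).ne_top
      (top_le_iff.1 (h ▸ twds_b_le_a rr (p ^ 0))))
  exact m59ci_two_mul_le (sys.A k) (sys.B k) L1 L2 h11 h12 h21 h22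

end core

end

end Fermat.Agent.M59
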