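import Mathlib
import Fermat.Agent.M59.Rp.StrictW
import Fermat.Agent.M59.Rp.Cot3
import Fermat.Agent.M59.Rp.FlatTan
import Fermat.Agent.M59.Rp.Adapted
import Fermat.Agent.M59.Rp.Elts
import Fermat.Agent.M59.Rp.ResOrd
import Fermat.Agent.M59.Rp.OrdTop
import Fermat.Agent.TW.Top.DatumLocal
import Fermat.Agent.TW.Def.HPairOfDatum

/-!
M59 / [CHAIN-inst], case (III): THE DATA AT `p` (helper25, deputy; ruling #48).  Prefix `m59ci_`.

`m59ci_atP3` : for the frame `rW` of `ρ_W` (cyclotomic determinant, STRICTLY ordinary at `p`,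
`ρ̄` absolutely irreducible) and ONE Hecke pair `H` over `rb = rW.residual` which is FLAT at `p`
(in use: the base datum of the level `N₀`, prime to `p`: S32 `twt_dl_flat`), all the inputs at `p` of
the pipeline of case (III):

* the fixed elements `E : m59rp_Elts p (padicPlace p)` ((E) `m59rpk_elts`), an adapted `g0`
  ((AD) `m59rpa_adapted`), the sign `εp` with `z_W(Frob_p) = εp`, `a_W = 0`
  (`m59rp_sign_of_strict`), `res(εp) z̄(Frob_p) = 1` (`m59rp_sign_res`);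
* `v̄ = 0` : `rb(τ_v) = 1` because `ρ̄` is flat as a `k`-representation (`m59ci_tv_one`: helper10's
  `m59rpa_res_tau` on the residual representation `m59rpa_resK H` of the flat pair; NO ordinarity
  of `H` and NO Peu-dictionary is needed);
* the residually split case: `ū = 0 → 1 ≤ h⁰(D_p, ad⁰ ρ̄)` (`m59rp_inv_of_split` on the residual
  ordinary datum `m59rp_ord_of_strictW`).
-/

set_option autoImplicit false
set_option linter.unusedSectionVars false
set_option linter.unusedVariables false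
set_option linter.style.haveILetI false

open Polynomial IsLocalRing ExtCitation Matrix Module
open Fermat.Agent.S53 Fermat.Agent.S55 Fermat.Agent.S56 Fermat.Agent.TW

namespace Fermat.Agent.M59

noncomputable section

local notation "GQ" => (AlgebraicClosure ℚ ≃ₐ[ℚ] AlgebraicClosure ℚ)
local notation "Qb" => AlgebraicClosure ℚ

attribute [local instance] S53.dualNumberAlgebra

section tv

variable {𝒪 : Type} [CommRing 𝒪] [IsLocalRing 𝒪] [Finite (ResidueField 𝒪)]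
  {rb : FramedResidual (ResidueField 𝒪)}

/-- **`ρ̄(τ_v) = 1`** as soon as `ρ̄` is ordinary with cyclotomic determinant and is the residual
representation of ONE Hecke pair which is flat at `p`. -/
theorem m59ci_tv_one {p : ℕ} [hp : Fact p.Prime] (hp2 : p ≠ 2) (hp𝒪 : (p : 𝒪) ∈ maximalIdeal 𝒪)
    {A : ValuationSubring Qb} (hA : A.LiesOverPrime p) (E : m59rp_Elts p A)
    (hdetb : (m59rp_res rb).DetIsCyclotomic p) (hordb : (m59rp_res rb).IsOrdinaryAt p)
    (H : twc_HPair 𝒪 rb) (hflat : H.r.toGaloisRepAdic.IsFlatAt p) : rb E.tv = 1 := by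
  have hp0 : p ≠ 0 := hp.out.ne_zero
  haveI : NeZero p := ⟨hp0⟩
  have hp0k : (p : ResidueField 𝒪) = 0 := by
    rw [← map_natCast (residue 𝒪)]
    exact (residue_eq_zero_iff _).2 hp𝒪
  haveI : CharP (ResidueField 𝒪) p := (CharP.charP_iff_prime_eq_zero hp.out).2 hp0k
  letI : Algebra (ZMod p) (ResidueField 𝒪) := ZMod.algebra (ResidueField 𝒪) p
  obtain ⟨ζ, hζ⟩ := HasEnoughRootsOfUnity.exists_primitiveRoot Qb p
  obtain ⟨L, ⟨b, rfl⟩, hstab, hin⟩ := hordb A hA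
  obtain ⟨u₀, hu₀⟩ : ∃ u₀ : Fin 2 → ResidueField 𝒪, u₀ = b 0 := ⟨_, rfl⟩
  have hu : u₀ ≠ 0 := by rw [hu₀]; exact b.ne_zero 0
  obtain ⟨u₁, hu01⟩ := s56fo_detw_surjective hu 1
  have hordm : ∀ s ∈ A.inertiaSubgroupIn ℚ, ∀ v : Fin 2 → ResidueField 𝒪,
      ∃ t : ResidueField 𝒪, rb s *ᵥ v - v = t • u₀ := by
    intro s hs v
    obtain ⟨t, ht⟩ := Submodule.mem_span_singleton.1 (hin s hs v)
    refine ⟨t, ?_⟩
    rw [hu₀, ← m59rpa_res_apply]
    exact ht.symm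
  have hdetb' : ∀ σ : GQ, (rb σ).det = ((cycloExp p σ : ℕ) : ResidueField 𝒪) := fun σ => by
    rw [← m59rpa_res_det]
    exact m59rpk_res_det_eq rb hdetb hζ σ _
      (Fermat.Agent.S14.Reduction.apply_of_pow_eq_one p σ hζ.pow_eq_one)
  have hres : s56fo_co u₁ (rb E.tv *ᵥ u₁ - u₁) = 0 := by
    have h := m59rpa_res_tau hp2 (m59rpa_resK H) A hA hu01
      (fun s hs v => by rw [m59rpa_resK_apply]; exact hordm s hs v)
      (fun σ => by rw [m59rpa_resK_apply]; exact hdetb' σ)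
      (m59rpa_resK_flat H hflat) E.tv E.tv_mem E.tv_fix
    rwa [m59rpa_resK_apply] at h
  have hdet1 : (rb E.tv).det = 1 := by
    rw [← m59rpa_res_det, m59rpk_res_det_eq rb hdetb hζ E.tv 1
      (by rw [pow_one]; exact m59rpk_tv_fix_mu E 1 ζ (by rw [pow_one]; exact hζ.pow_eq_one)),
      Nat.cast_one]
  have h0 : rb E.tv *ᵥ u₀ = u₀ := by
    rw [s56fo_det_eigen hu01 _ (hordm E.tv E.tv_mem), hdet1, one_smul]
  have h1 : rb E.tv *ᵥ u₁ - u₁ = 0 := by
    obtain ⟨t, ht⟩ := hordm E.tv E.tv_mem u₁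
    rw [ht, s56fo_co_smul hu01] at hres
    rw [ht, hres, zero_smul]
  have := m59rpa_eq_zero_of_mulVec hu01 (rb E.tv - 1)
    (by rw [Matrix.sub_mulVec, Matrix.one_mulVec, h0, sub_self])
    (by rw [Matrix.sub_mulVec, Matrix.one_mulVec, h1])
  exact sub_eq_zero.1 this

/-- `ρ̄(τ_v) = 1 ⟹ v̄ = 0`. -/
theorem m59ci_vbar_zero {p : ℕ} {A : ValuationSubring Qb} (E : m59rp_Elts p A) (g0 : GQ)
    (h : rb E.tv = 1) : m59rp_v E g0 rb.toMonoidHom = 0 := by
  show (rb (g0 * E.tv)).trace - (rb g0).trace = 0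
  rw [rb.map_mul, h, mul_one, sub_self]

end tv

section main

variable {𝒪 : Type} [CommRing 𝒪] [IsDomain 𝒪] [IsDiscreteValuationRing 𝒪]
  [IsAdicComplete (maximalIdeal 𝒪) 𝒪] [Finite (ResidueField 𝒪)]

/-- **the data at `p` of case (III).** -/
theorem m59ci_atP3 {p : ℕ} [hp : Fact p.Prime] (hp2 : p ≠ 2) (hp𝒪 : (p : 𝒪) ∈ maximalIdeal 𝒪)
    (rW : FramedRep 𝒪) (habs : rW.residual.toResidualGaloisRep.IsAbsolutelyIrreducible)
    (hdet : rW.toGaloisRepAdic.DetIsCyclotomic p)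
    (hs : rW.toGaloisRepAdic.IsStrictOrdinaryAt p)
    (H : twc_HPair 𝒪 rW.residual) (hdH : H.r.toGaloisRepAdic.DetIsCyclotomic p)
    (hflat : H.r.toGaloisRepAdic.IsFlatAt p) :
    ∃ (E : m59rp_Elts p (padicPlace p)) (g0 : GQ) (εp : ℤ),
      εp * εp = 1 ∧
      m59rp_z E rW.toMonoidHom E.fr = ((εp : ℤ) : 𝒪) ∧
      m59rp_a E ((εp : ℤ) : 𝒪) rW.toMonoidHom = 0 ∧
      residue 𝒪 ((εp : ℤ) : 𝒪) * m59rp_z E rW.residual.toMonoidHom E.fr = 1 ∧
      m59rp_IsAdapted E rW.residual g0 ∧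
      m59rp_v E g0 rW.residual.toMonoidHom = 0 ∧
      (m59rp_u E g0 rW.residual.toMonoidHom = 0 → 1 ≤ finrank (ResidueField 𝒪)
        (s56a_inv rW.residual ((padicPlace p).decompositionSubgroup ℚ))) := by
  have hA : (padicPlace p).LiesOverPrime p := pl_padicPlace_liesOver p
  obtain ⟨E⟩ := m59rpk_elts p hp2 (padicPlace p) hA
  haveI : CharP (ResidueField 𝒪) p := s56a_charP p hp𝒪
  letI : Algebra (ZMod p) (ResidueField 𝒪) := ZMod.algebra _ p
  -- the residual representation: cyclotomic determinant, ordinary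
  have hdetb : (m59rp_res rW.residual).DetIsCyclotomic p := m59rpk_resOrd_det H hdH
  have hordb : (m59rp_res rW.residual).IsOrdinaryAt p :=
    m59rpk_ord_resEquiv (FramedRep.residual_isEquiv rW)
      (m59rpk_ord_residual rW.toGaloisRepAdic hs.isOrdinaryAt)
  -- the adapted element
  obtain ⟨g0, had⟩ := m59rpa_adapted p hp2 (ResidueField 𝒪) rW.residual (padicPlace p) hA E habs
    hdetb hordb
  -- the sign
  have hsep : ∀ x : 𝒪, (∀ n : ℕ, x ∈ maximalIdeal 𝒪 ^ n) → x = 0 := by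
    intro x hx
    have h1 : x ∈ (⨅ n : ℕ, maximalIdeal 𝒪 ^ n : Ideal 𝒪) := by
      rw [Ideal.mem_iInf]; exact hx
    rw [Ideal.iInf_pow_eq_bot_of_isLocalRing _ (maximalIdeal.isMaximal 𝒪).ne_top] at h1
    exact h1
  obtain ⟨εp, hεp, hz, ha⟩ := m59rp_sign_of_strict hp2 hA E hsep rW hdet hs
  have hzb := m59rp_sign_res E rW hdet εp hεp hz
  -- `v̄ = 0`
  have htv : rW.residual E.tv = 1 := m59ci_tv_one hp2 hp𝒪 hA E hdetb hordb H hflat
  have hvb := m59ci_vbar_zero E g0 htv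
  -- the split case
  obtain ⟨u₀, hu₀, hO⟩ := m59rp_ord_of_strictW 𝒪 hp2 hp𝒪 rW hdet hs
  exact ⟨E, g0, εp, hεp, hz, ha, hzb, had, hvb,
    fun hub => m59rp_inv_of_split hp2 rW.residual E g0 had hu₀ hO hvb hub⟩

end main

section datum

open CuspForm

variable {𝒪 : Type} [CommRing 𝒪] [IsDomain 𝒪] [IsDiscreteValuationRing 𝒪]
  [IsAdicComplete (maximalIdeal 𝒪) 𝒪] [Finite (ResidueField 𝒪)] [CharZero 𝒪]
  {Nb : ℕ} [NeZero Nb] {S' : Finset ℕ}
  {θ : heckeAlgebra Nb 2 (↑S' : Set ℕ) →+* ResidueField 𝒪}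
  {T : Type} [CommRing T] [IsLocalRing T] [IsNoetherianRing T]
  [IsAdicComplete (maximalIdeal T) T] [Algebra 𝒪 T] [IsLocalHom (algebraMap 𝒪 T)]
  [Module.Finite 𝒪 T] [Module.Free 𝒪 T]

/-- **the data at `p` of case (III)**, from a Hecke–Galois datum of level prime to `p` compatible
with `ρ̄` (flat at `p` by S32 `twt_dl_flat`). -/
theorem m59ci_atP3_datum {p : ℕ} [hp : Fact p.Prime] (hp2 : p ≠ 2)
    (hp𝒪 : (p : 𝒪) ∈ maximalIdeal 𝒪)
    (rW : FramedRep 𝒪) (habs : rW.residual.toResidualGaloisRep.IsAbsolutelyIrreducible)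
    (hdet : rW.toGaloisRepAdic.DetIsCyclotomic p)
    (hs : rW.toGaloisRepAdic.IsStrictOrdinaryAt p)
    (hpN : ¬ p ∣ Nb) (hpS : p ∈ S') (hNS : ∀ q : ℕ, q.Prime → q ∣ Nb → q ∈ S')
    (H : HeckeGaloisRepDatum Nb (↑S' : Set ℕ) 𝒪 θ T)
    (hc : twt_Compat θ rW.residual.toResidualGaloisRep) :
    ∃ (E : m59rp_Elts p (padicPlace p)) (g0 : GQ) (εp : ℤ),
      εp * εp = 1 ∧
      m59rp_z E rW.toMonoidHom E.fr = ((εp : ℤ) : 𝒪) ∧
      m59rp_a E ((εp : ℤ) : 𝒪) rW.toMonoidHom = 0 ∧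
      residue 𝒪 ((εp : ℤ) : 𝒪) * m59rp_z E rW.residual.toMonoidHom E.fr = 1 ∧
      m59rp_IsAdapted E rW.residual g0 ∧
      m59rp_v E g0 rW.residual.toMonoidHom = 0 ∧
      (m59rp_u E g0 rW.residual.toMonoidHom = 0 → 1 ≤ finrank (ResidueField 𝒪)
        (s56a_inv rW.residual ((padicPlace p).decompositionSubgroup ℚ))) := by
  obtain ⟨r, hre, hrl⟩ := twc_hp_exists_framed H hNS rW.residual hc
  obtain ⟨e⟩ := id hre
  have hdH : (twc_hp_ofFramed H hNS rW.residual r hre hrl).r.toGaloisRepAdic.DetIsCyclotomic p :=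
    s56t_tr_detIsCyclotomic e (twt_dl_det hp.out hp𝒪 hNS H)
  have hflat : (twc_hp_ofFramed H hNS rW.residual r hre hrl).r.toGaloisRepAdic.IsFlatAt p :=
    s56t_tr_isFlatAt e (twt_dl_flat hp.out hp2 hp𝒪 hpN hpS hNS H)
  exact m59ci_atP3 hp2 hp𝒪 rW habs hdet hs (twc_hp_ofFramed H hNS rW.residual r hre hrl) hdH hflat

end datum

end

end Fermat.Agent.M59
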