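import Fermat.Agent.M59.S38g.CTop.Harmless

/-!
M59 / [CHAIN-inst], cell **[CI-FRAME]** (helper25, deputy; ruling #48).  Prefix `m59ci_`.

`m59ci_frame` (PROVED): the ADAPTED FRAMES of a framed representation `r` over a discrete valuation
ring `𝒪` (in use: the frame `rW` of `ρ_W`) at the primes `ℓ` of the chain (`ℓ ≠ p`, `r` ramified at
`ℓ` with unipotent inertia, residually unramified): constant matrices `g ℓ`, `gi ℓ = (g ℓ)⁻¹` and
signs `ε ℓ = ± 1` with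

  `gi · r(φ_ℓ) · g = (ε ℓ, *; 0, ε)`,   `gi · (r(σ_ℓ) - 1) · g = (0, *; 0, 0)`

(referee's (C1), finding #5326: these are the prescribed values `m59ci_xval` of the coordinates
`m59ci_nu` at the point of `W`).

Pure linear algebra over a DVR on top of helper21's relations (`m59c_lr_unip`: `tr M = 0`,
`M² = 0`, `Φ M = ℓ M Φ`; `m59c_lr_det_phi`: `det Φ = ℓ`; `m59ct_unram_of_sigma`: `M ≠ 0`):
* `m59ci_nilp_frame` : a non-zero `M` with `tr M = 0`, `M² = 0` over a valuation ring is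
  `g (0, n; 0, 0) g⁻¹` with `n ≠ 0` (the primitive kernel vector);
* `m59ci_frob_frame` : `Φ (0, n; 0, 0) = l (0, n; 0, 0) Φ`, `det Φ = l ≠ 0` over a domain force
  `Φ = (ε l, *; 0, ε)`, `ε = ± 1`.
-/

set_option autoImplicit false
set_option linter.style.haveILetI false
set_option linter.unusedSectionVars false
set_option linter.unusedVariables false

open Polynomial IsLocalRing ExtCitation
open Fermat.Agent.S53 Fermat.Agent.S56 Fermat.Agent.TW Fermat.Agent.JT3 Fermat.Agent.S55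
open Fermat.Agent.SS Fermat.Agent.DS

namespace Fermat.Agent.M59

noncomputable section

local notation "GQ" => (AlgebraicClosure ℚ ≃ₐ[ℚ] AlgebraicClosure ℚ)

/-! ### the linear algebra -/

section alg

variable {𝒪 : Type*} [CommRing 𝒪] [IsDomain 𝒪]

/-- in a valuation ring, `a² + b c = 0` and `c ∣ b` imply `c ∣ a`. -/
theorem m59ci_dvd_of_sq [ValuationRing 𝒪] {a b c : 𝒪} (h : a * a + b * c = 0) (hcb : c ∣ b) :
    c ∣ a := by
  obtain ⟨b', rfl⟩ := hcb
  rcases ValuationRing.dvd_total c a with h1 | h1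
  · exact h1
  · obtain ⟨c', rfl⟩ := h1
    by_cases ha : a = 0
    · subst ha; simp
    · have h2 : a * a * (1 + c' * b' * c') = 0 := by linear_combination h
      have h3 : 1 + c' * b' * c' = 0 := by
        rcases mul_eq_zero.1 h2 with h4 | h4
        · exact absurd (mul_self_eq_zero.1 h4) ha
        · exact h4
      refine ⟨-(c' * b'), ?_⟩
      linear_combination a * h3

/-- **the primitive kernel vector**: a non-zero `M` with `tr M = 0`, `M² = 0` over a valuation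
ring. -/
theorem m59ci_nilp_frame [ValuationRing 𝒪] (M : Matrix (Fin 2) (Fin 2) 𝒪) (hM : M ≠ 0)
    (htr : M.trace = 0) (hsq : M * M = 0) :
    ∃ (g gi : Matrix (Fin 2) (Fin 2) 𝒪) (n : 𝒪), gi * g = 1 ∧ g * gi = 1 ∧ n ≠ 0 ∧
      gi * M * g = !![0, n; 0, 0] := by
  have hd : M 1 1 = -M 0 0 := by
    rw [Matrix.trace_fin_two] at htr
    linear_combination htr
  have h00 : M 0 0 * M 0 0 + M 0 1 * M 1 0 = 0 := by
    have := congrFun (congrFun hsq 0) 0
    simpa [Matrix.mul_apply, Fin.sum_univ_two] using this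
  have hMeta : M = !![M 0 0, M 0 1; M 1 0, -M 0 0] := by
    rw [← hd]; exact Matrix.eta_fin_two M
  rcases ValuationRing.dvd_total (M 1 0) (M 0 1) with hcb | hbc
  · -- `c ∣ b`
    have hca : M 1 0 ∣ M 0 0 := m59ci_dvd_of_sq h00 hcb
    obtain ⟨b', hb'⟩ := hcb
    obtain ⟨a', ha'⟩ := hca
    have hc : M 1 0 ≠ 0 := by
      intro hc
      apply hM
      rw [hMeta, ha', hb', hc]
      ext i j
      fin_cases i <;> fin_cases j <;> simp
    have hrel : a' * a' + b' = 0 := by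
      have h1 : M 1 0 * M 1 0 * (a' * a' + b') = 0 := by
        rw [ha', hb'] at h00
        linear_combination h00
      rcases mul_eq_zero.1 h1 with h2 | h2
      · exact absurd (mul_self_eq_zero.1 h2) hc
      · exact h2
    refine ⟨!![a', 1; 1, 0], !![0, 1; 1, -a'], M 1 0, ?_, ?_, hc, ?_⟩
    · ext i j
      fin_cases i <;> fin_cases j <;> simp [Matrix.mul_apply, Fin.sum_univ_two]
    · ext i j
      fin_cases i <;> fin_cases j <;> simp [Matrix.mul_apply, Fin.sum_univ_two]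
    · rw [hMeta]
      generalize M 1 0 = c at *
      rw [ha', hb']
      ext i j
      fin_cases i <;> fin_cases j <;>
        simp [Matrix.mul_apply, Fin.sum_univ_two] <;>
        first | ring1 | linear_combination c * hrel
  · -- `b ∣ c`
    have h00' : M 0 0 * M 0 0 + M 1 0 * M 0 1 = 0 := by linear_combination h00
    have hba : M 0 1 ∣ M 0 0 := m59ci_dvd_of_sq h00' hbc
    obtain ⟨c', hc'⟩ := hbc
    obtain ⟨a', ha'⟩ := hba
    have hb : M 0 1 ≠ 0 := by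
      intro hb
      apply hM
      rw [hMeta, ha', hc', hb]
      ext i j
      fin_cases i <;> fin_cases j <;> simp
    have hrel : a' * a' + c' = 0 := by
      have h1 : M 0 1 * M 0 1 * (a' * a' + c') = 0 := by
        rw [ha', hc'] at h00
        linear_combination h00
      rcases mul_eq_zero.1 h1 with h2 | h2
      · exact absurd (mul_self_eq_zero.1 h2) hb
      · exact h2
    refine ⟨!![1, 0; -a', 1], !![1, 0; a', 1], M 0 1, ?_, ?_, hb, ?_⟩
    · ext i j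
      fin_cases i <;> fin_cases j <;> simp [Matrix.mul_apply, Fin.sum_univ_two]
    · ext i j
      fin_cases i <;> fin_cases j <;> simp [Matrix.mul_apply, Fin.sum_univ_two]
    · rw [hMeta]
      generalize M 0 1 = b at *
      rw [ha', hc']
      ext i j
      fin_cases i <;> fin_cases j <;>
        simp [Matrix.mul_apply, Fin.sum_univ_two] <;>
        first | ring1 | linear_combination b * hrel

/-- **the Frobenius in the adapted frame.** -/
theorem m59ci_frob_frame (Φ : Matrix (Fin 2) (Fin 2) 𝒪) (n l : 𝒪) (hn : n ≠ 0) (hl : l ≠ 0)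
    (hrel : Φ * !![0, n; 0, 0] = l • (!![0, n; 0, 0] * Φ)) (hdet : Φ.det = l) :
    Φ 1 0 = 0 ∧ ∃ ε : ℤ, ε * ε = 1 ∧ Φ 1 1 = (ε : 𝒪) ∧ Φ 0 0 = (ε : 𝒪) * l := by
  have m00 : (!![0, n; 0, 0] : Matrix (Fin 2) (Fin 2) 𝒪) 0 0 = 0 := rfl
  have m01 : (!![0, n; 0, 0] : Matrix (Fin 2) (Fin 2) 𝒪) 0 1 = n := rfl
  have m10 : (!![0, n; 0, 0] : Matrix (Fin 2) (Fin 2) 𝒪) 1 0 = 0 := rfl
  have m11 : (!![0, n; 0, 0] : Matrix (Fin 2) (Fin 2) 𝒪) 1 1 = 0 := rfl
  have e00 : l * (n * Φ 1 0) = 0 := by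
    have := congrFun (congrFun hrel 0) 0
    rw [Matrix.smul_apply, Matrix.mul_apply, Matrix.mul_apply, Fin.sum_univ_two,
      Fin.sum_univ_two, m00, m10, m01, smul_eq_mul] at this
    linear_combination -this
  have h10 : Φ 1 0 = 0 := by
    rcases mul_eq_zero.1 e00 with h | h
    · exact absurd h hl
    · rcases mul_eq_zero.1 h with h | h
      · exact absurd h hn
      · exact h
  have e01 : Φ 0 0 * n = l * (n * Φ 1 1) := by
    have := congrFun (congrFun hrel 0) 1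
    rw [Matrix.smul_apply, Matrix.mul_apply, Matrix.mul_apply, Fin.sum_univ_two,
      Fin.sum_univ_two, m01, m11, m00, smul_eq_mul] at this
    linear_combination this
  have h00 : Φ 0 0 = l * Φ 1 1 := by
    have h1 : n * (Φ 0 0 - l * Φ 1 1) = 0 := by linear_combination e01
    rcases mul_eq_zero.1 h1 with h | h
    · exact absurd h hn
    · exact sub_eq_zero.1 h
  have hsq : (Φ 1 1 - 1) * (Φ 1 1 + 1) = 0 := by
    rw [Matrix.det_fin_two, h10, h00] at hdet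
    have h1 : l * ((Φ 1 1 - 1) * (Φ 1 1 + 1)) = 0 := by linear_combination hdet
    rcases mul_eq_zero.1 h1 with h | h
    · exact absurd h hl
    · exact h
  refine ⟨h10, ?_⟩
  rcases mul_eq_zero.1 hsq with h | h
  · refine ⟨1, by norm_num, ?_, ?_⟩
    · rw [Int.cast_one]; exact sub_eq_zero.1 h
    · rw [h00, Int.cast_one, sub_eq_zero.1 h]; ring
  · refine ⟨-1, by norm_num, ?_, ?_⟩
    · rw [Int.cast_neg, Int.cast_one]; exact eq_neg_of_add_eq_zero_left h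
    · rw [h00, Int.cast_neg, Int.cast_one, eq_neg_of_add_eq_zero_left h]; ring

end alg

/-! ### the adapted frames -/

section frame

variable {𝒪 : Type} [CommRing 𝒪] [IsDomain 𝒪] [IsDiscreteValuationRing 𝒪] [CharZero 𝒪]

/-- **[CI-FRAME]** the adapted frames at the primes of the chain. -/
theorem m59ci_frame (p : ℕ) [Fact p.Prime] (hp𝒪 : (p : 𝒪) ∈ maximalIdeal 𝒪)
    {Th : Finset Nat.Primes} (td : m59c_TameData p Th) (hgen : m59ct_InertiaGen td)
    (r : FramedRep 𝒪) (hdet : r.toGaloisRepAdic.DetIsCyclotomic p)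
    (hTh : ∀ ℓ ∈ Th, ((ℓ : Nat.Primes) : ℕ) ≠ p ∧
      r.toGaloisRepAdic.IsUnipotentOnInertiaAt ((ℓ : Nat.Primes) : ℕ) ∧
      ¬ r.toGaloisRepAdic.IsUnramifiedAt ((ℓ : Nat.Primes) : ℕ) ∧
      ∀ τ ∈ (primeLocalPlace ℓ).inertiaSubgroupIn ℚ, twc_lr_In (maximalIdeal 𝒪) (r τ - 1)) :
    ∃ (ε : Nat.Primes → ℤ) (g gi : Nat.Primes → Matrix (Fin 2) (Fin 2) 𝒪), ∀ ℓ ∈ Th,
      ε ℓ * ε ℓ = 1 ∧ gi ℓ * g ℓ = 1 ∧ g ℓ * gi ℓ = 1 ∧
      (gi ℓ * r (td.gφ ℓ) * g ℓ) 0 0 = ((ε ℓ : ℤ) : 𝒪) * (((ℓ : Nat.Primes) : ℕ) : 𝒪) ∧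
      (gi ℓ * r (td.gφ ℓ) * g ℓ) 1 0 = 0 ∧
      (gi ℓ * r (td.gφ ℓ) * g ℓ) 1 1 = ((ε ℓ : ℤ) : 𝒪) ∧
      (gi ℓ * (r (td.gσ ℓ) - 1) * g ℓ) 0 0 = 0 ∧
      (gi ℓ * (r (td.gσ ℓ) - 1) * g ℓ) 1 0 = 0 ∧
      (gi ℓ * (r (td.gσ ℓ) - 1) * g ℓ) 1 1 = 0 := by
  classical
  have hone : ∀ ℓ : Nat.Primes, ∃ (ε : ℤ) (g gi : Matrix (Fin 2) (Fin 2) 𝒪), ℓ ∈ Th →
      ε * ε = 1 ∧ gi * g = 1 ∧ g * gi = 1 ∧
      (gi * r (td.gφ ℓ) * g) 0 0 = ((ε : ℤ) : 𝒪) * (((ℓ : Nat.Primes) : ℕ) : 𝒪) ∧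
      (gi * r (td.gφ ℓ) * g) 1 0 = 0 ∧
      (gi * r (td.gφ ℓ) * g) 1 1 = ((ε : ℤ) : 𝒪) ∧
      (gi * (r (td.gσ ℓ) - 1) * g) 0 0 = 0 ∧
      (gi * (r (td.gσ ℓ) - 1) * g) 1 0 = 0 ∧
      (gi * (r (td.gσ ℓ) - 1) * g) 1 1 = 0 := by
    intro ℓ
    by_cases hℓ : ℓ ∈ Th
    swap
    · exact ⟨1, 1, 1, fun h => absurd h hℓ⟩
    obtain ⟨hℓp, hun, hram, hres⟩ := hTh ℓ hℓ
    set M := r (td.gσ ℓ) - 1 with hMdef
    set Φ := r (td.gφ ℓ) with hΦdef
    obtain ⟨htrM, hsqM, hrelM⟩ := m59c_lr_unip td hp𝒪 r ℓ hℓ hres hun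
    have hdetΦ : Φ.det = (((ℓ : Nat.Primes) : ℕ) : 𝒪) := m59c_lr_det_phi td r ℓ hℓ hℓp hdet
    have hM0 : M ≠ 0 := by
      intro h0
      apply hram
      exact m59ct_unram_of_sigma td hgen hp𝒪 r ℓ hℓ hres (sub_eq_zero.1 h0)
    obtain ⟨g, gi, n, hgig, hggi, hn, hMg⟩ := m59ci_nilp_frame M hM0 htrM hsqM
    have hl0 : ((((ℓ : Nat.Primes) : ℕ) : 𝒪)) ≠ 0 := Nat.cast_ne_zero.2 ℓ.2.ne_zero
    have hrel' : (gi * Φ * g) * !![0, n; 0, 0] =
        ((((ℓ : Nat.Primes) : ℕ) : 𝒪)) • (!![0, n; 0, 0] * (gi * Φ * g)) := by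
      rw [← hMg]
      have e1 : gi * Φ * g * (gi * M * g) = gi * (Φ * M) * g := by
        have : gi * Φ * g * (gi * M * g) = gi * Φ * (g * gi) * M * g := by
          simp only [Matrix.mul_assoc]
        rw [this, hggi, Matrix.mul_one]
        simp only [Matrix.mul_assoc]
      have e2 : gi * M * g * (gi * Φ * g) = gi * (M * Φ) * g := by
        have : gi * M * g * (gi * Φ * g) = gi * M * (g * gi) * Φ * g := by
          simp only [Matrix.mul_assoc]
        rw [this, hggi, Matrix.mul_one]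
        simp only [Matrix.mul_assoc]
      rw [e1, e2, hrelM, Matrix.mul_smul, Matrix.smul_mul]
    have hdet' : (gi * Φ * g).det = (((ℓ : Nat.Primes) : ℕ) : 𝒪) := by
      rw [Matrix.det_mul, Matrix.det_mul, hdetΦ]
      have h1 : gi.det * g.det = 1 := by rw [← Matrix.det_mul, hgig, Matrix.det_one]
      linear_combination ((((ℓ : Nat.Primes) : ℕ) : 𝒪)) * h1
    obtain ⟨h10, ε, hε, h11, h00⟩ := m59ci_frob_frame (gi * Φ * g) n _ hn hl0 hrel' hdet'
    refine ⟨ε, g, gi, fun _ => ⟨hε, hgig, hggi, h00, h10, h11, ?_, ?_, ?_⟩⟩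
    · rw [hMg]; rfl
    · rw [hMg]; rfl
    · rw [hMg]; rfl
  choose ε g gi h using hone
  exact ⟨ε, g, gi, h⟩

end frame

end

end Fermat.Agent.M59
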