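import Fermat.Agent.M59.Top.Chain.SysOf
import Fermat.Agent.M59.Top.Chain.Frame
import Fermat.Agent.M59.EP.AsmChain
import Fermat.Agent.M59.S38g.Ord.Seams

/-!
M59 / [CHAIN-inst], THE LEAVES OF [CI-ARITH] (helper25, deputy; ruling #48).  Prefix `m59ci_`.

Statements (and one three-line theorem).  The wiring `m59ci_sysStmt_of`
(M59/Top/Chain/ArithOf.lean) proves the leaf [CI-SYS] `m59ci_Sys_stmt Peu` from [TRES-DICT]
`m59mo_TresDict_stmt Peu` and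

* **[E'-0]** `m59ci_Chain0_stmt` : block [E'] `m59ep_Chain_stmt` WITHOUT the hypothesis
  `Q.Nonempty` (the Taylor–Wiles set is empty when the dual Selmer group vanishes and the chain is
  empty).  `m59ci_chain0_of` : it follows from the three leaves of block [E'] exactly as
  `m59eps_chain_of` (helper3's `m59eps_chain_Q` never uses `Q.Nonempty`);
* **[CI-ACT]** `m59ci_Act_stmt` (THEOREM `m59ac_act_stmt`, helper26), **[CI-U]** `m59ci_U_stmt`;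
* **[CI-COT]** `m59ci_Cot_stmt` : the Taylor–Wiles primes and the cotangent bound
  `m59ci_CotB` (abstract coordinates `z` with `m59c_LocCob`; producer: helper21's `m59c_finrank_le`
  with `d ℓ = 3` at the scalar-hard primes, `d ℓ = 1` at the non-scalar primes; in case (II) with
  the coordinate at `p`: `M59/Top/Chain/CotOf.lean`);
* **[CI-PAIRTOP]** `m59ci_PairTop_stmt` : the base ring `T₀` = the pair ring of the top base level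
  and `ρ_W`, with its two projections `p1 : T₀ → (B m).T`, `x₂ : T₀ → 𝒪`, the images `β` of the
  coordinates `ν` (values `m59ci_xval` at the point of `W`: [CI-FRAME] `m59ci_frame`), the traces,
  and for every Taylor–Wiles set the pair side `m59ci_PairSys` (helper21's [CI-PAIR]).
-/

set_option autoImplicit false
set_option linter.style.haveILetI false
set_option linter.unusedSectionVars false
set_option linter.unusedVariables false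

open Polynomial CuspForm IsLocalRing Fermat.Agent.TW Fermat.Agent.S53 Fermat.Agent.S56
  Fermat.Agent.JT3

namespace Fermat.Agent.M59

noncomputable section

local notation "GQ" => (AlgebraicClosure ℚ ≃ₐ[ℚ] AlgebraicClosure ℚ)
local notation "Qbar" => AlgebraicClosure ℚ

attribute [local instance] S53.dualNumberAlgebra

/-! ### [E'-0] -/

/-- **block [E'] without `Q.Nonempty`.** -/
def m59ci_Chain0_stmt : Prop :=
  ∀ (p : ℕ) [Fact p.Prime], p ≠ 2 →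
  ∀ (𝒪 : Type) [CommRing 𝒪] [IsDomain 𝒪] [IsDiscreteValuationRing 𝒪]
    [IsAdicComplete (maximalIdeal 𝒪) 𝒪] [Finite (ResidueField 𝒪)] [CharZero 𝒪],
    (p : 𝒪) ∈ maximalIdeal 𝒪 →
  ∀ (N : ℕ) [NeZero N], m59ep_Rigid p N →
  ∀ (S₀ : Finset ℕ), p ∈ S₀ → (∀ ℓ : ℕ, ℓ.Prime → ℓ ∣ N → ℓ ∈ S₀) →
  ∀ (m : ℕ) (l : Fin m → ℕ), Function.Injective l →
    (∀ i, (l i).Prime ∧ l i ∉ S₀ ∧ l i ≠ p) →
  ∀ [∀ k : ℕ, NeZero (m59ep_lvl N l k)]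
    (θ : ∀ k : ℕ, heckeAlgebra (m59ep_lvl N l k) 2 (↑(m59ep_bad S₀ l k) : Set ℕ) →+*
      ResidueField 𝒪)
    (ρbar : ResidualGaloisRep (ResidueField 𝒪)),
    (∀ k, twt_Compat (θ k) ρbar) → ρbar.IsAbsolutelyIrreducible →
    ∃ B : ∀ k : ℕ, twe_Base 𝒪 (m59ep_lvl N l k) (m59ep_bad S₀ l k) (θ k),
      ∀ (Q : Finset ℕ) [∀ k : ℕ, NeZero (twe_Nbal (m59ep_lvl N l k) Q ∅)],
        (∀ t ∈ Q, t ∉ S₀ ∧ ∀ i, t ≠ l i) → (∀ k, twe_IsTWSet (θ k) p Q) →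
        ∃ L : ∀ k : ℕ, twe_Level (B k) p Q,
          (∀ k, (L k).IsLG2) ∧
          ∀ k : Fin m, Nonempty (m59ep_Step (L (k : ℕ)) (L ((k : ℕ) + 1)) (l k))

/-- **[E'-0] from the three leaves of block [E']** (twin of `m59eps_chain_of`). -/
theorem m59ci_chain0_of (h1 : m59eps_IhInv_stmt) (h2 : m59eps_IhOnto_stmt)
    (h3 : m59eps_NewPtH_stmt) : m59ci_Chain0_stmt := by
  intro p _ hp2 𝒪 _ _ _ _ _ _ hp𝒪 N _ hrig S₀ hpS hNS m l hinj hl _ θ ρbar hcompat hirr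
  have hpSk : ∀ k, p ∈ m59ep_bad S₀ l k := fun k => (m59eps_mem_bad l S₀ k p).2 (Or.inl hpS)
  have hNSk : ∀ k, ∀ ℓ : ℕ, ℓ.Prime → ℓ ∣ m59ep_lvl N l k → ℓ ∈ m59ep_bad S₀ l k :=
    fun k => m59eps_hNS l N S₀ hNS (fun i => (hl i).1) k
  choose B hfull using fun k => m59epw_dt_M1F p hp2 𝒪 hp𝒪 (m59ep_lvl N l k) (m59ep_bad S₀ l k)
    (hpSk k) (hNSk k) (θ k) ρbar (hcompat k) hirr
  refine ⟨B, fun Q _ hQ hTW => ?_⟩
  exact m59eps_chain_Q h1 h2 h3 hp2 hp𝒪 hrig hpS hNS hinj hl hcompat hirr B hfull Q hQ hTW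

/-- [E'-0] from the three leaves of `AsmCells.lean`. -/
theorem m59ci_chain0_of' (h1 : m59eps_IhInv_stmt) (h2 : m59eps_IhOnto_stmt)
    (h3 : m59eps_NewPt_stmt) : m59ci_Chain0_stmt :=
  m59ci_chain0_of h1 h2 (m59eps_newPtH_of h3)

/-! ### [CI-COT] -/

/-- **the cotangent bound**, in the form consumed by helper21's `m59cp_PairSys_stmt` (extended by the
predicate `PX`, `m59ci_PairSysX_stmt`): for every Hecke pair of type `(insert p Smin, Th, Q)` with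
FLAT `k[ε]`-points (mode `good`), resp. ORDINARY at `p` (mode `¬ good`), and every family `z` of
elements of `𝔪_T` whose vanishing forces the local coboundary condition `m59c_LocCob` at the framed
primes `Th`, the cotangent space modulo `z` has dimension `≤ c`. -/
def m59ci_CotB {𝒪 : Type} [CommRing 𝒪] [IsLocalRing 𝒪] {rb : FramedResidual (ResidueField 𝒪)}
    (p : ℕ) (good : Prop) (Smin : Finset ℕ) (Th : Finset Nat.Primes) (Q : Finset ℕ) (c : ℕ) :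
    Prop :=
  ∀ H : twc_HPair 𝒪 rb,
    m59c_IsType p (fun r => good → r.toGaloisRepAdic.IsFlatAt p) (insert p Smin) Th Q H →
    (¬ good → H.r.toGaloisRepAdic.IsOrdinaryAt p) →
    ∀ (ι : Type) (z : ι → maximalIdeal H.T),
      (∀ φ : H.T →ₐ[𝒪] DualNumber (ResidueField 𝒪), (∀ i, φ (z i : H.T) = 0) →
        m59c_LocCob Th H φ) →
      Module.finrank (ResidueField H.T) (CotangentSpace H.T ⧸ twc_relW 𝒪 z) ≤ c

/-- **[CI-COT]** the Taylor–Wiles primes and the cotangent bound `m59ci_CotB`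
(THEOREM `m59ci_cot`, M59/Top/Chain/CotOf.lean, from helper21's `m59cp_cot_flat` / `m59cp_cot_ord` /
`m59cp_cotBound_ord`).  In the mode `¬ good` the residual representation is TRÈS RAMIFIÉE
(`m59mo_IsTres`; from `¬ Peu` by [TRES-DICT] `m59mo_TresDict_stmt Peu`). -/
def m59ci_Cot_stmt : Prop :=
  ∀ (p : ℕ) [Fact p.Prime], p ≠ 2 →
  ∀ (𝒪 : Type) [CommRing 𝒪] [IsDomain 𝒪] [IsDiscreteValuationRing 𝒪]
    [IsAdicComplete (maximalIdeal 𝒪) 𝒪] [Finite (ResidueField 𝒪)] [CharZero 𝒪],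
    (p : 𝒪) ∈ maximalIdeal 𝒪 →
  ∀ (rW : FramedRep 𝒪), s56a_Hyp p rW.residual.toResidualGaloisRep →
  ∀ (S Smin : Finset ℕ), p ∈ S → Smin ⊆ S →
    (∀ q : ℕ, q.Prime → q ≠ p →
      (q ∈ Smin ↔ ¬ rW.residual.toResidualGaloisRep.IsUnramifiedAt q)) →
  ∀ (good : Prop), (¬ good → m59mo_IsTres p rW.residual.toResidualGaloisRep) →
  ∀ (T8 Tn : Finset Nat.Primes), Disjoint T8 Tn →
    (∀ ℓ ∈ T8 ∪ Tn, ((ℓ : Nat.Primes) : ℕ) ∈ S ∧ ((ℓ : Nat.Primes) : ℕ) ∉ Smin ∧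
      ((ℓ : Nat.Primes) : ℕ) ≠ p) →
  ∀ (td : m59c_TameData p (T8 ∪ Tn)) (a : Nat.Primes → 𝒪) (e : Nat.Primes → Fin 2 → 𝒪),
    (∀ ℓ ∈ T8, rW.residual (td.gφ ℓ) = Matrix.scalar (Fin 2) (residue 𝒪 (a ℓ))) →
    (∀ ℓ ∈ Tn, (m59c_cyc (rW.residual (td.gφ ℓ)) (fun i => residue 𝒪 (e ℓ i))).det ≠ 0) →
    ∃ rr c : ℕ, rr = c + 3 * T8.card + Tn.card ∧
      ∀ n : ℕ, ∃ qv : Fin rr → ℕ, Function.Injective qv ∧
        (∀ i, (qv i).Prime ∧ qv i ∉ S ∧ p ^ (n + 1) ∣ qv i - 1) ∧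
        (∀ i, ∀ P : ValuationSubring Qbar, P.LiesOverPrime (qv i) →
          ∀ φ : GQ, P.IsFrobeniusAt φ (qv i) → ∃ α β : ResidueField 𝒪, α ≠ β ∧
            LinearMap.charpoly (rW.residual.toResidualGaloisRep.ρ φ) = (X - C α) * (X - C β)) ∧
        m59ci_CotB (rb := rW.residual) p good Smin (T8 ∪ Tn) (Finset.univ.image qv) c

/-! ### [CI-PAIRTOP] -/

/-- **[CI-PAIRTOP]** the base ring `T₀` (pair ring of the top base level and `ρ_W`) and the pair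
side over it for every Taylor–Wiles set. -/
def m59ci_PairTop_stmt : Prop :=
  ∀ (p : ℕ) [Fact p.Prime], p ≠ 2 →
  ∀ (𝒪 : Type) [CommRing 𝒪] [IsDomain 𝒪] [IsDiscreteValuationRing 𝒪]
    [IsAdicComplete (maximalIdeal 𝒪) 𝒪] [Finite (ResidueField 𝒪)] [CharZero 𝒪],
    (p : 𝒪) ∈ maximalIdeal 𝒪 →
  -- the top level of the chain
  ∀ (N : ℕ) [NeZero N], Squarefree N →
  ∀ (S : Finset ℕ), p ∈ S → (∀ ℓ : ℕ, ℓ.Prime → ℓ ∣ N → ℓ ∈ S) →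
  -- the representation of `W`
  ∀ (rW : FramedRep 𝒪) (θ : heckeAlgebra N 2 (↑S : Set ℕ) →+* ResidueField 𝒪),
    twt_Compat θ rW.residual.toResidualGaloisRep →
    s56a_Hyp p rW.residual.toResidualGaloisRep →
    rW.toGaloisRepAdic.DetIsCyclotomic p →
    (∀ q : ℕ, q.Prime → q ≠ p → rW.toGaloisRepAdic.IsUnipotentOnInertiaAt q) →
  -- the primes where `ρ̄` is ramified
  ∀ (Smin : Finset ℕ), p ∉ Smin → (∀ q ∈ Smin, q.Prime ∧ q ∣ N) →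
    (∀ q : ℕ, q.Prime → q ≠ p →
      (q ∈ Smin ↔ ¬ rW.residual.toResidualGaloisRep.IsUnramifiedAt q)) →
  -- the primes of the chain: scalar-hard `T8`, non-scalar `Tn`
  ∀ (T8 Tn : Finset Nat.Primes), Disjoint T8 Tn →
    (∀ ℓ ∈ T8 ∪ Tn, ((ℓ : Nat.Primes) : ℕ) ∣ N ∧ ((ℓ : Nat.Primes) : ℕ) ∉ Smin ∧
      ((ℓ : Nat.Primes) : ℕ) ≠ p ∧ ¬ rW.toGaloisRepAdic.IsUnramifiedAt ((ℓ : Nat.Primes) : ℕ)) →
    (∀ ℓ ∈ T8, ((ℓ : Nat.Primes) : ℕ) % p = 1) →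
    (∀ q : ℕ, q.Prime → q ≠ p → q ∉ Smin →
      q ∉ (T8 ∪ Tn).image (fun ℓ : Nat.Primes => (ℓ : ℕ)) → rW.toGaloisRepAdic.IsUnramifiedAt q) →
    (∀ q : ℕ, q.Prime → q ∣ N → q ≠ p → q ∉ Smin →
      q ∉ (T8 ∪ Tn).image (fun ℓ : Nat.Primes => (ℓ : ℕ)) →
      m59m_IsHarmless p rW.residual.toResidualGaloisRep q) →
  -- the condition at `p`: case (d0) `good`, case (II) `¬ good`
  ∀ (good : Prop), (good → ¬ p ∣ N ∧ rW.toGaloisRepAdic.IsFlatAt p) →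
    (¬ good → p ∣ N ∧ rW.toGaloisRepAdic.IsOrdinaryAt p) →
  -- the tame datum and the adapted frames
  ∀ (td : m59c_TameData p (T8 ∪ Tn)), m59ct_InertiaGen td →
  ∀ (ε : Nat.Primes → ℤ) (g gi : Nat.Primes → Matrix (Fin 2) (Fin 2) 𝒪)
    (e : Nat.Primes → Fin 2 → 𝒪),
    (∀ ℓ ∈ T8 ∪ Tn, ε ℓ * ε ℓ = 1 ∧ gi ℓ * g ℓ = 1 ∧ g ℓ * gi ℓ = 1 ∧
      (gi ℓ * rW (td.gφ ℓ) * g ℓ) 0 0 = ((ε ℓ : ℤ) : 𝒪) * (((ℓ : Nat.Primes) : ℕ) : 𝒪) ∧
      (gi ℓ * rW (td.gφ ℓ) * g ℓ) 1 0 = 0 ∧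
      (gi ℓ * rW (td.gφ ℓ) * g ℓ) 1 1 = ((ε ℓ : ℤ) : 𝒪) ∧
      (gi ℓ * (rW (td.gσ ℓ) - 1) * g ℓ) 0 0 = 0 ∧
      (gi ℓ * (rW (td.gσ ℓ) - 1) * g ℓ) 1 0 = 0 ∧
      (gi ℓ * (rW (td.gσ ℓ) - 1) * g ℓ) 1 1 = 0) →
    (∀ ℓ ∈ T8, rW.residual (td.gφ ℓ) =
      Matrix.scalar (Fin 2) (residue 𝒪 (((ε ℓ : ℤ) : 𝒪)))) →
    (∀ ℓ ∈ Tn, (m59c_cyc (rW.residual (td.gφ ℓ)) (fun i => residue 𝒪 (e ℓ i))).det ≠ 0) →
  -- the enumeration of the chain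
  ∀ (m : ℕ) (ch : Fin m → ↥T8 ⊕ ↥Tn), Function.Bijective ch →
  -- the base package
  ∀ (B : twe_Base 𝒪 N S θ) (rr c : ℕ),
    ∃ (T0 : Type) (_ : CommRing T0) (_ : Algebra 𝒪 T0) (_ : Module.Finite 𝒪 T0)
      (x₂ : T0 →ₐ[𝒪] 𝒪) (p1 : T0 →ₐ[𝒪] B.T) (β : (↥T8 × Fin 6) ⊕ ↥Tn → T0),
      (∀ cc, x₂ (β cc) = m59ci_xval (fun ℓ : ↥T8 => ((ℓ : Nat.Primes) : ℕ))
        (fun ℓ : ↥Tn => ((ℓ : Nat.Primes) : ℕ)) (fun ℓ : ↥T8 => ε ℓ) (fun ℓ : ↥Tn => ε ℓ) cc) ∧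
      (∀ σ : GQ, ∃ t : T0, p1 t = B.H.ρ.trace σ ∧ x₂ t = Matrix.trace (rW σ)) ∧
      -- the Taylor–Wiles sets
      ∀ (qv : Fin rr → ℕ), Function.Injective qv →
        (∀ i, (qv i).Prime ∧ qv i ∉ S ∧ qv i % p = 1) →
        (∀ i, ∀ P : ValuationSubring Qbar, P.LiesOverPrime (qv i) →
          ∀ φ : GQ, P.IsFrobeniusAt φ (qv i) → ∃ α β : ResidueField 𝒪, α ≠ β ∧
            LinearMap.charpoly (rW.residual.toResidualGaloisRep.ρ φ) = (X - C α) * (X - C β)) →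
        m59ci_CotB (rb := rW.residual) p good Smin (T8 ∪ Tn) (Finset.univ.image qv) c →
      ∀ [NeZero (twe_Nbal N (Finset.univ.image qv) ∅)]
        (L : twe_Level B p (Finset.univ.image qv))
        (u : ∀ t : ℕ, t ∈ Finset.univ.image qv → L.T'),
        (∀ t ht, u t ht - 1 ∈ maximalIdeal L.T') →
        (∀ t ht, m59ci_IsGalDia L.H'.ρ t (u t ht)) →
        Nonempty (m59ci_PairSys 𝒪 rr (B.d * 2 ^ rr)
          (fun k => m59ci_lc (fun ℓ : ↥T8 => ((ℓ : Nat.Primes) : ℕ))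
            (fun ℓ : ↥Tn => ((ℓ : Nat.Primes) : ℕ)) (ch k))
          (Fin c) (fun ℓ : ↥T8 => ((ε ℓ : ℤ) : 𝒪)) (fun ℓ : ↥T8 => ((ℓ : Nat.Primes) : ℕ))
          (fun ℓ : ↥Tn => ((ε ℓ : ℤ) : 𝒪) * ((((ℓ : Nat.Primes) : ℕ) : 𝒪) + 1))
          (fun ℓ : ↥Tn => ((ℓ : Nat.Primes) : ℕ)) ch
          (twds_a 𝒪 rr) T0 ((twc_j B rr).comp (p1 : T0 →+* B.T)) β
          L.T' (fun σ => L.H'.ρ.trace σ)
          ((twc_j B rr).comp (L.π0 : L.T' →+* B.T))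
          (fun i => u (qv i) (Finset.mem_image.2 ⟨i, Finset.mem_univ _, rfl⟩)))

end

end Fermat.Agent.M59
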