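import Mathlib
import Fermat.Agent.M59.C.PairSys

/-!
M59 / [CHAIN-inst], cell [CI-PAIR] WITH AN EXTRA PREDICATE (helper25, deputy; ruling #48).
Prefix `m59ci_`.

`m59ci_pairSysX : m59ci_PairSysX_stmt` : helper21's `m59cp_pairSys : m59cp_PairSys_stmt`
(M59/C/PairSys.lean) with one more datum: a predicate `PX : twc_HPair 𝒪 rb → Prop` on Hecke pairs,
with its gluing hypothesis `hPX` for the pairs embedded in `H.T × 𝒪` (same binder block as `hPp`),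
and available as a hypothesis `PX H''` in the cotangent bound `hcot`.

In use (M59/Top/Chain/PairTop.lean): `PX H'' := ¬ good → H''.r ordinary at p` (case (II): the
coordinate at `p` only exists for ORDINARY pairs; gluing by helper24's `m59rpk_ord_glue_two`).

The proof is helper21's proof verbatim (his lemmas `m59cp_pair_normed`, `m59cp_zz_map`,
`m59cp_nu_map`, `m59cp_pairSys_core`, … are used as they are), with one more argument in the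
application of `hcot`.
-/

set_option autoImplicit false
set_option linter.unusedSectionVars false
set_option linter.style.haveILetI false
set_option linter.unusedVariables false

open IsLocalRing ExtCitation
open Fermat.Agent.S53 Fermat.Agent.S56 Fermat.Agent.TW Fermat.Agent.JT3 Fermat.Agent.FF

namespace Fermat.Agent.M59

noncomputable section

local notation "GQ" => (AlgebraicClosure ℚ ≃ₐ[ℚ] AlgebraicClosure ℚ)

attribute [local instance] S53.dualNumberAlgebra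

/-- **[CI-PAIR] with the extra predicate `PX`, the statement.** -/
def m59ci_PairSysX_stmt : Prop :=
  ∀ (p : ℕ) [Fact p.Prime], p ≠ 2 →
  ∀ (𝒪 : Type) [CommRing 𝒪] [IsLocalRing 𝒪] [IsNoetherianRing 𝒪]
    [IsAdicComplete (maximalIdeal 𝒪) 𝒪] [Finite (ResidueField 𝒪)],
    (p : 𝒪) ∈ maximalIdeal 𝒪 →
  ∀ (rb : FramedResidual (ResidueField 𝒪)), rb.toResidualGaloisRep.IsAbsolutelyIrreducible →
  -- the frame of `ρ_W`
  ∀ (rW : FramedRep 𝒪), (∀ σ, (rW σ).map (residue 𝒪) = rb σ) →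
    rW.toGaloisRepAdic.DetIsCyclotomic p →
  -- the type away from `p`
  ∀ (Pp : FramedRep (DualNumber (ResidueField 𝒪)) → Prop) (PX : twc_HPair 𝒪 rb → Prop)
    (Smin : Finset ℕ)
    (T8 Tn : Finset Nat.Primes) (td : m59c_TameData p (T8 ∪ Tn)),
    (∀ ℓ ∈ T8 ∪ Tn, ((ℓ : Nat.Primes) : ℕ) ≠ p) →
    (∀ ℓ ∈ T8 ∪ Tn, rb.toResidualGaloisRep.IsUnramifiedAt ((ℓ : Nat.Primes) : ℕ)) →
    (∀ ℓ ∈ T8 ∪ Tn, rW.toGaloisRepAdic.IsUnipotentOnInertiaAt ((ℓ : Nat.Primes) : ℕ)) →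
    (∀ q ∈ Smin, q.Prime → q ≠ p → rW.toGaloisRepAdic.IsUnipotentOnInertiaAt q) →
  -- the constant frames
  ∀ (a : Nat.Primes → 𝒪) (g gi : Nat.Primes → Matrix (Fin 2) (Fin 2) 𝒪)
    (t₀ : Nat.Primes → 𝒪) (e : Nat.Primes → Fin 2 → 𝒪),
    (∀ ℓ ∈ T8, gi ℓ * g ℓ = 1) →
    (∀ ℓ ∈ T8, rb (td.gφ ℓ) = Matrix.scalar (Fin 2) (residue 𝒪 (a ℓ))) →
    (∀ ℓ ∈ Tn, residue 𝒪 (t₀ ℓ) = Matrix.trace (rb (td.gφ ℓ))) →
    (∀ ℓ ∈ Tn, (m59c_cyc (rb (td.gφ ℓ)) (fun i => residue 𝒪 (e ℓ i))).det ≠ 0) →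
  -- the base pair
  ∀ (H₀ : twc_HPair 𝒪 rb) [Module.Finite 𝒪 H₀.T], H₀.r.toGaloisRepAdic.DetIsCyclotomic p →
    ∃ β : (↥T8 × Fin 6) ⊕ ↥Tn → ↥(m59cp_T H₀.r rW),
      (∀ c, m59cp_snd H₀.r rW (β c) =
        m59cp_nu (fun ℓ : ↥T8 => a ℓ) (fun ℓ : ↥Tn => t₀ ℓ)
          (m59cp_zz td.gσ td.gφ a g gi t₀ e (fun σ => rW σ)) c) ∧
      -- the patching levels
      ∀ (H : twc_HPair 𝒪 rb) [Module.Finite 𝒪 H.T] (πT : H.T →ₐ[𝒪] H₀.T),
        (∀ σ, πT (H.r σ).trace = (H₀.r σ).trace) →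
        H.r.toGaloisRepAdic.DetIsCyclotomic p →
        (∀ ℓ ∈ T8 ∪ Tn, H.r.toGaloisRepAdic.IsUnipotentOnInertiaAt ((ℓ : Nat.Primes) : ℕ)) →
        (∀ q ∈ Smin, q.Prime → q ≠ p → H.r.toGaloisRepAdic.IsUnipotentOnInertiaAt q) →
      ∀ (Q : Finset ℕ),
        (∀ q : ℕ, q.Prime → q ∉ Smin ∪ (T8 ∪ Tn).image (fun ℓ : Nat.Primes => (ℓ : ℕ)) ∪ Q →
          H.r.toGaloisRepAdic.IsUnramifiedAt q) →
        (∀ q : ℕ, q.Prime → q ∉ Smin ∪ (T8 ∪ Tn).image (fun ℓ : Nat.Primes => (ℓ : ℕ)) ∪ Q →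
          rW.toGaloisRepAdic.IsUnramifiedAt q) →
        -- the condition at `p`, for the pairs embedded in `H.T × 𝒪`
        (p ∈ Smin → ∀ (H'' : twc_HPair 𝒪 rb) (pr₁ : H''.T →ₐ[𝒪] H.T) (pr₂ : H''.T →ₐ[𝒪] 𝒪),
          Module.Finite 𝒪 H''.T → (∀ x : H''.T, pr₁ x = 0 → pr₂ x = 0 → x = 0) →
          ∀ (g₁ : (Matrix (Fin 2) (Fin 2) H.T)ˣ),
            (∀ σ, (H''.r σ).map pr₁ = g₁.val * H.r σ * g₁.inv) →
          ∀ (g₂ : (Matrix (Fin 2) (Fin 2) 𝒪)ˣ),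
            (∀ σ, (H''.r σ).map pr₂ = g₂.val * rW σ * g₂.inv) →
          ∀ φ : H''.T →ₐ[𝒪] DualNumber (ResidueField 𝒪), Function.Surjective φ →
            Pp (twc_frame H''.r φ)) →
        -- the extra condition, for the pairs embedded in `H.T × 𝒪`
        (∀ (H'' : twc_HPair 𝒪 rb) (pr₁ : H''.T →ₐ[𝒪] H.T) (pr₂ : H''.T →ₐ[𝒪] 𝒪),
          Module.Finite 𝒪 H''.T → (∀ x : H''.T, pr₁ x = 0 → pr₂ x = 0 → x = 0) →
          ∀ (g₁ : (Matrix (Fin 2) (Fin 2) H.T)ˣ),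
            (∀ σ, (H''.r σ).map pr₁ = g₁.val * H.r σ * g₁.inv) →
          ∀ (g₂ : (Matrix (Fin 2) (Fin 2) 𝒪)ˣ),
            (∀ σ, (H''.r σ).map pr₂ = g₂.val * rW σ * g₂.inv) → PX H'') →
      -- the cotangent bound
      ∀ (κ : Type) [Fintype κ],
        (∀ (H'' : twc_HPair 𝒪 rb), m59c_IsType p Pp Smin (T8 ∪ Tn) Q H'' → PX H'' →
          ∀ (ι : Type) (z : ι → maximalIdeal H''.T),
            (∀ φ : H''.T →ₐ[𝒪] DualNumber (ResidueField 𝒪), (∀ i, φ (z i : H''.T) = 0) →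
              m59c_LocCob (T8 ∪ Tn) H'' φ) →
            Module.finrank (ResidueField H''.T) (CotangentSpace H''.T ⧸ twc_relW 𝒪 z) ≤
              Fintype.card κ) →
      -- the Galois diamonds
      ∀ (rr : ℕ) (uT : Fin rr → H.T), (∀ i, uT i - 1 ∈ maximalIdeal H.T) →
        (∀ i, πT (uT i) = 1) →
        (∀ i, ∃ (φ σ : GQ) (a0 a1 u' : H.T), rW σ = 1 ∧ IsUnit (a0 - a1) ∧
          a0 + a1 = (H.r φ).trace ∧ a0 * a1 = (H.r φ).det ∧ uT i * u' = 1 ∧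
          uT i + u' = (H.r σ).trace ∧ a0 * uT i + a1 * u' = (H.r (φ * σ)).trace) →
      -- the chain and the module data
      ∀ (m : ℕ) (ch : Fin m → ↥T8 ⊕ ↥Tn), Function.Surjective ch →
      ∀ (dl : ℕ) (𝔞 : Ideal (MvPowerSeries (Fin rr) 𝒪))
        (jB : H₀.T →+* Matrix (Fin dl) (Fin dl) (MvPowerSeries (Fin rr) 𝒪 ⧸ 𝔞)),
        Nonempty (m59ci_PairSys 𝒪 rr dl
          (fun k => ((m59cp_prm (ch k) : Nat.Primes) : ℕ)) κ
          (fun ℓ : ↥T8 => a ℓ) (fun ℓ : ↥T8 => ((ℓ : Nat.Primes) : ℕ))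
          (fun ℓ : ↥Tn => t₀ ℓ) (fun ℓ : ↥Tn => ((ℓ : Nat.Primes) : ℕ)) ch 𝔞
          ↥(m59cp_T H₀.r rW)
          (jB.comp (m59cp_fst H₀.r rW : ↥(m59cp_T H₀.r rW) →+* H₀.T)) β
          H.T (fun σ => (H.r σ).trace) (jB.comp (πT : H.T →+* H₀.T)) uT)


/-- **[CI-PAIR] with the extra predicate `PX`.** -/
theorem m59ci_pairSysX : m59ci_PairSysX_stmt := by
  intro p hpp hp2 𝒪 _ _ _ _ _ hp𝒪 rb habs rW hW hdW Pp PX Smin T8 Tn td hℓp hur hunW hunipW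
    a g gi t₀ e hgi hφa ht₀ hcyc H₀ hfin₀ hdH₀
  classical
  haveI hchar : CharP (ResidueField 𝒪) p := m59cp_charP p hp𝒪
  have h2𝒪 : IsUnit (2 : 𝒪) := m59cp_isUnit_two hpp.out hp2 hp𝒪
  have h2k : (2 : ResidueField 𝒪) ≠ 0 := by
    have h := h2𝒪.map (residue 𝒪)
    rw [map_ofNat] at h
    exact h.ne_zero
  haveI hidloc : IsLocalHom (algebraMap 𝒪 𝒪) := ⟨fun a ha => ha⟩
  have hWl : rW.IsLiftOf rb (ResidueField.map (algebraMap 𝒪 𝒪)) := by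
    intro σ
    rw [hW σ]
    ext i j
    simp only [Matrix.map_apply]
    obtain ⟨x, hx⟩ := residue_surjective (rb σ i j)
    rw [← hx, ResidueField.map_residue]
    rfl
  -- the base pair, normalised along `snd`
  obtain ⟨K₀, e₀, hfinK₀, htrK₀, -, -, hK₀W⟩ :=
    m59cp_pair_normed p hp2 habs H₀ rW hW hdH₀ hdW (A₀ := 𝒪) (m59cp_snd H₀.r rW)
      (fun c => ⟨algebraMap 𝒪 _ c, (m59cp_snd H₀.r rW).commutes c⟩) rW hWl h2𝒪 (fun σ => rfl)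
  -- the family of matrices over the concrete base ring
  set R0 : GQ → Matrix (Fin 2) (Fin 2) ↥(m59cp_T H₀.r rW) :=
    fun σ => (K₀.r σ).map (e₀ : K₀.T →ₐ[𝒪] m59cp_T H₀.r rW) with hR0def
  have hR0P : ∀ ℓ : ↥Tn, IsUnit (m59cp_P td.gφ e R0 ℓ).det := by
    intro ℓ
    have h1 : m59cp_P td.gφ e R0 ℓ =
        (m59cp_P td.gφ e (fun σ => K₀.r σ) ℓ).map (e₀ : K₀.T →ₐ[𝒪] m59cp_T H₀.r rW) :=
      (m59cp_P_map td.gφ e (fun σ => K₀.r σ) (e₀ : K₀.T →ₐ[𝒪] m59cp_T H₀.r rW) ℓ).symm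
    rw [h1]
    have h2 := m59cp_map_det ((e₀ : K₀.T →ₐ[𝒪] m59cp_T H₀.r rW) : K₀.T →+* m59cp_T H₀.r rW)
      (m59cp_P td.gφ e (fun σ => K₀.r σ) ℓ)
    have h3 : IsUnit (m59cp_P td.gφ e (fun σ => K₀.r σ) ℓ).det :=
      m59c_P_det_isUnit td.gφ e K₀ ℓ (hcyc ℓ ℓ.2)
    have h4 := h3.map ((e₀ : K₀.T →ₐ[𝒪] m59cp_T H₀.r rW) : K₀.T →+* m59cp_T H₀.r rW)
    rw [← h2] at h4
    exact h4
  have hR0W : (fun σ => (R0 σ).map (m59cp_snd H₀.r rW)) = fun σ => rW σ := by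
    funext σ
    rw [← hK₀W σ]
    ext i j
    rfl
  refine ⟨m59cp_nu (fun ℓ : ↥T8 => a ℓ) (fun ℓ : ↥Tn => t₀ ℓ)
    (m59cp_zz td.gσ td.gφ a g gi t₀ e R0), fun c => ?_, ?_⟩
  · rw [m59cp_nu_map]
    congr 1
    funext c'
    rw [m59cp_zz_map td.gσ td.gφ a g gi t₀ e R0 (m59cp_snd H₀.r rW) hR0P c', hR0W]
  -- the patching levels
  intro H hfinH πT hπT hdH hunH hunipH Q hunrH hunrW hPp hPX κ _ hcot rr uT huT_mem hπTu hdia
    m ch hch dl 𝔞 jB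
  have h2K₀ : IsUnit (2 : K₀.T) := by
    have h := h2𝒪.map (algebraMap 𝒪 K₀.T)
    rwa [map_ofNat] at h
  set πM : m59cp_T H.r rW →ₐ[𝒪] m59cp_T H₀.r rW := m59cp_map H.r H₀.r rW πT hπT with hπM
  have hπMsurj : Function.Surjective πM := m59cp_map_surjective H.r H₀.r rW πT hπT
  obtain ⟨K, eK, hfinK, htrK, ⟨g₁, hg₁⟩, ⟨g₂, hg₂⟩, hKK₀⟩ :=
    m59cp_pair_normed p hp2 habs H rW hW hdH hdW (A₀ := K₀.T)
      ((e₀.symm : m59cp_T H₀.r rW →ₐ[𝒪] K₀.T).comp πM)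
      (e₀.symm.surjective.comp hπMsurj) K₀.r K₀.lift h2K₀
      (fun σ => by
        show e₀.symm (πM (m59cp_t H.r rW σ)) = _
        rw [hπM, m59cp_map_t, ← htrK₀ σ, AlgEquiv.symm_apply_apply])
  haveI := hfinK
  set pr₁ : K.T →ₐ[𝒪] H.T := (m59cp_fst H.r rW).comp (eK : K.T →ₐ[𝒪] m59cp_T H.r rW) with hpr₁
  set pr₂ : K.T →ₐ[𝒪] 𝒪 := (m59cp_snd H.r rW).comp (eK : K.T →ₐ[𝒪] m59cp_T H.r rW) with hpr₂
  set π0 : K.T →ₐ[𝒪] m59cp_T H₀.r rW := πM.comp (eK : K.T →ₐ[𝒪] m59cp_T H.r rW) with hπ0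
  have hπ0surj : Function.Surjective π0 := hπMsurj.comp eK.surjective
  have hR0 : ∀ σ, (K.r σ).map π0 = R0 σ := by
    intro σ
    rw [hR0def]
    show _ = (K₀.r σ).map (e₀ : K₀.T →ₐ[𝒪] m59cp_T H₀.r rW)
    rw [← hKK₀ σ]
    refine Matrix.ext fun i j => ?_
    simp only [Matrix.map_apply]
    show _ = e₀ (e₀.symm (πM (eK _)))
    rw [AlgEquiv.apply_symm_apply]
    rfl
  have hinj : ∀ x : K.T, pr₁ x = 0 → pr₂ x = 0 → x = 0 := by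
    intro x h1 h2
    have h3 : eK x = 0 := m59cp_ext H.r rW (by rw [map_zero]; exact h1) (by rw [map_zero]; exact h2)
    exact (map_eq_zero_iff eK eK.injective).mp h3
  -- the two projections are local
  have hl₁ : IsLocalHom (pr₁ : K.T →+* H.T) := m59cp_isLocalHom_of_finite pr₁
  have hl₂ : IsLocalHom (pr₂ : K.T →+* 𝒪) := m59cp_isLocalHom_of_finite pr₂
  -- the type of `K`
  have hdetK : K.r.toGaloisRepAdic.DetIsCyclotomic p :=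
    m59cp_detCyc_of_pair (pr₁ : K.T →+* H.T) (pr₂ : K.T →+* 𝒪) K.r H.r rW g₁ g₂ p hl₁ hl₂ hinj
      hg₁ hg₂ hdH hdW
  have hunK : ∀ ℓ ∈ T8 ∪ Tn,
      K.r.toGaloisRepAdic.IsUnipotentOnInertiaAt ((ℓ : Nat.Primes) : ℕ) := fun ℓ hℓ =>
    m59cp_unip_of_pair (pr₁ : K.T →+* H.T) (pr₂ : K.T →+* 𝒪) K.r H.r rW g₁ g₂ hinj hg₁ hg₂
      (hunH ℓ hℓ) (hunW ℓ hℓ)
  have hType : m59c_IsType p Pp Smin (T8 ∪ Tn) Q K :=
    ⟨hdetK, fun hpS φ hφ => hPp hpS K pr₁ pr₂ hfinK hinj g₁ hg₁ g₂ hg₂ φ hφ,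
      fun q hq hqn => m59cp_unram_of_pair (pr₁ : K.T →+* H.T) (pr₂ : K.T →+* 𝒪) K.r H.r rW g₁ g₂
        hinj hg₁ hg₂ (hunrH q hq hqn) (hunrW q hq hqn),
      fun q hqS hq hqp => m59cp_unip_of_pair (pr₁ : K.T →+* H.T) (pr₂ : K.T →+* 𝒪) K.r H.r rW
        g₁ g₂ hinj hg₁ hg₂ (hunipH q hqS hq hqp) (hunipW q hqS hq hqp)⟩
  have hcount := hcot K hType (hPX K pr₁ pr₂ hfinK hinj g₁ hg₁ g₂ hg₂)
  -- traces and determinants through the projections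
  have htr₁ : ∀ τ, pr₁ (K.r τ).trace = (H.r τ).trace := by
    intro τ
    have h1 := m59cp_map_trace (pr₁ : K.T →+* H.T) (K.r τ)
    have h3 : ((K.r τ).map pr₁).trace = pr₁ (K.r τ).trace := h1
    rw [← h3, hg₁ τ, m59cp_conj_trace]
  have hdet₁ : ∀ τ, pr₁ (K.r τ).det = (H.r τ).det := by
    intro τ
    have h1 := m59cp_map_det (pr₁ : K.T →+* H.T) (K.r τ)
    have h3 : ((K.r τ).map pr₁).det = pr₁ (K.r τ).det := h1
    rw [← h3, hg₁ τ, m59cp_conj_det]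
  have htr₂ : ∀ τ, pr₂ (K.r τ).trace = (rW τ).trace := by
    intro τ
    have h1 := m59cp_map_trace (pr₂ : K.T →+* 𝒪) (K.r τ)
    have h3 : ((K.r τ).map pr₂).trace = pr₂ (K.r τ).trace := h1
    rw [← h3, hg₂ τ, m59cp_conj_trace]
  have hres : ∀ x : H.T, ∃ c : K.T, (pr₁ : K.T →+* H.T) c - x ∈ maximalIdeal H.T := by
    intro x
    obtain ⟨c₀, hc₀⟩ := H.residue_surjective (residue H.T x)
    refine ⟨algebraMap 𝒪 K.T c₀, ?_⟩
    rw [← residue_eq_zero_iff, map_sub, sub_eq_zero]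
    show residue H.T (pr₁ (algebraMap 𝒪 K.T c₀)) = _
    rw [pr₁.commutes]
    exact hc₀
  -- the diamonds
  have hdiaK : ∀ i, ∃ w : K.T, pr₁ w = uT i ∧ pr₂ w = 1 := by
    intro i
    obtain ⟨φ, σ, a0, a1, u', hσ1, hu, hs, hp, -, hσ, hφσ⟩ := hdia i
    haveI := hl₁
    refine m59cp_diamond (pr₁ : K.T →+* H.T) (pr₂ : K.T →+* 𝒪) hres (K.r φ).trace (K.r φ).det
      (K.r σ).trace (K.r (φ * σ)).trace a0 a1 (uT i) u' hu ?_ ?_ ?_ ?_ ?_ ?_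
    · rw [hs]; exact (htr₁ φ).symm
    · rw [hp]; exact (hdet₁ φ).symm
    · rw [hσ]; exact (htr₁ σ).symm
    · rw [hφσ]; exact (htr₁ (φ * σ)).symm
    · show pr₂ (K.r σ).trace = 2
      rw [htr₂ σ, hσ1, Matrix.trace_one, Fintype.card_fin]
      norm_num
    · show pr₂ (K.r (φ * σ)).trace = pr₂ (K.r φ).trace
      rw [htr₂, htr₂, map_mul, hσ1, mul_one]
  choose u hu1 hu2 using hdiaK
  have hu_mem : ∀ i, u i - 1 ∈ maximalIdeal K.T := by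
    intro i
    rw [mem_maximalIdeal, mem_nonunits_iff]
    intro hunit
    have h1 := hunit.map pr₁
    rw [map_sub, hu1, map_one] at h1
    exact (mem_maximalIdeal _).1 (huT_mem i) h1
  have hπ0u : ∀ i, π0 (u i) = 1 := by
    intro i
    refine m59cp_ext H₀.r rW ?_ ?_
    · show πT (pr₁ (u i)) = _
      rw [hu1, hπTu i]
      rfl
    · show pr₂ (u i) = _
      rw [hu2 i]
      rfl
  exact m59cp_pairSys_core h2k td Finset.subset_union_left Finset.subset_union_right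
    (fun ℓ hℓ => Finset.mem_union.1 hℓ) hℓp hur a g gi hgi hφa t₀ e hcyc ht₀ κ rr dl
    (fun k => ((m59cp_prm (ch k) : Nat.Primes) : ℕ)) ch (fun _ => rfl) hch 𝔞 K hdetK hunK hcount
    H.r.toMonoidHom (m59cp_framed_span habs H.r H.lift) pr₁ g₁ hg₁ uT u hu_mem hu1 π0 hπ0surj
    hπ0u (jB.comp (m59cp_fst H₀.r rW : ↥(m59cp_T H₀.r rW) →+* H₀.T))
    (jB.comp (πT : H.T →+* H₀.T)) (fun t => rfl) R0 hR0

end

end Fermat.Agent.M59
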