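import Mathlib
import Fermat.Agent.M59.Top.Chain.PairX
import Fermat.Agent.M59.Top.Chain.Cot
import Fermat.Agent.M59.Rp.OrdGlue
import Fermat.Agent.M59.Rp.OrdTop
import Fermat.Agent.M59.S38g.CTop.FramesType
import Fermat.Agent.M59.C.PairFlat

/-!
M59 / [CHAIN-inst], [CI-PAIRTOP], auxiliary lemmas (helper25, deputy; ruling #48).  Prefix `m59ci_`.

* `m59ci_ord_of_pair` : ordinarity at `p` passes to a ring embedded in a product (framed form of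
  helper24's `m59rpk_ord_glue_two`; twin of his `m59cp_flat_of_pair`);
* `m59ci_dl_type` : the type away from `p` of a Hecke–Galois datum with harmless primes
  (= helper21's `m59ct_dl_isType` without the flat clause and without `p ∤ Nb`);
* `m59ci_lc_eq_prm`, `m59ci_nu_val` (the values of the coordinates `ν` at the adapted frames of
  `ρ_W`), `m59ci_dia_push` (the diamonds die in the base ring).
-/

set_option autoImplicit false
set_option linter.style.haveILetI false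
set_option linter.unusedSectionVars false
set_option linter.unusedVariables false

open Polynomial CuspForm IsLocalRing ExtCitation
open Fermat.Agent.S53 Fermat.Agent.S56 Fermat.Agent.TW Fermat.Agent.JT3

namespace Fermat.Agent.M59

noncomputable section

local notation "GQ" => (AlgebraicClosure ℚ ≃ₐ[ℚ] AlgebraicClosure ℚ)
local notation "Qbar" => AlgebraicClosure ℚ

/-! ### ordinarity in a ring embedded in a product -/

section ord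

variable {T A₁ A₂ : Type} [CommRing T] [IsLocalRing T] [CommRing A₁] [IsLocalRing A₁]
  [CommRing A₂] [IsLocalRing A₂]

/-- a framed representation whose push-forward is conjugate to an ordinary one has an ordinary
base change. -/
theorem m59ci_ord_bc (π : T →+* A₁) (hπ : IsLocalHom π) (r : FramedRep T) (r₁ : FramedRep A₁)
    (g₁ : (Matrix (Fin 2) (Fin 2) A₁)ˣ) (h₁ : ∀ σ, (r σ).map π = g₁.val * r₁ σ * g₁.inv)
    (p : ℕ) (ho : r₁.toGaloisRepAdic.IsOrdinaryAt p) :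
    (r.toGaloisRepAdic.baseChangeAlong π hπ).IsOrdinaryAt p := by
  obtain ⟨e₁⟩ := FramedRep.baseChangeAlong_isEquiv π hπ r
  obtain ⟨e₂⟩ := FramedRep.conj_isEquiv g₁ r₁
  have h3 : (r.map π hπ).toGaloisRepAdic.IsEquiv (r₁.conj g₁).toGaloisRepAdic := by
    rw [FramedRep.isEquiv_iff_conj]
    refine ⟨1, fun σ => ?_⟩
    rw [FramedRep.conj_apply, FramedRep.map_apply, Units.val_one, one_mul, mul_one]
    exact h₁ σ
  obtain ⟨e₃⟩ := h3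
  exact s56t_tr_isOrdinaryAt (e₂.trans (e₃.symm.trans e₁.symm)) ho

/-- **ordinarity at `p` passes to a ring embedded in a product.** -/
theorem m59ci_ord_of_pair (π₁ : T →+* A₁) (hπ₁ : IsLocalHom π₁) (π₂ : T →+* A₂)
    (hπ₂ : IsLocalHom π₂) (hinj : ∀ x : T, π₁ x = 0 → π₂ x = 0 → x = 0)
    (r : FramedRep T) (r₁ : FramedRep A₁) (r₂ : FramedRep A₂)
    (g₁ : (Matrix (Fin 2) (Fin 2) A₁)ˣ) (g₂ : (Matrix (Fin 2) (Fin 2) A₂)ˣ)
    (h₁ : ∀ σ, (r σ).map π₁ = g₁.val * r₁ σ * g₁.inv)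
    (h₂ : ∀ σ, (r σ).map π₂ = g₂.val * r₂ σ * g₂.inv)
    (p : ℕ) [Fact p.Prime] (hp2 : p ≠ 2) (hdet : r.toGaloisRepAdic.DetIsCyclotomic p)
    (ho₁ : r₁.toGaloisRepAdic.IsOrdinaryAt p) (ho₂ : r₂.toGaloisRepAdic.IsOrdinaryAt p) :
    r.toGaloisRepAdic.IsOrdinaryAt p :=
  m59rpk_ord_glue_two p hp2 r.toGaloisRepAdic hdet π₁ hπ₁ π₂ hπ₂ hinj
    (m59ci_ord_bc π₁ hπ₁ r r₁ g₁ h₁ p ho₁) (m59ci_ord_bc π₂ hπ₂ r r₂ g₂ h₂ p ho₂)

end ord

/-! ### the type away from `p` of a Hecke–Galois datum -/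

section datum

variable {𝒪 : Type} [CommRing 𝒪] [IsDomain 𝒪] [IsDiscreteValuationRing 𝒪]
  [IsAdicComplete (maximalIdeal 𝒪) 𝒪]
  {Nb : ℕ} [NeZero Nb] {S' : Finset ℕ}
  {θ : heckeAlgebra Nb 2 (↑S' : Set ℕ) →+* ResidueField 𝒪}
  {T : Type} [CommRing T] [IsLocalRing T] [IsNoetherianRing T]
  [IsAdicComplete (maximalIdeal T) T] [Algebra 𝒪 T] [IsLocalHom (algebraMap 𝒪 T)]
  [Module.Finite 𝒪 T] [Module.Free 𝒪 T]

/-- **the type away from `p` of a Hecke–Galois datum, with harmless primes** (helper21's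
`m59ct_dl_isType` without the flat clause, hence without `p ∤ Nb`). -/
theorem m59ci_dl_type [Finite (ResidueField 𝒪)] [CharZero 𝒪] {p : ℕ} [Fact p.Prime]
    (hp2 : p ≠ 2) (hp𝒪 : (p : 𝒪) ∈ maximalIdeal 𝒪)
    (hpS : p ∈ S') (hNS : ∀ q : ℕ, q.Prime → q ∣ Nb → q ∈ S')
    (H : HeckeGaloisRepDatum Nb (↑S' : Set ℕ) 𝒪 θ T)
    (ρbar : ResidualGaloisRep (ResidueField 𝒪)) (hcompat : twt_Compat θ ρbar)
    (Smin : Finset ℕ) (Th : Finset Nat.Primes) (Q : Finset ℕ) (hpSmin : p ∈ Smin)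
    (hcover : ∀ q : ℕ, q.Prime → q ∣ Nb →
      q ∈ Smin ∪ Th.image (fun ℓ : Nat.Primes => (ℓ : ℕ)) ∪ Q ∨
        (¬ q ^ 2 ∣ Nb ∧ ρbar.IsUnramifiedAt q ∧ m59m_IsHarmless p ρbar q))
    (hSmin : ∀ q ∈ Smin, q.Prime → q ≠ p → q ∣ Nb ∧ ¬ q ^ 2 ∣ Nb) :
    H.ρ.DetIsCyclotomic p ∧
    (∀ q : ℕ, q.Prime → q ∉ Smin ∪ Th.image (fun ℓ : Nat.Primes => (ℓ : ℕ)) ∪ Q →
      H.ρ.IsUnramifiedAt q) ∧
    (∀ q ∈ Smin, q.Prime → q ≠ p → H.ρ.IsUnipotentOnInertiaAt q) := by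
  have hp : p.Prime := Fact.out
  refine ⟨twt_dl_det hp hp𝒪 hNS H, ?_, ?_⟩
  · intro q hq hqU
    have hqp : q ≠ p := by
      rintro rfl
      exact hqU (Finset.mem_union_left _ (Finset.mem_union_left _ hpSmin))
    by_cases hqN : q ∣ Nb
    · rcases hcover q hq hqN with h | ⟨hq2, hunr, hharm⟩
      · exact absurd h hqU
      · exact m59ct_harmless p hp2 T (twt_dl_p_mem hp𝒪) H.ρ q hq hqp (twt_dl_det hp hp𝒪 hNS H)
          (twt_re_datum_unram H ρbar hcompat q hunr) (m59ct_harmless_datum H ρbar hcompat hharm)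
          (twt_dl_unip hp hp𝒪 hpS hNS H q hq hqp hqN hq2)
    · exact twt_dl_unram hp hp𝒪 hpS hNS H q hq hqN hqp
  · intro q hqSmin hq hqp
    obtain ⟨h1, h2⟩ := hSmin q hqSmin hq hqp
    exact twt_dl_unip hp hp𝒪 hpS hNS H q hq hqp h1 h2

end datum

/-! ### the enumeration, the values, the diamonds -/

/-- the two ways of writing the prime of a chain index. -/
theorem m59ci_lc_eq_prm {T8 Tn : Finset Nat.Primes} (c : ↥T8 ⊕ ↥Tn) :
    m59ci_lc (fun ℓ : ↥T8 => ((ℓ : Nat.Primes) : ℕ)) (fun ℓ : ↥Tn => ((ℓ : Nat.Primes) : ℕ)) c =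
      ((m59cp_prm c : Nat.Primes) : ℕ) := by
  rcases c with ℓ | ℓ <;> rfl

section values

variable {𝒪 : Type} [CommRing 𝒪]

/-- conjugating a scalar matrix. -/
theorem m59ci_conj_scalar (g gi : Matrix (Fin 2) (Fin 2) 𝒪) (hgig : gi * g = 1) (a : 𝒪)
    (M : Matrix (Fin 2) (Fin 2) 𝒪) :
    gi * (M - Matrix.scalar (Fin 2) a) * g = gi * M * g - Matrix.scalar (Fin 2) a := by
  have h3 : (Matrix.scalar (Fin 2) a : Matrix (Fin 2) (Fin 2) 𝒪) =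
      a • (1 : Matrix (Fin 2) (Fin 2) 𝒪) := by
    ext i j
    simp [Matrix.scalar_apply, Matrix.diagonal_apply, Matrix.one_apply]
  rw [Matrix.mul_sub, Matrix.sub_mul, h3, Matrix.mul_smul, Matrix.mul_one, Matrix.smul_mul, hgig]

/-- **the values of the coordinates `ν` at the adapted frames of `ρ_W`.** -/
theorem m59ci_nu_val {T8 Tn : Finset Nat.Primes} (gσ gφ : Nat.Primes → GQ)
    (ε : Nat.Primes → ℤ) (g gi : Nat.Primes → Matrix (Fin 2) (Fin 2) 𝒪)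
    (e : Nat.Primes → Fin 2 → 𝒪) (R : GQ → Matrix (Fin 2) (Fin 2) 𝒪)
    (hframe : ∀ ℓ ∈ T8 ∪ Tn, ε ℓ * ε ℓ = 1 ∧ gi ℓ * g ℓ = 1 ∧ g ℓ * gi ℓ = 1 ∧
      (gi ℓ * R (gφ ℓ) * g ℓ) 0 0 = ((ε ℓ : ℤ) : 𝒪) * (((ℓ : Nat.Primes) : ℕ) : 𝒪) ∧
      (gi ℓ * R (gφ ℓ) * g ℓ) 1 0 = 0 ∧
      (gi ℓ * R (gφ ℓ) * g ℓ) 1 1 = ((ε ℓ : ℤ) : 𝒪) ∧
      (gi ℓ * (R (gσ ℓ) - 1) * g ℓ) 0 0 = 0 ∧
      (gi ℓ * (R (gσ ℓ) - 1) * g ℓ) 1 0 = 0 ∧
      (gi ℓ * (R (gσ ℓ) - 1) * g ℓ) 1 1 = 0)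
    (cc : (↥T8 × Fin 6) ⊕ ↥Tn) :
    m59cp_nu (fun ℓ : ↥T8 => ((ε ℓ : ℤ) : 𝒪))
      (fun ℓ : ↥Tn => ((ε ℓ : ℤ) : 𝒪) * ((((ℓ : Nat.Primes) : ℕ) : 𝒪) + 1))
      (m59cp_zz gσ gφ (fun ℓ => ((ε ℓ : ℤ) : 𝒪)) g gi
        (fun ℓ => ((ε ℓ : ℤ) : 𝒪) * ((((ℓ : Nat.Primes) : ℕ) : 𝒪) + 1)) e R) cc =
    m59ci_xval (fun ℓ : ↥T8 => ((ℓ : Nat.Primes) : ℕ))
      (fun ℓ : ↥Tn => ((ℓ : Nat.Primes) : ℕ)) (fun ℓ : ↥T8 => ε ℓ) (fun ℓ : ↥Tn => ε ℓ) cc := by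
  have hmapid : ∀ M : Matrix (Fin 2) (Fin 2) 𝒪, M.map (algebraMap 𝒪 𝒪) = M := fun M => by
    ext i j; rfl
  set a : Nat.Primes → 𝒪 := fun ℓ => ((ε ℓ : ℤ) : 𝒪) with ha
  set t₀ : Nat.Primes → 𝒪 := fun ℓ => ((ε ℓ : ℤ) : 𝒪) * ((((ℓ : Nat.Primes) : ℕ) : 𝒪) + 1)
    with ht₀
  set z : m59ci_Iz ↥T8 ↥Tn → 𝒪 := m59cp_zz gσ gφ a g gi t₀ e R with hz
  rcases cc with ⟨t, i⟩ | l
  · obtain ⟨-, hgig, -, h00, h10, h11, s00, s10, s11⟩ := hframe t.1 (Finset.mem_union_left _ t.2)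
    have hφ : ∀ i j : Fin 2, z (Sum.inl (t, 1, i, j)) =
        (gi t.1 * R (gφ t.1) * g t.1) i j -
          (Matrix.scalar (Fin 2) (a t.1) : Matrix (Fin 2) (Fin 2) 𝒪) i j := by
      intro i j
      show ((gi t.1).map (algebraMap 𝒪 𝒪) *
        (R (gφ t.1) - Matrix.scalar (Fin 2) (algebraMap 𝒪 𝒪 (a t.1))) *
        (g t.1).map (algebraMap 𝒪 𝒪)) i j = _
      rw [hmapid, hmapid, Algebra.algebraMap_self_apply, m59ci_conj_scalar _ _ hgig]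
      rfl
    have hσ : ∀ i j : Fin 2, z (Sum.inl (t, 0, i, j)) =
        (gi t.1 * (R (gσ t.1) - 1) * g t.1) i j := by
      intro i j
      show ((gi t.1).map (algebraMap 𝒪 𝒪) * (R (gσ t.1) - 1) *
        (g t.1).map (algebraMap 𝒪 𝒪)) i j = _
      rw [hmapid, hmapid]
    have hs : ∀ i j : Fin 2, (Matrix.scalar (Fin 2) (a t.1) : Matrix (Fin 2) (Fin 2) 𝒪) i j =
        if i = j then a t.1 else 0 := by
      intro i j
      rw [Matrix.scalar_apply, Matrix.diagonal_apply]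
    have hat : a t.1 = ((ε t.1 : ℤ) : 𝒪) := rfl
    have hP00 : m59cp_Phi (fun ℓ : ↥T8 => a ℓ) z t 0 0 =
        ((ε t.1 : ℤ) : 𝒪) * (((t.1 : Nat.Primes) : ℕ) : 𝒪) := by
      unfold m59cp_Phi
      rw [hφ, h00, hs, if_pos rfl, if_pos rfl, Algebra.algebraMap_self_apply]
      ring
    have hP10 : m59cp_Phi (fun ℓ : ↥T8 => a ℓ) z t 1 0 = 0 := by
      unfold m59cp_Phi
      rw [hφ, h10, hs, if_neg (by decide), if_neg (by decide)]
      ring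
    have hP11 : m59cp_Phi (fun ℓ : ↥T8 => a ℓ) z t 1 1 = ((ε t.1 : ℤ) : 𝒪) := by
      unfold m59cp_Phi
      rw [hφ, h11, hs, if_pos rfl, if_pos rfl, Algebra.algebraMap_self_apply, hat]
      ring
    have hz00 : z (Sum.inl (t, 0, 0, 0)) = 0 := by rw [hσ, s00]
    have hz10 : z (Sum.inl (t, 0, 1, 0)) = 0 := by rw [hσ, s10]
    have hz11 : z (Sum.inl (t, 0, 1, 1)) = 0 := by rw [hσ, s11]
    change (![m59cp_Phi (fun ℓ : ↥T8 => a ℓ) z t 0 0, m59cp_Phi (fun ℓ : ↥T8 => a ℓ) z t 1 0,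
      m59cp_Phi (fun ℓ : ↥T8 => a ℓ) z t 1 1, z (Sum.inl (t, 0, 0, 0)), z (Sum.inl (t, 0, 1, 0)),
      z (Sum.inl (t, 0, 1, 1))] : Fin 6 → 𝒪) i =
      (![((ε t.1 : ℤ) : 𝒪) * (((t.1 : Nat.Primes) : ℕ) : 𝒪), 0, ((ε t.1 : ℤ) : 𝒪), 0, 0, 0] :
        Fin 6 → 𝒪) i
    rw [hP00, hP10, hP11, hz00, hz10, hz11]
  · obtain ⟨-, -, hggi, h00, -, h11, -, -, -⟩ := hframe l.1 (Finset.mem_union_right _ l.2)
    have htr : Matrix.trace (R (gφ l.1)) = t₀ l.1 := by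
      have h1 : Matrix.trace (gi l.1 * R (gφ l.1) * g l.1) = Matrix.trace (R (gφ l.1)) := by
        rw [Matrix.trace_mul_comm, ← Matrix.mul_assoc, hggi, Matrix.one_mul]
      rw [← h1, Matrix.trace_fin_two, h00, h11, ht₀]
      ring
    have hzl : z (Sum.inr (l, 0)) = Matrix.trace (R (gφ l.1)) - algebraMap 𝒪 𝒪 (t₀ l.1) := rfl
    change algebraMap 𝒪 𝒪 (t₀ l.1) + z (Sum.inr (l, 0)) = t₀ l.1
    rw [hzl, htr]
    ring

end values

/-- **the diamonds die in the base ring**: if `π` is compatible with the traces of two families,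
the second being trivial at `σ`, then the Galois description of `u` forces `π u = 1`. -/
theorem m59ci_dia_push {T' T0 : Type} [CommRing T'] [CommRing T0] (π : T' →+* T0)
    (tr' : GQ → T') (tr0 : GQ → T0) (hπ : ∀ σ, π (tr' σ) = tr0 σ)
    (φ σ : GQ) (a0 a1 u u' : T') (hua : IsUnit (a0 - a1))
    (h1 : a0 + a1 = tr' φ) (h2 : u + u' = tr' σ) (h3 : a0 * u + a1 * u' = tr' (φ * σ))
    (hσ : tr0 σ = 2) (hφσ : tr0 (φ * σ) = tr0 φ) : π u = 1 := by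
  have e1 : π a0 + π a1 = tr0 φ := by rw [← map_add, h1, hπ]
  have e2 : π u + π u' = 2 := by rw [← map_add, h2, hπ, hσ]
  have e3 : π a0 * π u + π a1 * π u' = tr0 φ := by
    rw [← map_mul, ← map_mul, ← map_add, h3, hπ, hφσ]
  have hu : IsUnit (π a0 - π a1) := by
    have := hua.map π
    rwa [map_sub] at this
  have e4 : (π a0 - π a1) * (π u - 1) = 0 := by
    have : π u' = 2 - π u := by rw [← e2]; ring
    rw [this] at e3
    rw [← e1] at e3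
    linear_combination e3
  have := (hu.mul_right_eq_zero).1 e4
  exact sub_eq_zero.1 this

end

end Fermat.Agent.M59
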