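import Mathlib
import Fermat.Agent.M59.Top.Chain.PairAuxTop
import Fermat.Agent.M59.Act.Trace

/-!
M59 / [CHAIN-inst], **[CI-PAIRTOP] CLOSED** (helper25, deputy; ruling #48).  Prefix `m59ci_`.

`m59ci_pairTop : m59ci_PairTop_stmt` : the base ring `T₀` = the pair ring `m59cp_T` of a framing
`r0` of the base datum `B.H.ρ` and of the frame `rW` of `ρ_W`, and for every Taylor–Wiles set the pair
side `m59ci_PairSys` over it, from `m59ci_pairSysX` (helper21's [CI-PAIR] with the predicate `PX`):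

* base pair `H₀ := twc_hp_ofFramed B.H …`, level pair `H := twc_hp_ofFramed L.H' …`, `πT := L.π0`
  (trace compatible: `twc_fr_base_isEquiv`);
* the types of the level datum away from `p`: `m59ci_dl_type` (S34 unipotent inertia, harmless
  primes unramified), at `p`: flat (`twt_dl_flat`, S32) in mode `good`, ordinary
  (`m59rpk_ord_level`, S33) in mode `¬ good`;
* the gluing hypotheses: `hPp` by helper24's `m59cp_flat_of_pair`, `hPX` by `m59ci_ord_of_pair`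
  (helper24's `m59rpk_ord_glue_two`);
* the diamonds: `m59ci_dia_push` (the base datum and `ρ_W` are unramified at the Taylor–Wiles
  primes);
* the values of `β` at the point of `W`: `m59ci_nu_val`.
-/

set_option autoImplicit false
set_option linter.style.haveILetI false
set_option linter.unusedSectionVars false
set_option linter.unusedVariables false
set_option maxHeartbeats 1600000

open Polynomial CuspForm IsLocalRing ExtCitation
open Fermat.Agent.S53 Fermat.Agent.S56 Fermat.Agent.TW Fermat.Agent.JT3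

namespace Fermat.Agent.M59

noncomputable section

local notation "GQ" => (AlgebraicClosure ℚ ≃ₐ[ℚ] AlgebraicClosure ℚ)
local notation "Qbar" => AlgebraicClosure ℚ

attribute [local instance] S53.dualNumberAlgebra

/-- a framed representation unramified at `t` is trivial on the inertia groups at `t`. -/
theorem m59ci_unram_apply {A : Type} [CommRing A] [IsLocalRing A] (r : FramedRep A) {t : ℕ}
    (h : r.toGaloisRepAdic.IsUnramifiedAt t) {σ : GQ} (hσ : m59ci_IsInert σ t) : r σ = 1 := by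
  obtain ⟨P, hP, hσP⟩ := hσ
  have h1 := h P hP σ hσP
  have h2 : Matrix.toLin' (r σ) = Matrix.toLin' (1 : Matrix (Fin 2) (Fin 2) A) := by
    rw [Matrix.toLin'_one]; exact h1
  exact Matrix.toLin'.injective h2

/-- **[CI-PAIRTOP].** -/
theorem m59ci_pairTop : m59ci_PairTop_stmt := by
  classical
  intro p hpF hp2 𝒪 _ _ _ _ _ _ hp𝒪 N _ hsq S hpS hNS rW θ hcompat hyp hdetW hunipW Smin hpSmin
    hSminN hmin T8 Tn hdisj hTh hT8 hunr hharm good hgood hbad td hgen ε g gi e hframe hscal hcyc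
    m ch hch B rr c
  have hpp : p.Prime := hpF.out
  haveI : CharP (ResidueField 𝒪) p := s56a_charP p hp𝒪
  set rb : FramedResidual (ResidueField 𝒪) := rW.residual with hrb
  -- the frames: values
  set a : Nat.Primes → 𝒪 := fun ℓ => ((ε ℓ : ℤ) : 𝒪) with hadef
  set t₀ : Nat.Primes → 𝒪 := fun ℓ => ((ε ℓ : ℤ) : 𝒪) * ((((ℓ : Nat.Primes) : ℕ) : 𝒪) + 1)
    with ht₀def
  have ht₀ : ∀ ℓ ∈ Tn, residue 𝒪 (t₀ ℓ) = Matrix.trace (rb (td.gφ ℓ)) := by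
    intro ℓ hℓ
    obtain ⟨-, hgig, hggi, h00, -, h11, -, -, -⟩ := hframe ℓ (Finset.mem_union_right _ hℓ)
    have htr : Matrix.trace (rW (td.gφ ℓ)) = t₀ ℓ := by
      have h1 : Matrix.trace (gi ℓ * rW (td.gφ ℓ) * g ℓ) = Matrix.trace (rW (td.gφ ℓ)) := by
        rw [Matrix.trace_mul_comm, ← Matrix.mul_assoc, hggi, Matrix.one_mul]
      rw [← h1, Matrix.trace_fin_two, h00, h11, ht₀def]
      ring
    rw [hrb, FramedRep.residual_apply, ← htr]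
    simp only [Matrix.trace, Matrix.diag_apply, Matrix.map_apply, map_sum]
  have hW : ∀ σ, (rW σ).map (residue 𝒪) = rb σ := fun σ => rfl
  have hThp : ∀ ℓ ∈ T8 ∪ Tn, ((ℓ : Nat.Primes) : ℕ) ≠ p := fun ℓ hℓ => (hTh ℓ hℓ).2.2.1
  have hur : ∀ ℓ ∈ T8 ∪ Tn, rb.toResidualGaloisRep.IsUnramifiedAt ((ℓ : Nat.Primes) : ℕ) := by
    intro ℓ hℓ
    by_contra hcon
    exact (hTh ℓ hℓ).2.1 ((hmin ℓ ℓ.2 (hThp ℓ hℓ)).2 hcon)
  -- the base pair
  obtain ⟨r0, hr0e, hr0l⟩ := twc_hp_exists_framed B.H hNS rb hcompat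
  set H₀ : twc_HPair 𝒪 rb := twc_hp_ofFramed B.H hNS rb r0 hr0e hr0l with hH₀
  haveI hfinH₀ : Module.Finite 𝒪 H₀.T := (inferInstance : Module.Finite 𝒪 B.T)
  have hdH₀ : H₀.r.toGaloisRepAdic.DetIsCyclotomic p := by
    obtain ⟨e0⟩ := hr0e
    exact s56t_tr_detIsCyclotomic e0 (twt_dl_det hpp hp𝒪 hNS B.H)
  have htr0 : ∀ σ, B.H.ρ.trace σ = (r0 σ).trace := fun σ => m59ac_trace_framed _ _ hr0e σ
  -- [CI-PAIR]
  obtain ⟨β, hβ, hlev⟩ := m59ci_pairSysX p hp2 𝒪 hp𝒪 rb hyp.habs rW hW hdetW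
    (fun r => good → r.toGaloisRepAdic.IsFlatAt p)
    (fun H'' => ¬ good → H''.r.toGaloisRepAdic.IsOrdinaryAt p)
    (insert p Smin) T8 Tn td hThp hur (fun ℓ hℓ => hunipW ℓ ℓ.2 (hThp ℓ hℓ))
    (fun q _ hq hqp => hunipW q hq hqp)
    a g gi t₀ e (fun ℓ hℓ => (hframe ℓ (Finset.mem_union_left _ hℓ)).2.1) hscal ht₀ hcyc H₀ hdH₀
  haveI hfinT0 : Module.Finite 𝒪 ↥(m59cp_T H₀.r rW) :=
    m59ci_adj_finite (fun σ : GQ => (H₀.r σ).trace) (fun σ : GQ => (rW σ).trace)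
  refine ⟨↥(m59cp_T H₀.r rW), inferInstance, inferInstance, hfinT0, m59cp_snd H₀.r rW,
    m59cp_fst H₀.r rW, β, fun cc => ?_, fun σ => ⟨m59cp_t H₀.r rW σ, ?_, ?_⟩, ?_⟩
  · rw [hβ cc]
    exact m59ci_nu_val td.gσ td.gφ ε g gi e (fun σ => rW σ) hframe cc
  · rw [htr0 σ]
    rfl
  · rfl
  -- the Taylor–Wiles sets
  intro qv hinj hqv1 hqv2 hcot _ L u hu1 hgal
  set Q : Finset ℕ := Finset.univ.image qv with hQdef
  have hqvQ : ∀ i, qv i ∈ Q := fun i => Finset.mem_image.2 ⟨i, Finset.mem_univ _, rfl⟩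
  have hQ : ∀ t ∈ Q, t.Prime ∧ t ∉ S ∧ t % p = 1 := by
    intro t ht
    obtain ⟨i, -, rfl⟩ := Finset.mem_image.1 ht
    exact hqv1 i
  have hQp : ∀ t ∈ Q, t.Prime := fun t ht => (hQ t ht).1
  have hE : ∀ ℓ ∈ (∅ : Finset ℕ), ℓ.Prime := fun ℓ hℓ => absurd hℓ (Finset.notMem_empty ℓ)
  have hNS' : ∀ ℓ : ℕ, ℓ.Prime → ℓ ∣ twe_Nbal N Q ∅ → ℓ ∈ S ∪ Q :=
    twc_ft_hNS (Th := ∅) hNS hQp (fun ℓ hℓ => absurd hℓ (Finset.notMem_empty ℓ))
  have hpS' : p ∈ S ∪ Q := Finset.mem_union_left _ hpS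
  have hpQ : p ∉ Q := fun h => (hQ p h).2.1 hpS
  have hcompat' : twt_Compat L.θ' rb.toResidualGaloisRep := twc_fr_compat_level hcompat L
  obtain ⟨r', hr'e, hr'l⟩ := twc_hp_exists_framed L.H' hNS' rb hcompat'
  set H : twc_HPair 𝒪 rb := twc_hp_ofFramed L.H' hNS' rb r' hr'e hr'l with hH
  haveI hfinH : Module.Finite 𝒪 H.T := (inferInstance : Module.Finite 𝒪 L.T')
  obtain ⟨e'⟩ := id hr'e
  have htr' : ∀ σ, L.H'.ρ.trace σ = (r' σ).trace := fun σ => m59ac_trace_framed _ _ hr'e σ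
  have hloc : IsLocalHom (L.π0 : L.T' →+* B.T) := twc_fr_π0_isLocalHom hNS L
  have hπtr : ∀ σ, L.π0 (L.H'.ρ.trace σ) = B.H.ρ.trace σ := by
    intro σ
    have h1 := twc_fr_base_isEquiv hNS L hloc r' hr'e
    rw [htr' σ, m59ac_trace_framed _ _ h1 σ, FramedRep.map_apply]
    exact (m59cp_map_trace (L.π0 : L.T' →+* B.T) (r' σ)).symm
  have hπT : ∀ σ, (L.π0 : H.T →ₐ[𝒪] H₀.T) (H.r σ).trace = (H₀.r σ).trace := by
    intro σ
    have h1 := hπtr σ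
    rw [htr' σ, htr0 σ] at h1
    exact h1
  -- the arithmetic of the balanced level
  have hdvdN : ∀ q : ℕ, q.Prime → q ∣ twe_Nbal N Q ∅ → q ∉ Q → q ∣ N := by
    intro q hq hqN hqQ
    rcases (twc_ft_prime_dvd_Nbal hQp hE hq).1 hqN with h | h | h
    · exact h
    · exact absurd h hqQ
    · exact absurd h (Finset.notMem_empty q)
  have hNQ : ∀ q : ℕ, q.Prime → q ∣ N → q ∉ Q := fun q hq hqN h => (hQ q h).2.1 (hNS q hq hqN)
  have hnsq : ∀ q : ℕ, q.Prime → q ∣ N → ¬ q ^ 2 ∣ twe_Nbal N Q ∅ := fun q hq hqN =>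
    twc_ft_not_sq_dvd hsq hQp hE hq (hNQ q hq hqN) (Finset.notMem_empty q)
  -- the type of the level datum away from `p`
  obtain ⟨hdL, hunrL, hunipL⟩ := m59ci_dl_type hp2 hp𝒪 hpS' hNS' L.H' rb.toResidualGaloisRep
    hcompat' (insert p Smin) (T8 ∪ Tn) Q (Finset.mem_insert_self _ _)
    (fun q hq hqN => by
      by_cases hqQ : q ∈ Q
      · exact Or.inl (Finset.mem_union_right _ hqQ)
      have hqN' := hdvdN q hq hqN hqQ
      by_cases hqp : q = p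
      · exact Or.inl (Finset.mem_union_left _ (Finset.mem_union_left _
          (hqp ▸ Finset.mem_insert_self _ _)))
      by_cases hqS : q ∈ Smin
      · exact Or.inl (Finset.mem_union_left _ (Finset.mem_union_left _
          (Finset.mem_insert_of_mem hqS)))
      by_cases hqTh : q ∈ (T8 ∪ Tn).image (fun ℓ : Nat.Primes => (ℓ : ℕ))
      · exact Or.inl (Finset.mem_union_left _ (Finset.mem_union_right _ hqTh))
      refine Or.inr ⟨hnsq q hq hqN', ?_, hharm q hq hqN' hqp hqS hqTh⟩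
      by_contra hcon
      exact hqS ((hmin q hq hqp).2 hcon))
    (fun q hqS hq hqp => by
      rcases Finset.mem_insert.1 hqS with h | h
      · exact absurd h hqp
      · exact ⟨dvd_trans (hSminN q h).2 (twc_fr_N_dvd_Nbal N Q ∅), hnsq q hq (hSminN q h).2⟩)
  have hdH : H.r.toGaloisRepAdic.DetIsCyclotomic p := s56t_tr_detIsCyclotomic e' hdL
  have hunH : ∀ ℓ ∈ T8 ∪ Tn,
      H.r.toGaloisRepAdic.IsUnipotentOnInertiaAt ((ℓ : Nat.Primes) : ℕ) := fun ℓ hℓ =>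
    s56t_tr_isUnipotentOnInertiaAt e' (twt_dl_unip hpp hp𝒪 hpS' hNS' L.H' ℓ ℓ.2 (hThp ℓ hℓ)
      (dvd_trans (hTh ℓ hℓ).1 (twc_fr_N_dvd_Nbal N Q ∅)) (hnsq ℓ ℓ.2 (hTh ℓ hℓ).1))
  have hunipH : ∀ q ∈ insert p Smin, q.Prime → q ≠ p →
      H.r.toGaloisRepAdic.IsUnipotentOnInertiaAt q := fun q hqS hq hqp =>
    s56t_tr_isUnipotentOnInertiaAt e' (hunipL q hqS hq hqp)
  have hunrH : ∀ q : ℕ, q.Prime →
      q ∉ insert p Smin ∪ (T8 ∪ Tn).image (fun ℓ : Nat.Primes => (ℓ : ℕ)) ∪ Q →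
      H.r.toGaloisRepAdic.IsUnramifiedAt q := fun q hq hqU =>
    s56t_tr_isUnramifiedAt e' (hunrL q hq hqU)
  have hunrW : ∀ q : ℕ, q.Prime →
      q ∉ insert p Smin ∪ (T8 ∪ Tn).image (fun ℓ : Nat.Primes => (ℓ : ℕ)) ∪ Q →
      rW.toGaloisRepAdic.IsUnramifiedAt q := by
    intro q hq hqU
    refine hunr q hq (fun h => hqU ?_) (fun h => hqU ?_) (fun h => hqU ?_)
    · exact Finset.mem_union_left _ (Finset.mem_union_left _ (h ▸ Finset.mem_insert_self _ _))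
    · exact Finset.mem_union_left _ (Finset.mem_union_left _ (Finset.mem_insert_of_mem h))
    · exact Finset.mem_union_left _ (Finset.mem_union_right _ h)
  -- the conditions at `p`
  have hPp : p ∈ insert p Smin →
      ∀ (H'' : twc_HPair 𝒪 rb) (pr₁ : H''.T →ₐ[𝒪] H.T) (pr₂ : H''.T →ₐ[𝒪] 𝒪),
        Module.Finite 𝒪 H''.T → (∀ x : H''.T, pr₁ x = 0 → pr₂ x = 0 → x = 0) →
        ∀ (g₁ : (Matrix (Fin 2) (Fin 2) H.T)ˣ),
          (∀ σ, (H''.r σ).map pr₁ = g₁.val * H.r σ * g₁.inv) →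
        ∀ (g₂ : (Matrix (Fin 2) (Fin 2) 𝒪)ˣ),
          (∀ σ, (H''.r σ).map pr₂ = g₂.val * rW σ * g₂.inv) →
        ∀ φ : H''.T →ₐ[𝒪] DualNumber (ResidueField 𝒪), Function.Surjective φ →
          (good → (twc_frame H''.r φ).toGaloisRepAdic.IsFlatAt p) := by
    intro _ H'' pr₁ pr₂ hfin hinj g₁ hg₁ g₂ hg₂ φ hφ hg
    haveI := hfin
    have hpNbal : ¬ p ∣ twe_Nbal N Q ∅ := fun h => (hgood hg).1 (hdvdN p hpp h hpQ)
    have hf₁ : H.r.toGaloisRepAdic.IsFlatAt p :=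
      s56t_tr_isFlatAt e' (twt_dl_flat hpp hp2 hp𝒪 hpNbal hpS' hNS' L.H')
    exact twc_frame_flat H''.r φ hφ
      (m59cp_flat_of_pair pr₁ pr₂ hinj H''.r H.r rW g₁ g₂ hg₁ hg₂ p hp𝒪 hf₁ (hgood hg).2)
  have hPX : ∀ (H'' : twc_HPair 𝒪 rb) (pr₁ : H''.T →ₐ[𝒪] H.T) (pr₂ : H''.T →ₐ[𝒪] 𝒪),
      Module.Finite 𝒪 H''.T → (∀ x : H''.T, pr₁ x = 0 → pr₂ x = 0 → x = 0) →
      ∀ (g₁ : (Matrix (Fin 2) (Fin 2) H.T)ˣ),
        (∀ σ, (H''.r σ).map pr₁ = g₁.val * H.r σ * g₁.inv) →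
      ∀ (g₂ : (Matrix (Fin 2) (Fin 2) 𝒪)ˣ),
        (∀ σ, (H''.r σ).map pr₂ = g₂.val * rW σ * g₂.inv) →
        (¬ good → H''.r.toGaloisRepAdic.IsOrdinaryAt p) := by
    intro H'' pr₁ pr₂ hfin hinj g₁ hg₁ g₂ hg₂ hng
    haveI := hfin
    haveI hidloc : IsLocalHom (algebraMap 𝒪 𝒪) := ⟨fun a ha => ha⟩
    have hl₁ : IsLocalHom (pr₁ : H''.T →+* H.T) := m59cp_isLocalHom_of_finite pr₁
    have hl₂ : IsLocalHom (pr₂ : H''.T →+* 𝒪) := m59cp_isLocalHom_of_finite pr₂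
    have hdet'' : H''.r.toGaloisRepAdic.DetIsCyclotomic p :=
      m59cp_detCyc_of_pair (pr₁ : H''.T →+* H.T) (pr₂ : H''.T →+* 𝒪) H''.r H.r rW g₁ g₂ p hl₁ hl₂
        hinj hg₁ hg₂ hdH hdetW
    have hordres : (GaloisRepAdic.ofResidualGaloisRep rb.toResidualGaloisRep).IsOrdinaryAt p :=
      m59rpk_ord_resEquiv (FramedRep.residual_isEquiv rW)
        (m59rpk_ord_residual rW.toGaloisRepAdic (hbad hng).2)
    have hpsq : ¬ p ^ 2 ∣ N := fun h => by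
      have h1 : p * p ∣ N := by rwa [pow_two] at h
      exact hpp.not_isUnit (hsq p h1)
    have hoH : H.r.toGaloisRepAdic.IsOrdinaryAt p :=
      s56t_tr_isOrdinaryAt e' (m59rpk_ord_level hpp hp2 hp𝒪 ⟨(hbad hng).1, hpsq⟩ hNS
        (fun t ht => ⟨(hQ t ht).1, (hQ t ht).2.2⟩) L rb.toResidualGaloisRep hcompat hordres)
    exact m59ci_ord_of_pair (pr₁ : H''.T →+* H.T) hl₁ (pr₂ : H''.T →+* 𝒪) hl₂ hinj H''.r H.r rW
      g₁ g₂ hg₁ hg₂ p hp2 hdet'' hoH (hbad hng).2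
  -- the cotangent bound
  have hcot' : ∀ (H'' : twc_HPair 𝒪 rb),
      m59c_IsType p (fun r => good → r.toGaloisRepAdic.IsFlatAt p) (insert p Smin) (T8 ∪ Tn) Q
        H'' → (¬ good → H''.r.toGaloisRepAdic.IsOrdinaryAt p) →
      ∀ (ι : Type) (z : ι → maximalIdeal H''.T),
        (∀ φ : H''.T →ₐ[𝒪] DualNumber (ResidueField 𝒪), (∀ i, φ (z i : H''.T) = 0) →
          m59c_LocCob (T8 ∪ Tn) H'' φ) →
        Module.finrank (ResidueField H''.T) (CotangentSpace H''.T ⧸ twc_relW 𝒪 z) ≤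
          Fintype.card (Fin c) := by
    intro H'' hT hX ι z hz
    rw [Fintype.card_fin]
    exact hcot H'' hT hX ι z hz
  -- the diamonds
  set uT : Fin rr → H.T := fun i => u (qv i) (hqvQ i) with huT
  have hunrB : ∀ t ∈ Q, B.H.ρ.IsUnramifiedAt t := fun t ht =>
    twt_dl_unram hpp hp𝒪 hpS hNS B.H t (hQ t ht).1
      (fun h => (hQ t ht).2.1 (hNS t (hQ t ht).1 h)) (fun h => hpQ (h ▸ ht))
  have hr0unr : ∀ t ∈ Q, r0.toGaloisRepAdic.IsUnramifiedAt t := fun t ht => by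
    obtain ⟨e0⟩ := hr0e
    exact s56t_tr_isUnramifiedAt e0 (hunrB t ht)
  have hWunrQ : ∀ t ∈ Q, rW.toGaloisRepAdic.IsUnramifiedAt t := by
    intro t ht
    have htS : t ∉ S := (hQ t ht).2.1
    refine hunr t (hQ t ht).1 (fun h => hpQ (h ▸ ht)) (fun h => ?_) (fun h => ?_)
    · exact htS (hNS t (hSminN t h).1 (hSminN t h).2)
    · obtain ⟨ℓ, hℓ, rfl⟩ := Finset.mem_image.1 h
      exact htS (hNS ℓ ℓ.2 (hTh ℓ hℓ).1)
  have hdia : ∀ i, ∃ (φ σ : GQ) (a0 a1 u' : H.T), rW σ = 1 ∧ IsUnit (a0 - a1) ∧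
      a0 + a1 = (H.r φ).trace ∧ a0 * a1 = (H.r φ).det ∧ uT i * u' = 1 ∧
      uT i + u' = (H.r σ).trace ∧ a0 * uT i + a1 * u' = (H.r (φ * σ)).trace := by
    intro i
    obtain ⟨φ, σ, a0, a1, u', -, hσI, hua, h1, h2, h3, h4, h5⟩ := hgal (qv i) (hqvQ i)
    refine ⟨φ, σ, a0, a1, u', m59ci_unram_apply rW (hWunrQ _ (hqvQ i)) hσI, hua, ?_, ?_, h3, ?_,
      ?_⟩
    · exact h1.trans (htr' φ)
    · exact h2.trans (m59ac_det_framed _ _ hr'e φ)
    · exact h4.trans (htr' σ)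
    · exact h5.trans (htr' (φ * σ))
  have hπTu : ∀ i, (L.π0 : H.T →ₐ[𝒪] H₀.T) (uT i) = 1 := by
    intro i
    obtain ⟨φ, σ, a0, a1, u', -, hσI, hua, h1, -, -, h4, h5⟩ := hgal (qv i) (hqvQ i)
    have hσ1 : r0 σ = 1 := m59ci_unram_apply r0 (hr0unr _ (hqvQ i)) hσI
    refine m59ci_dia_push (L.π0 : L.T' →+* B.T) (fun τ => L.H'.ρ.trace τ)
      (fun τ => B.H.ρ.trace τ) hπtr φ σ a0 a1 (u (qv i) (hqvQ i)) u' hua h1 h4 h5 ?_ ?_
    · show B.H.ρ.trace σ = 2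
      rw [htr0 σ, hσ1, Matrix.trace_one, Fintype.card_fin]
      norm_num
    · show B.H.ρ.trace (φ * σ) = B.H.ρ.trace φ
      rw [htr0, htr0, map_mul, hσ1, mul_one]
  -- conclusion
  have hl : (fun k => m59ci_lc (fun ℓ : ↥T8 => ((ℓ : Nat.Primes) : ℕ))
      (fun ℓ : ↥Tn => ((ℓ : Nat.Primes) : ℕ)) (ch k)) =
      fun k => ((m59cp_prm (ch k) : Nat.Primes) : ℕ) := funext fun k => m59ci_lc_eq_prm (ch k)
  have htrf : (fun σ => L.H'.ρ.trace σ) = fun σ => (H.r σ).trace := funext htr'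
  rw [hl, htrf]
  exact hlev H (L.π0 : H.T →ₐ[𝒪] H₀.T) hπT hdH hunH hunipH Q hunrH hunrW hPp hPX (Fin c) hcot' rr
    uT (fun i => hu1 (qv i) (hqvQ i)) hπTu hdia m ch hch.surjective (B.d * 2 ^ rr) (twds_a 𝒪 rr)
    (twc_j B rr)

end

end Fermat.Agent.M59
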