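import Mathlib
import Fermat.Agent.M59.Rp.ZUr
import Fermat.Agent.M59.AtP.Seams
import Fermat.Agent.M59.Act.Trace
import Fermat.Agent.S56.Tan.Transport

/-!
M59 / [CHAIN-inst], case (III): THE COORDINATES AT `p` IN TRACE FORM (helper25, deputy; ruling #48).
Prefix `m59ci_`.

For an abstract `ρ : GaloisRepAdic A` (the representation `L.H'.ρ` of a Hecke level; no framing
chosen) and helper13's elements `E : m59rp_Elts p P`:

* `m59ci_zTr ρ E σ = (1 - det ρ(s0))⁻¹ (tr ρ(σ s0) - det ρ(s0) tr ρ(σ))`,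
  `m59ci_vTr ρ E g0 = tr ρ(g0 τ_v) - tr ρ(g0)`: framing-free forms of `m59rp_z`, `m59rp_v`
  (`m59ci_zTr_framed`, `m59ci_vTr_framed`);
* `m59ci_isUrEig_equiv` : helper10's `m59p_IsUrEig` transports along an equivalence;
* `m59ci_isUrEig_zTr` : for `ρ` ordinary at `p` with cyclotomic determinant, `m59ci_zTr ρ E E.fr` IS
  the eigenvalue of every Frobenius element at every place over `p` on the unramified quotient line
  (helper24's (Z-ex) `m59rpk_zUrEx` on a framing).
-/

set_option autoImplicit false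
set_option linter.style.haveILetI false
set_option linter.unusedSectionVars false
set_option linter.unusedVariables false

open IsLocalRing Fermat.Agent.S53 Fermat.Agent.S56

namespace Fermat.Agent.M59

noncomputable section

local notation "GQ" => (AlgebraicClosure ℚ ≃ₐ[ℚ] AlgebraicClosure ℚ)
local notation "Qbar" => AlgebraicClosure ℚ

section trace

variable {A : Type} [CommRing A] [IsLocalRing A]

/-- the unramified quotient character at `p`, framing-free trace form of `m59rp_z`. -/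
def m59ci_zTr (ρ : GaloisRepAdic A) {p : ℕ} {P : ValuationSubring Qbar} (E : m59rp_Elts p P)
    (σ : GQ) : A :=
  Ring.inverse (1 - LinearMap.det (ρ.ρ E.s0)) *
    (ρ.trace (σ * E.s0) - LinearMap.det (ρ.ρ E.s0) * ρ.trace σ)

/-- the coordinate `v` at `p`, framing-free trace form of `m59rp_v`. -/
def m59ci_vTr (ρ : GaloisRepAdic A) {p : ℕ} {P : ValuationSubring Qbar} (E : m59rp_Elts p P)
    (g0 : GQ) : A :=
  ρ.trace (g0 * E.tv) - ρ.trace g0

theorem m59ci_zTr_framed (ρ : GaloisRepAdic A) (r : FramedRep A)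
    (hr : ρ.IsEquiv r.toGaloisRepAdic) {p : ℕ} {P : ValuationSubring Qbar} (E : m59rp_Elts p P)
    (σ : GQ) : m59ci_zTr ρ E σ = m59rp_z E r.toMonoidHom σ := by
  unfold m59ci_zTr m59rp_z m59rp_c
  rw [m59ac_trace_framed ρ r hr, m59ac_trace_framed ρ r hr, m59ac_det_framed ρ r hr]

theorem m59ci_vTr_framed (ρ : GaloisRepAdic A) (r : FramedRep A)
    (hr : ρ.IsEquiv r.toGaloisRepAdic) {p : ℕ} {P : ValuationSubring Qbar} (E : m59rp_Elts p P)
    (g0 : GQ) : m59ci_vTr ρ E g0 = m59rp_v E g0 r.toMonoidHom := by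
  unfold m59ci_vTr m59rp_v
  rw [m59ac_trace_framed ρ r hr, m59ac_trace_framed ρ r hr]

/-- **`m59p_IsUrEig` transports along an equivalence.** -/
theorem m59ci_isUrEig_equiv {ρ ρ' : GaloisRepAdic A} (e : ρ.Equiv ρ') {P : ValuationSubring Qbar}
    {σ : GQ} {z : A} (h : m59p_IsUrEig ρ P σ z) : m59p_IsUrEig ρ' P σ z := by
  obtain ⟨L, hb, hD, hI, hz⟩ := h
  refine ⟨L.map (e.toLinearEquiv : ρ.V →ₗ[A] ρ'.V), s56t_tr_line e L hb, ?_, ?_, ?_⟩
  · intro g hg v hv
    rw [s56t_tr_mem_map] at hv ⊢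
    rw [s56t_tr_symm_apply]
    exact hD g hg _ hv
  · intro g hg v
    rw [s56t_tr_mem_map, map_sub, s56t_tr_symm_apply]
    exact hI g hg _
  · intro v
    rw [s56t_tr_mem_map, map_sub, s56t_tr_symm_apply, map_smul]
    exact hz _

/-- **(Z-ex), framing-free**: the trace form `m59ci_zTr ρ E E.fr` is the eigenvalue of every
Frobenius element over `p` on the unramified quotient line of an ordinary `ρ`. -/
theorem m59ci_isUrEig_zTr {p : ℕ} [Fact p.Prime] (hp2 : p ≠ 2) {P₀ : ValuationSubring Qbar}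
    (hP₀ : P₀.LiesOverPrime p) (E : m59rp_Elts p P₀) (ρ : GaloisRepAdic A)
    (hdet : ρ.DetIsCyclotomic p) (hord : ρ.IsOrdinaryAt p)
    (P : ValuationSubring Qbar) (hP : P.LiesOverPrime p) (σ : GQ) (hσ : P.IsFrobeniusAt σ p) :
    m59p_IsUrEig ρ P σ (m59ci_zTr ρ E E.fr) := by
  obtain ⟨r, hr⟩ := exists_framedRep ρ
  obtain ⟨e⟩ := id hr
  rw [m59ci_zTr_framed ρ r hr E E.fr]
  have h1 : m59p_IsUrEig r.toGaloisRepAdic P σ (m59rp_z E r.toMonoidHom E.fr) :=
    m59rpk_zUrEx p hp2 P₀ hP₀ E A r (s56t_tr_detIsCyclotomic e hdet) (s56t_tr_isOrdinaryAt e hord)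
      P hP σ hσ
  exact m59ci_isUrEig_equiv e.symm h1

end trace

end

end Fermat.Agent.M59
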