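import Mathlib
import Fermat.Agent.M59.Top.Chain.PairTop
import Fermat.Agent.M59.Top.Chain.TrP3
import Fermat.Agent.M59.C.PairSys3

/-!
M59 / [CHAIN-inst], case (III): **[CI3-PAIRTOP]** (helper25, deputy; ruling #48).  Prefix `m59ci_`.

`m59ci_pairTop3 : m59ci_PairTop3_stmt` (CLOSED): twin of `m59ci_pairTop` (M59/Top/Chain/PairTop.lean)
for the chain of case (III) (`p ∥ N` at the TOP level `N = N_m · p`, `ρ_W` ordinary at `p`,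
`p ∉ Smin`, `p` framed).  The base ring `T₀` = the pair ring `m59cp_T` of a framing `r0` of the base
datum `B.H.ρ` and of the frame `rW` of `ρ_W`; for every Taylor–Wiles set the pair side
`m59ci3_PairSys` (helper26, M59/Top/Chain3/SysGlue3.lean) over it, from helper21's [CI3-PAIR]
`m59cp_pairSys3`, with `zT' = m59ci_zTr L.H'.ρ E E.fr`, `vT' = tr ρ(g0 τ_v) - tr ρ(g0)` in the
framing-free trace forms of M59/Top/Chain/TrP3.lean; the rank `dl`, the ideal `𝔞` and the map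
`jB : B.T → M_dl(S ⧸ 𝔞)` are ARBITRARY (the consumer casts the rank along helper26's
`m59ci3_jcast`).
-/

set_option autoImplicit false
set_option linter.style.haveILetI false
set_option linter.unusedSectionVars false
set_option linter.unusedVariables false
set_option maxHeartbeats 1600000

open Polynomial CuspForm IsLocalRing ExtCitation
open Fermat.Agent.S53 Fermat.Agent.S56 Fermat.Agent.TW Fermat.Agent.JT3

namespace Fermat.Agent.M59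

noncomputable section

local notation "GQ" => (AlgebraicClosure ℚ ≃ₐ[ℚ] AlgebraicClosure ℚ)
local notation "Qbar" => AlgebraicClosure ℚ

attribute [local instance] S53.dualNumberAlgebra

/-- **[CI3-PAIRTOP]** the base ring `T₀` (pair ring of the top base level `N_m · p` and `ρ_W`) and
the pair side of case (III) over it for every Taylor–Wiles set. -/
def m59ci_PairTop3_stmt : Prop :=
  ∀ (p : ℕ) [Fact p.Prime], p ≠ 2 →
  ∀ (𝒪 : Type) [CommRing 𝒪] [IsDomain 𝒪] [IsDiscreteValuationRing 𝒪]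
    [IsAdicComplete (maximalIdeal 𝒪) 𝒪] [Finite (ResidueField 𝒪)] [CharZero 𝒪],
    (p : 𝒪) ∈ maximalIdeal 𝒪 →
  -- the top level of the chain
  ∀ (N : ℕ) [NeZero N], Squarefree N → p ∣ N →
  ∀ (S : Finset ℕ), p ∈ S → (∀ ℓ : ℕ, ℓ.Prime → ℓ ∣ N → ℓ ∈ S) →
  -- the representation of `W`
  ∀ (rW : FramedRep 𝒪) (θ : heckeAlgebra N 2 (↑S : Set ℕ) →+* ResidueField 𝒪),
    twt_Compat θ rW.residual.toResidualGaloisRep →
    s56a_Hyp p rW.residual.toResidualGaloisRep →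
    rW.toGaloisRepAdic.DetIsCyclotomic p →
    (∀ q : ℕ, q.Prime → q ≠ p → rW.toGaloisRepAdic.IsUnipotentOnInertiaAt q) →
    rW.toGaloisRepAdic.IsOrdinaryAt p →
  -- the primes where `ρ̄` is ramified
  ∀ (Smin : Finset ℕ), p ∉ Smin → (∀ q ∈ Smin, q.Prime ∧ q ∣ N) →
    (∀ q : ℕ, q.Prime → q ≠ p →
      (q ∈ Smin ↔ ¬ rW.residual.toResidualGaloisRep.IsUnramifiedAt q)) →
  -- the primes `≠ p` of the chain: scalar-hard `T8`, non-scalar `Tn`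
  ∀ (T8 Tn : Finset Nat.Primes), Disjoint T8 Tn →
    (∀ ℓ ∈ T8 ∪ Tn, ((ℓ : Nat.Primes) : ℕ) ∣ N ∧ ((ℓ : Nat.Primes) : ℕ) ∉ Smin ∧
      ((ℓ : Nat.Primes) : ℕ) ≠ p ∧ ¬ rW.toGaloisRepAdic.IsUnramifiedAt ((ℓ : Nat.Primes) : ℕ)) →
    (∀ ℓ ∈ T8, ((ℓ : Nat.Primes) : ℕ) % p = 1) →
    (∀ q : ℕ, q.Prime → q ≠ p → q ∉ Smin →
      q ∉ (T8 ∪ Tn).image (fun ℓ : Nat.Primes => (ℓ : ℕ)) → rW.toGaloisRepAdic.IsUnramifiedAt q) →
    (∀ q : ℕ, q.Prime → q ∣ N → q ≠ p → q ∉ Smin →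
      q ∉ (T8 ∪ Tn).image (fun ℓ : Nat.Primes => (ℓ : ℕ)) →
      m59m_IsHarmless p rW.residual.toResidualGaloisRep q) →
  -- the data at `p`
  ∀ (E : m59rp_Elts p (padicPlace p)) (g0 : GQ) (εp : ℤ), εp * εp = 1 →
    m59rp_a E ((εp : ℤ) : 𝒪) rW.toMonoidHom = 0 →
    residue 𝒪 ((εp : ℤ) : 𝒪) * m59rp_z E rW.residual.toMonoidHom E.fr = 1 →
    m59rp_v E g0 rW.residual.toMonoidHom = 0 →
  -- the tame datum and the adapted frames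
  ∀ (td : m59c_TameData p (T8 ∪ Tn)), m59ct_InertiaGen td →
  ∀ (ε : Nat.Primes → ℤ) (g gi : Nat.Primes → Matrix (Fin 2) (Fin 2) 𝒪)
    (e : Nat.Primes → Fin 2 → 𝒪),
    (∀ ℓ ∈ T8 ∪ Tn, ε ℓ * ε ℓ = 1 ∧ gi ℓ * g ℓ = 1 ∧ g ℓ * gi ℓ = 1 ∧
      (gi ℓ * rW (td.gφ ℓ) * g ℓ) 0 0 = ((ε ℓ : ℤ) : 𝒪) * (((ℓ : Nat.Primes) : ℕ) : 𝒪) ∧
      (gi ℓ * rW (td.gφ ℓ) * g ℓ) 1 0 = 0 ∧
      (gi ℓ * rW (td.gφ ℓ) * g ℓ) 1 1 = ((ε ℓ : ℤ) : 𝒪) ∧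
      (gi ℓ * (rW (td.gσ ℓ) - 1) * g ℓ) 0 0 = 0 ∧
      (gi ℓ * (rW (td.gσ ℓ) - 1) * g ℓ) 1 0 = 0 ∧
      (gi ℓ * (rW (td.gσ ℓ) - 1) * g ℓ) 1 1 = 0) →
    (∀ ℓ ∈ T8, rW.residual (td.gφ ℓ) =
      Matrix.scalar (Fin 2) (residue 𝒪 (((ε ℓ : ℤ) : 𝒪)))) →
    (∀ ℓ ∈ Tn, (m59c_cyc (rW.residual (td.gφ ℓ)) (fun i => residue 𝒪 (e ℓ i))).det ≠ 0) →
  -- the enumeration of the chain (`inr ()` = the step at `p`)
  ∀ (m : ℕ) (ch : Fin m → (↥T8 ⊕ ↥Tn) ⊕ Unit), (∀ b : ↥T8 ⊕ ↥Tn, ∃ k, ch k = Sum.inl b) →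
  -- the base package, the number of generators
  ∀ (B : twe_Base 𝒪 N S θ) (rr : ℕ) (κ : Type) [Fintype κ] (ka kv : κ), ka ≠ kv →
  ∀ c3 : ℕ, Fintype.card κ = c3 + 2 →
    ∃ (T0 : Type) (_ : CommRing T0) (_ : Algebra 𝒪 T0) (_ : Module.Finite 𝒪 T0)
      (x₂ : T0 →ₐ[𝒪] 𝒪) (p1 : T0 →ₐ[𝒪] B.T) (β : ((↥T8 × Fin 6) ⊕ ↥Tn) ⊕ Unit → T0),
      (∀ cc, x₂ (β cc) = m59ci3_xval (fun ℓ : ↥T8 => ((ℓ : Nat.Primes) : ℕ))
        (fun ℓ : ↥Tn => ((ℓ : Nat.Primes) : ℕ)) (fun ℓ : ↥T8 => ε ℓ) (fun ℓ : ↥Tn => ε ℓ) cc) ∧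
      (∀ σ : GQ, ∃ t : T0, p1 t = B.H.ρ.trace σ ∧ x₂ t = Matrix.trace (rW σ)) ∧
      -- the Taylor–Wiles sets
      ∀ (qv : Fin rr → ℕ), Function.Injective qv →
        (∀ i, (qv i).Prime ∧ qv i ∉ S ∧ qv i % p = 1) →
        (∀ i, ∀ P : ValuationSubring Qbar, P.LiesOverPrime (qv i) →
          ∀ φ : GQ, P.IsFrobeniusAt φ (qv i) → ∃ α β : ResidueField 𝒪, α ≠ β ∧
            LinearMap.charpoly (rW.residual.toResidualGaloisRep.ρ φ) = (X - C α) * (X - C β)) →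
        m59cp_CotBound3 (rb := rW.residual) p E g0 ((εp : ℤ) : 𝒪) (fun _ => True) Smin (T8 ∪ Tn)
          (Finset.univ.image qv) c3 →
      ∀ [NeZero (twe_Nbal N (Finset.univ.image qv) ∅)]
        (L : twe_Level B p (Finset.univ.image qv))
        (u : ∀ t : ℕ, t ∈ Finset.univ.image qv → L.T'),
        (∀ t ht, u t ht - 1 ∈ maximalIdeal L.T') →
        (∀ t ht, m59ci_IsGalDia L.H'.ρ t (u t ht)) →
      ∀ (dl : ℕ) (𝔞 : Ideal (MvPowerSeries (Fin rr) 𝒪))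
        (jB : B.T →+* Matrix (Fin dl) (Fin dl) (MvPowerSeries (Fin rr) 𝒪 ⧸ 𝔞)),
        Nonempty (m59ci3_PairSys 𝒪 rr dl
          (fun k => m59ci3_lc (fun ℓ : ↥T8 => ((ℓ : Nat.Primes) : ℕ))
            (fun ℓ : ↥Tn => ((ℓ : Nat.Primes) : ℕ)) p (ch k))
          κ (fun ℓ : ↥T8 => ((ε ℓ : ℤ) : 𝒪)) (fun ℓ : ↥T8 => ((ℓ : Nat.Primes) : ℕ))
          (fun ℓ : ↥Tn => ((ε ℓ : ℤ) : 𝒪) * ((((ℓ : Nat.Primes) : ℕ) : 𝒪) + 1))
          (fun ℓ : ↥Tn => ((ℓ : Nat.Primes) : ℕ)) ka kv p εp ch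
          𝔞 T0 (jB.comp (p1 : T0 →+* B.T)) β
          L.T' (fun σ => L.H'.ρ.trace σ) (m59ci_zTr L.H'.ρ E E.fr)
          (L.H'.ρ.trace (g0 * E.tv) - L.H'.ρ.trace g0)
          (jB.comp (L.π0 : L.T' →+* B.T))
          (fun i => u (qv i) (Finset.mem_image.2 ⟨i, Finset.mem_univ _, rfl⟩)))

/-- **[CI3-PAIRTOP].** -/
theorem m59ci_pairTop3 : m59ci_PairTop3_stmt := by
  classical
  intro p hpF hp2 𝒪 _ _ _ _ _ _ hp𝒪 N _ hsq hpN S hpS hNS rW θ hcompat hyp hdetW hunipW hordW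
    Smin hpSmin hSminN hmin T8 Tn hdisj hTh hT8 hunr hharm E g0 εp hεp haW hzb hvb td hgen ε g gi e
    hframe hscal hcyc m ch hch B rr κ _ ka kv hkav c3 hκ
  have hpp : p.Prime := hpF.out
  haveI : CharP (ResidueField 𝒪) p := s56a_charP p hp𝒪
  set rb : FramedResidual (ResidueField 𝒪) := rW.residual with hrb
  -- the frames: values
  set a : Nat.Primes → 𝒪 := fun ℓ => ((ε ℓ : ℤ) : 𝒪) with hadef
  set t₀ : Nat.Primes → 𝒪 := fun ℓ => ((ε ℓ : ℤ) : 𝒪) * ((((ℓ : Nat.Primes) : ℕ) : 𝒪) + 1)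
    with ht₀def
  have ht₀ : ∀ ℓ ∈ Tn, residue 𝒪 (t₀ ℓ) = Matrix.trace (rb (td.gφ ℓ)) := by
    intro ℓ hℓ
    obtain ⟨-, hgig, hggi, h00, -, h11, -, -, -⟩ := hframe ℓ (Finset.mem_union_right _ hℓ)
    have htr : Matrix.trace (rW (td.gφ ℓ)) = t₀ ℓ := by
      have h1 : Matrix.trace (gi ℓ * rW (td.gφ ℓ) * g ℓ) = Matrix.trace (rW (td.gφ ℓ)) := by
        rw [Matrix.trace_mul_comm, ← Matrix.mul_assoc, hggi, Matrix.one_mul]
      rw [← h1, Matrix.trace_fin_two, h00, h11, ht₀def]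
      ring
    rw [hrb, FramedRep.residual_apply, ← htr]
    simp only [Matrix.trace, Matrix.diag_apply, Matrix.map_apply, map_sum]
  have hW : ∀ σ, (rW σ).map (residue 𝒪) = rb σ := fun σ => rfl
  have hThp : ∀ ℓ ∈ T8 ∪ Tn, ((ℓ : Nat.Primes) : ℕ) ≠ p := fun ℓ hℓ => (hTh ℓ hℓ).2.2.1
  have hur : ∀ ℓ ∈ T8 ∪ Tn, rb.toResidualGaloisRep.IsUnramifiedAt ((ℓ : Nat.Primes) : ℕ) := by
    intro ℓ hℓ
    by_contra hcon
    exact (hTh ℓ hℓ).2.1 ((hmin ℓ ℓ.2 (hThp ℓ hℓ)).2 hcon)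
  -- the base pair
  obtain ⟨r0, hr0e, hr0l⟩ := twc_hp_exists_framed B.H hNS rb hcompat
  set H₀ : twc_HPair 𝒪 rb := twc_hp_ofFramed B.H hNS rb r0 hr0e hr0l with hH₀
  haveI hfinH₀ : Module.Finite 𝒪 H₀.T := (inferInstance : Module.Finite 𝒪 B.T)
  have hdH₀ : H₀.r.toGaloisRepAdic.DetIsCyclotomic p := by
    obtain ⟨e0⟩ := hr0e
    exact s56t_tr_detIsCyclotomic e0 (twt_dl_det hpp hp𝒪 hNS B.H)
  have htr0 : ∀ σ, B.H.ρ.trace σ = (r0 σ).trace := fun σ => m59ac_trace_framed _ _ hr0e σ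
  -- [CI3-PAIR]
  obtain ⟨β, hβ, hlev⟩ := m59cp_pairSys3 p hp2 𝒪 hp𝒪 rb hyp.habs rW hW hdetW
    (fun _ => True) Smin hpSmin T8 Tn td hThp hur (fun ℓ hℓ => hunipW ℓ ℓ.2 (hThp ℓ hℓ))
    (fun q _ hq hqp => hunipW q hq hqp)
    a g gi t₀ e (fun ℓ hℓ => (hframe ℓ (Finset.mem_union_left _ hℓ)).2.1) hscal ht₀ hcyc
    E g0 εp hεp hzb hvb H₀ hdH₀
  haveI hfinT0 : Module.Finite 𝒪 ↥(m59cp_T H₀.r rW) :=
    m59ci_adj_finite (fun σ : GQ => (H₀.r σ).trace) (fun σ : GQ => (rW σ).trace)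
  refine ⟨↥(m59cp_T H₀.r rW), inferInstance, inferInstance, hfinT0, m59cp_snd H₀.r rW,
    m59cp_fst H₀.r rW, β, fun cc => ?_, fun σ => ⟨m59cp_t H₀.r rW σ, ?_, ?_⟩, ?_⟩
  · rw [hβ cc]
    rcases cc with cc | u
    · exact m59ci_nu_val td.gσ td.gφ ε g gi e (fun σ => rW σ) hframe cc
    · exact haW
  · rw [htr0 σ]
    rfl
  · rfl
  -- the Taylor–Wiles sets
  intro qv hinj hqv1 hqv2 hcot _ L u hu1 hgal dl 𝔞 jB
  set Q : Finset ℕ := Finset.univ.image qv with hQdef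
  have hqvQ : ∀ i, qv i ∈ Q := fun i => Finset.mem_image.2 ⟨i, Finset.mem_univ _, rfl⟩
  have hQ : ∀ t ∈ Q, t.Prime ∧ t ∉ S ∧ t % p = 1 := by
    intro t ht
    obtain ⟨i, -, rfl⟩ := Finset.mem_image.1 ht
    exact hqv1 i
  have hQp : ∀ t ∈ Q, t.Prime := fun t ht => (hQ t ht).1
  have hE : ∀ ℓ ∈ (∅ : Finset ℕ), ℓ.Prime := fun ℓ hℓ => absurd hℓ (Finset.notMem_empty ℓ)
  have hNS' : ∀ ℓ : ℕ, ℓ.Prime → ℓ ∣ twe_Nbal N Q ∅ → ℓ ∈ S ∪ Q :=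
    twc_ft_hNS (Th := ∅) hNS hQp (fun ℓ hℓ => absurd hℓ (Finset.notMem_empty ℓ))
  have hpS' : p ∈ S ∪ Q := Finset.mem_union_left _ hpS
  have hpQ : p ∉ Q := fun h => (hQ p h).2.1 hpS
  have hcompat' : twt_Compat L.θ' rb.toResidualGaloisRep := twc_fr_compat_level hcompat L
  obtain ⟨r', hr'e, hr'l⟩ := twc_hp_exists_framed L.H' hNS' rb hcompat'
  set H : twc_HPair 𝒪 rb := twc_hp_ofFramed L.H' hNS' rb r' hr'e hr'l with hH
  haveI hfinH : Module.Finite 𝒪 H.T := (inferInstance : Module.Finite 𝒪 L.T')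
  obtain ⟨e'⟩ := id hr'e
  have htr' : ∀ σ, L.H'.ρ.trace σ = (r' σ).trace := fun σ => m59ac_trace_framed _ _ hr'e σ
  have hloc : IsLocalHom (L.π0 : L.T' →+* B.T) := twc_fr_π0_isLocalHom hNS L
  have hπtr : ∀ σ, L.π0 (L.H'.ρ.trace σ) = B.H.ρ.trace σ := by
    intro σ
    have h1 := twc_fr_base_isEquiv hNS L hloc r' hr'e
    rw [htr' σ, m59ac_trace_framed _ _ h1 σ, FramedRep.map_apply]
    exact (m59cp_map_trace (L.π0 : L.T' →+* B.T) (r' σ)).symm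
  have hπT : ∀ σ, (L.π0 : H.T →ₐ[𝒪] H₀.T) (H.r σ).trace = (H₀.r σ).trace := by
    intro σ
    have h1 := hπtr σ
    rw [htr' σ, htr0 σ] at h1
    exact h1
  -- the arithmetic of the balanced level
  have hdvdN : ∀ q : ℕ, q.Prime → q ∣ twe_Nbal N Q ∅ → q ∉ Q → q ∣ N := by
    intro q hq hqN hqQ
    rcases (twc_ft_prime_dvd_Nbal hQp hE hq).1 hqN with h | h | h
    · exact h
    · exact absurd h hqQ
    · exact absurd h (Finset.notMem_empty q)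
  have hNQ : ∀ q : ℕ, q.Prime → q ∣ N → q ∉ Q := fun q hq hqN h => (hQ q h).2.1 (hNS q hq hqN)
  have hnsq : ∀ q : ℕ, q.Prime → q ∣ N → ¬ q ^ 2 ∣ twe_Nbal N Q ∅ := fun q hq hqN =>
    twc_ft_not_sq_dvd hsq hQp hE hq (hNQ q hq hqN) (Finset.notMem_empty q)
  -- the type of the level datum away from `p`
  obtain ⟨hdL, hunrL, hunipL⟩ := m59ci_dl_type hp2 hp𝒪 hpS' hNS' L.H' rb.toResidualGaloisRep
    hcompat' (insert p Smin) (T8 ∪ Tn) Q (Finset.mem_insert_self _ _)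
    (fun q hq hqN => by
      by_cases hqQ : q ∈ Q
      · exact Or.inl (Finset.mem_union_right _ hqQ)
      have hqN' := hdvdN q hq hqN hqQ
      by_cases hqp : q = p
      · exact Or.inl (Finset.mem_union_left _ (Finset.mem_union_left _
          (hqp ▸ Finset.mem_insert_self _ _)))
      by_cases hqS : q ∈ Smin
      · exact Or.inl (Finset.mem_union_left _ (Finset.mem_union_left _
          (Finset.mem_insert_of_mem hqS)))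
      by_cases hqTh : q ∈ (T8 ∪ Tn).image (fun ℓ : Nat.Primes => (ℓ : ℕ))
      · exact Or.inl (Finset.mem_union_left _ (Finset.mem_union_right _ hqTh))
      refine Or.inr ⟨hnsq q hq hqN', ?_, hharm q hq hqN' hqp hqS hqTh⟩
      by_contra hcon
      exact hqS ((hmin q hq hqp).2 hcon))
    (fun q hqS hq hqp => by
      rcases Finset.mem_insert.1 hqS with h | h
      · exact absurd h hqp
      · exact ⟨dvd_trans (hSminN q h).2 (twc_fr_N_dvd_Nbal N Q ∅), hnsq q hq (hSminN q h).2⟩)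
  have hdH : H.r.toGaloisRepAdic.DetIsCyclotomic p := s56t_tr_detIsCyclotomic e' hdL
  have hunH : ∀ ℓ ∈ T8 ∪ Tn,
      H.r.toGaloisRepAdic.IsUnipotentOnInertiaAt ((ℓ : Nat.Primes) : ℕ) := fun ℓ hℓ =>
    s56t_tr_isUnipotentOnInertiaAt e' (twt_dl_unip hpp hp𝒪 hpS' hNS' L.H' ℓ ℓ.2 (hThp ℓ hℓ)
      (dvd_trans (hTh ℓ hℓ).1 (twc_fr_N_dvd_Nbal N Q ∅)) (hnsq ℓ ℓ.2 (hTh ℓ hℓ).1))
  have hunipH : ∀ q ∈ Smin, q.Prime → q ≠ p →
      H.r.toGaloisRepAdic.IsUnipotentOnInertiaAt q := fun q hqS hq hqp =>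
    s56t_tr_isUnipotentOnInertiaAt e' (hunipL q (Finset.mem_insert_of_mem hqS) hq hqp)
  -- the complement of the ramification sets
  have hcompl : ∀ q : ℕ,
      q ∉ Smin ∪ (insert (pPrime p) (T8 ∪ Tn)).image (fun ℓ : Nat.Primes => (ℓ : ℕ)) ∪ Q →
      q ≠ p ∧ q ∉ Smin ∧ q ∉ (T8 ∪ Tn).image (fun ℓ : Nat.Primes => (ℓ : ℕ)) ∧ q ∉ Q := by
    intro q hqU
    refine ⟨fun h => hqU ?_, fun h => hqU ?_, fun h => hqU ?_, fun h => hqU ?_⟩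
    · exact Finset.mem_union_left _ (Finset.mem_union_right _
        (Finset.mem_image.2 ⟨pPrime p, Finset.mem_insert_self _ _, h.symm⟩))
    · exact Finset.mem_union_left _ (Finset.mem_union_left _ h)
    · obtain ⟨ℓ, hℓ, hℓq⟩ := Finset.mem_image.1 h
      exact Finset.mem_union_left _ (Finset.mem_union_right _
        (Finset.mem_image.2 ⟨ℓ, Finset.mem_insert_of_mem hℓ, hℓq⟩))
    · exact Finset.mem_union_right _ h
  have hunrH : ∀ q : ℕ, q.Prime →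
      q ∉ Smin ∪ (insert (pPrime p) (T8 ∪ Tn)).image (fun ℓ : Nat.Primes => (ℓ : ℕ)) ∪ Q →
      H.r.toGaloisRepAdic.IsUnramifiedAt q := by
    intro q hq hqU
    obtain ⟨h1, h2, h3, h4⟩ := hcompl q hqU
    refine s56t_tr_isUnramifiedAt e' (hunrL q hq (fun h => ?_))
    rcases Finset.mem_union.1 h with h | h
    · rcases Finset.mem_union.1 h with h | h
      · rcases Finset.mem_insert.1 h with h | h
        · exact h1 h
        · exact h2 h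
      · exact h3 h
    · exact h4 h
  have hunrW : ∀ q : ℕ, q.Prime →
      q ∉ Smin ∪ (insert (pPrime p) (T8 ∪ Tn)).image (fun ℓ : Nat.Primes => (ℓ : ℕ)) ∪ Q →
      rW.toGaloisRepAdic.IsUnramifiedAt q := by
    intro q hq hqU
    obtain ⟨h1, h2, h3, -⟩ := hcompl q hqU
    exact hunr q hq h1 h2 h3
  -- ordinarity at `p`
  have hordres : (GaloisRepAdic.ofResidualGaloisRep rb.toResidualGaloisRep).IsOrdinaryAt p :=
    m59rpk_ord_resEquiv (FramedRep.residual_isEquiv rW)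
      (m59rpk_ord_residual rW.toGaloisRepAdic hordW)
  have hpsq : ¬ p ^ 2 ∣ N := fun h => by
    have h1 : p * p ∣ N := by rwa [pow_two] at h
    exact hpp.not_isUnit (hsq p h1)
  have hoH : H.r.toGaloisRepAdic.IsOrdinaryAt p :=
    s56t_tr_isOrdinaryAt e' (m59rpk_ord_level hpp hp2 hp𝒪 ⟨hpN, hpsq⟩ hNS
      (fun t ht => ⟨(hQ t ht).1, (hQ t ht).2.2⟩) L rb.toResidualGaloisRep hcompat hordres)
  have hOrd : ∀ (H'' : twc_HPair 𝒪 rb) (pr₁ : H''.T →ₐ[𝒪] H.T) (pr₂ : H''.T →ₐ[𝒪] 𝒪),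
      Module.Finite 𝒪 H''.T → (∀ x : H''.T, pr₁ x = 0 → pr₂ x = 0 → x = 0) →
      ∀ (g₁ : (Matrix (Fin 2) (Fin 2) H.T)ˣ),
        (∀ σ, (H''.r σ).map pr₁ = g₁.val * H.r σ * g₁.inv) →
      ∀ (g₂ : (Matrix (Fin 2) (Fin 2) 𝒪)ˣ),
        (∀ σ, (H''.r σ).map pr₂ = g₂.val * rW σ * g₂.inv) →
        H''.r.toGaloisRepAdic.IsOrdinaryAt p := by
    intro H'' pr₁ pr₂ hfin hinj g₁ hg₁ g₂ hg₂
    haveI := hfin
    haveI hidloc : IsLocalHom (algebraMap 𝒪 𝒪) := ⟨fun a ha => ha⟩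
    have hl₁ : IsLocalHom (pr₁ : H''.T →+* H.T) := m59cp_isLocalHom_of_finite pr₁
    have hl₂ : IsLocalHom (pr₂ : H''.T →+* 𝒪) := m59cp_isLocalHom_of_finite pr₂
    have hdet'' : H''.r.toGaloisRepAdic.DetIsCyclotomic p :=
      m59cp_detCyc_of_pair (pr₁ : H''.T →+* H.T) (pr₂ : H''.T →+* 𝒪) H''.r H.r rW g₁ g₂ p hl₁ hl₂
        hinj hg₁ hg₂ hdH hdetW
    exact m59ci_ord_of_pair (pr₁ : H''.T →+* H.T) hl₁ (pr₂ : H''.T →+* 𝒪) hl₂ hinj H''.r H.r rW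
      g₁ g₂ hg₁ hg₂ p hp2 hdet'' hoH hordW
  -- the diamonds
  set uT : Fin rr → H.T := fun i => u (qv i) (hqvQ i) with huT
  have hunrB : ∀ t ∈ Q, B.H.ρ.IsUnramifiedAt t := fun t ht =>
    twt_dl_unram hpp hp𝒪 hpS hNS B.H t (hQ t ht).1
      (fun h => (hQ t ht).2.1 (hNS t (hQ t ht).1 h)) (fun h => hpQ (h ▸ ht))
  have hr0unr : ∀ t ∈ Q, r0.toGaloisRepAdic.IsUnramifiedAt t := fun t ht => by
    obtain ⟨e0⟩ := hr0e
    exact s56t_tr_isUnramifiedAt e0 (hunrB t ht)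
  have hWunrQ : ∀ t ∈ Q, rW.toGaloisRepAdic.IsUnramifiedAt t := by
    intro t ht
    have htS : t ∉ S := (hQ t ht).2.1
    refine hunr t (hQ t ht).1 (fun h => hpQ (h ▸ ht)) (fun h => ?_) (fun h => ?_)
    · exact htS (hNS t (hSminN t h).1 (hSminN t h).2)
    · obtain ⟨ℓ, hℓ, rfl⟩ := Finset.mem_image.1 h
      exact htS (hNS ℓ ℓ.2 (hTh ℓ hℓ).1)
  have hdia : ∀ i, ∃ (φ σ : GQ) (a0 a1 u' : H.T), rW σ = 1 ∧ IsUnit (a0 - a1) ∧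
      a0 + a1 = (H.r φ).trace ∧ a0 * a1 = (H.r φ).det ∧ uT i * u' = 1 ∧
      uT i + u' = (H.r σ).trace ∧ a0 * uT i + a1 * u' = (H.r (φ * σ)).trace := by
    intro i
    obtain ⟨φ, σ, a0, a1, u', -, hσI, hua, h1, h2, h3, h4, h5⟩ := hgal (qv i) (hqvQ i)
    refine ⟨φ, σ, a0, a1, u', m59ci_unram_apply rW (hWunrQ _ (hqvQ i)) hσI, hua, ?_, ?_, h3, ?_,
      ?_⟩
    · exact h1.trans (htr' φ)
    · exact h2.trans (m59ac_det_framed _ _ hr'e φ)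
    · exact h4.trans (htr' σ)
    · exact h5.trans (htr' (φ * σ))
  have hπTu : ∀ i, (L.π0 : H.T →ₐ[𝒪] H₀.T) (uT i) = 1 := by
    intro i
    obtain ⟨φ, σ, a0, a1, u', -, hσI, hua, h1, -, -, h4, h5⟩ := hgal (qv i) (hqvQ i)
    have hσ1 : r0 σ = 1 := m59ci_unram_apply r0 (hr0unr _ (hqvQ i)) hσI
    refine m59ci_dia_push (L.π0 : L.T' →+* B.T) (fun τ => L.H'.ρ.trace τ)
      (fun τ => B.H.ρ.trace τ) hπtr φ σ a0 a1 (u (qv i) (hqvQ i)) u' hua h1 h4 h5 ?_ ?_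
    · show B.H.ρ.trace σ = 2
      rw [htr0 σ, hσ1, Matrix.trace_one, Fintype.card_fin]
      norm_num
    · show B.H.ρ.trace (φ * σ) = B.H.ρ.trace φ
      rw [htr0, htr0, map_mul, hσ1, mul_one]
  -- conclusion
  have htrf : (fun σ => L.H'.ρ.trace σ) = fun σ => (H.r σ).trace := funext htr'
  have hz : m59ci_zTr L.H'.ρ E E.fr = m59rp_z E H.r.toMonoidHom E.fr :=
    m59ci_zTr_framed L.H'.ρ r' hr'e E E.fr
  have hv : L.H'.ρ.trace (g0 * E.tv) - L.H'.ρ.trace g0 = m59rp_v E g0 H.r.toMonoidHom :=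
    m59ci_vTr_framed L.H'.ρ r' hr'e E g0
  rw [htrf, hz, hv]
  exact hlev H (L.π0 : H.T →ₐ[𝒪] H₀.T) hπT hdH (m59cp_adjoin_trace_ofFramed L.H' hNS' r' hr'e)
    hunH hunipH Q hunrH hunrW hOrd κ ka kv hkav c3 hκ hcot rr uT
    (fun i => hu1 (qv i) (hqvQ i)) hπTu hdia m ch hch dl 𝔞 jB

end

end Fermat.Agent.M59
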