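import Fermat.Agent.M59.Top.Chain.LvSys

/-!
M59 / [CHAIN-inst]: the level datum of [D'] from a chain system (helper25, deputy; ruling #48).
Prefix `m59ci_`.

`m59ci_level_of_sys : m59ci_LvSys … → Nonempty (m59d_ChainLevel … on the concrete frame)`
(PROVED; the chain analogue of main's C/Level `twc_level_of2`, with helper8's one-step datum), and
the resulting cut `m59ci_level_of_sysStmt : m59ci_Sys_stmt Peu → m59ci_Level_stmt Peu` (PROVED):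
the leaf [CI-LEVEL] of Chain/Seams.lean is replaced by the leaf **[CI-SYS]** `m59ci_Sys_stmt Peu`
(= [CI-LEVEL] with `∀ n, Nonempty (m59ci_LvSys …)` in place of the level data).

* `m59ci_sys_present` : a surjective presentation `γ : m59b_P ↠ T` sending the coordinate variables
  to the local coordinates `z` (`twc_rel_exists_gens` + `s56ps_eval_surjective`); it kills `m59b_J`
  (`rel`), so `R_∞ = m59b_R ↠ T`;
* `σ : S_∞ → R_∞` lifts the diamonds; `α k = act k ∘ (R_∞ ↠ T)`; `α_σ` at EVERY level by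
  `twc_lv_ringHom_ext_matrix`;
* the six identities of every step from `m59ci_abs_step`, with `t = tr Φ_l`, `x = r k`,
  `X k = α (s k)` (`EE = 1`);
* `π = π0 ∘ (R_∞ ↠ T)`, `π ∘ σ = θ` by `m59ci_ringHom_ext_T0` (two ring homomorphisms from a power
  series ring to a separated ring with finite quotients which agree on the constants and on the
  variables are equal).
-/

set_option autoImplicit false
set_option linter.style.haveILetI false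
set_option linter.unusedSectionVars false
set_option linter.unusedVariables false

open IsLocalRing MvPowerSeries Matrix Fermat.Agent.TW Fermat.Agent.S56

namespace Fermat.Agent.M59

noncomputable section

/-! ### ring homomorphisms out of a power series ring -/

/-- two ring homomorphisms from a power series ring to an `I`-adically separated ring with finite
quotients `E ⧸ I ^ N` which agree on the constants and on the variables are equal. -/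
theorem m59ci_ringHom_ext_T0 {σ : Type*} [Finite σ] {𝒪 : Type*} [CommRing 𝒪] [IsLocalRing 𝒪]
    {E : Type*} [CommRing E] (I : Ideal E) [IsHausdorff I E] (hfin : ∀ N : ℕ, Finite (E ⧸ I ^ N))
    (f1 f2 : MvPowerSeries σ 𝒪 →+* E)
    (hC : ∀ c : 𝒪, f1 (C c) = f2 (C c)) (hX : ∀ i, f1 (X i) = f2 (X i)) : f1 = f2 := by
  apply RingHom.ext
  intro s
  rw [← sub_eq_zero]
  apply IsHausdorff.haus (inferInstance : IsHausdorff I E)
  intro N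
  haveI := hfin N
  have h := twc_lv_ringHom_ext_finite ((Ideal.Quotient.mk (I ^ N)).comp f1)
    ((Ideal.Quotient.mk (I ^ N)).comp f2)
    (fun c => by rw [RingHom.comp_apply, RingHom.comp_apply, hC c])
    (fun i => by rw [RingHom.comp_apply, RingHom.comp_apply, hX i])
  have h1 := RingHom.congr_fun h s
  rw [RingHom.comp_apply, RingHom.comp_apply, Ideal.Quotient.eq] at h1
  rw [SModEq.zero, smul_eq_mul, Ideal.mul_top]
  exact h1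

/-! ### the presentation -/

section present

variable {𝒪 : Type} [CommRing 𝒪] [IsLocalRing 𝒪] [IsNoetherianRing 𝒪]
  [IsAdicComplete (maximalIdeal 𝒪) 𝒪]
  {rr : ℕ} {m : ℕ} {d : Fin (m + 1) → ℕ} {T8 Tn κ : Type} [Fintype T8] [Fintype Tn] [Fintype κ]
  {a : T8 → 𝒪} {l8 : T8 → ℕ} {t0 : Tn → 𝒪} {ln : Tn → ℕ} {ch : Fin m → T8 ⊕ Tn} {ee : Fin m → ℕ}
  {𝔞 𝔟 : Ideal (MvPowerSeries (Fin rr) 𝒪)} {h𝔟𝔞 : 𝔟 ≤ 𝔞}
  {T0 : Type} [CommRing T0] [Algebra 𝒪 T0]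
  {j : T0 →+* Matrix (Fin (d (Fin.last m))) (Fin (d (Fin.last m)))
    (MvPowerSeries (Fin rr) 𝒪 ⧸ 𝔞)}
  {β : (T8 × Fin 6) ⊕ Tn → T0}

/-- **the presentation** of the pair ring: `γ : m59b_P ↠ T`, coordinate variables `↦ z`. -/
theorem m59ci_sys_present (sys : m59ci_LvSys 𝒪 rr d κ a l8 t0 ln ch ee 𝔞 𝔟 h𝔟𝔞 T0 j β) :
    ∃ γ : m59b_P 𝒪 T8 Tn κ →ₐ[𝒪] sys.T, Function.Surjective γ ∧
      ∀ c, γ (X (m59ci_emb κ c)) = (sys.z c : sys.T) := by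
  classical
  obtain ⟨w, hw⟩ := twc_rel_exists_gens (𝒪 := 𝒪) sys.z (Fintype.card κ) sys.finrank_le
  let eκ := Fintype.equivFin κ
  let x : twb_r8_Idx T8 (m59b_Aux Tn κ) → sys.T :=
    Sum.elim (fun c => (sys.z (Sum.inl c) : sys.T))
      (Sum.elim (fun c => (sys.z (Sum.inr c) : sys.T)) (fun k => w (eκ k)))
  have hrange : Set.range x = Set.range (Sum.elim (fun i => (sys.z i : sys.T)) w) := by
    ext y
    constructor
    · rintro ⟨(c | c | k), rfl⟩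
      · exact ⟨Sum.inl (Sum.inl c), rfl⟩
      · exact ⟨Sum.inl (Sum.inr c), rfl⟩
      · exact ⟨Sum.inr (eκ k), rfl⟩
    · rintro ⟨((c | c) | i), rfl⟩
      · exact ⟨Sum.inl c, rfl⟩
      · exact ⟨Sum.inr (Sum.inl c), rfl⟩
      · refine ⟨Sum.inr (Sum.inr (eκ.symm i)), ?_⟩
        show w (eκ (eκ.symm i)) = w i
        rw [Equiv.apply_symm_apply]
  have hgen : maximalIdeal sys.T = (maximalIdeal 𝒪).map (algebraMap 𝒪 sys.T) ⊔
      Ideal.span (Set.range x) := by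
    rw [hrange]
    exact hw
  have hx : ∀ v, x v ∈ maximalIdeal sys.T := by
    intro v
    rw [hgen]
    exact Ideal.mem_sup_right (Ideal.subset_span ⟨v, rfl⟩)
  refine ⟨s56ps_eval (𝒪 := 𝒪) x hx, s56ps_eval_surjective sys.residue_surjective x hx hgen, ?_⟩
  rintro (c | c)
  · show s56ps_eval (𝒪 := 𝒪) x hx (X (Sum.inl c)) = _
    rw [s56ps_eval_X]
    rfl
  · show s56ps_eval (𝒪 := 𝒪) x hx (X (Sum.inr (Sum.inl c))) = _
    rw [s56ps_eval_X]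
    rfl

end present

/-! ### the images of the elements of the frame -/

section images

variable {𝒪 : Type} [CommRing 𝒪] [IsDomain 𝒪] [IsNoetherianRing 𝒪] [IsLocalRing 𝒪] [CharZero 𝒪]
  {T8 Tn : Type} [Finite T8] [Finite Tn] (κ : Type) [Finite κ]
  (a : T8 → 𝒪) (l8 : T8 → ℕ) (t0 : Tn → 𝒪) (ln : Tn → ℕ)

/-- the trace coordinate `tr Φ_b` in `m59b_P`. -/
def m59ci_tP : T8 ⊕ Tn → m59b_P 𝒪 T8 Tn κ :=
  Sum.elim (fun t => (m59b_Phi8 𝒪 κ a t).trace) (fun l => m59b_tn 𝒪 T8 κ t0 l)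

theorem m59ci_lw_s_eq (ε8 : T8 → ℤ) (εn : Tn → ℤ) (b : T8 ⊕ Tn) :
    m59lw_s κ a l8 t0 ln ε8 εn b = (((m59ci_lc l8 ln b : ℕ) : m59b_P 𝒪 T8 Tn κ) + 1) -
      ((Sum.elim ε8 εn b : ℤ) : m59b_P 𝒪 T8 Tn κ) * m59ci_tP κ a t0 b := by
  rcases b with t | l <;> rfl

theorem m59ci_lw_r_eq (b : T8 ⊕ Tn) :
    m59lw_r κ a l8 t0 ln b = m59ci_tP κ a t0 b ^ 2 -
      (((m59ci_lc l8 ln b : ℕ) : m59b_P 𝒪 T8 Tn κ) + 1) ^ 2 := by
  rcases b with t | l <;> rfl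

variable {κ a l8 t0 ln}
variable {T : Type} [CommRing T] [IsLocalRing T] [Algebra 𝒪 T]
  {z : m59ci_Iz T8 Tn → maximalIdeal T}
  {γ : m59b_P 𝒪 T8 Tn κ →ₐ[𝒪] T} (hγ : ∀ c, γ (X (m59ci_emb κ c)) = (z c : T))

theorem m59ci_gamma_C (γ : m59b_P 𝒪 T8 Tn κ →ₐ[𝒪] T) (c : 𝒪) :
    γ (C c) = algebraMap 𝒪 T c := by
  rw [show (C c : m59b_P 𝒪 T8 Tn κ) = algebraMap 𝒪 _ c from rfl, AlgHom.commutes]

include hγ in
theorem m59ci_gamma_Phi (t : T8) (i j : Fin 2) :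
    γ (m59b_Phi8 𝒪 κ a t i j) = m59ci_PhiT a z t i j := by
  have h1 : m59b_Phi8 𝒪 κ a t i j =
      (if i = j then (C (a t) : m59b_P 𝒪 T8 Tn κ) else 0) + X (Sum.inl (t, 1, i, j)) := by
    unfold m59b_Phi8 twb_r8_Phi
    rw [Matrix.add_apply, Matrix.of_apply, Matrix.scalar_apply, Matrix.diagonal_apply]
  rw [h1, map_add, m59ci_PhiT]
  congr 1
  · split_ifs
    · exact m59ci_gamma_C γ (a t)
    · exact map_zero γ
  · exact hγ (Sum.inl (t, 1, i, j))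

include hγ in
theorem m59ci_gamma_tP (b : T8 ⊕ Tn) : γ (m59ci_tP κ a t0 b) = m59ci_trT a t0 z b := by
  rcases b with t | l
  · show γ ((m59b_Phi8 𝒪 κ a t).trace) = m59ci_PhiT a z t 0 0 + m59ci_PhiT a z t 1 1
    rw [Matrix.trace_fin_two, map_add, m59ci_gamma_Phi hγ, m59ci_gamma_Phi hγ]
  · show γ (m59b_tn 𝒪 T8 κ t0 l) = algebraMap 𝒪 T (t0 l) + (z (Sum.inr (l, 0)) : T)
    unfold m59b_tn
    rw [map_add, m59ci_gamma_C]
    congr 1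
    exact hγ (Sum.inr (l, 0))

include hγ in
theorem m59ci_gamma_u (i : (T8 × Fin 2 × Fin 2) ⊕ (Tn × Fin 2)) :
    γ (m59b_u 𝒪 κ i) = (z (m59ci_embN i) : T) := by
  rcases i with ⟨t, i, j⟩ | ⟨l, i⟩
  · exact hγ (Sum.inl (t, 0, i, j))
  · exact hγ (Sum.inr (l, Fin.succ i))

include hγ in
theorem m59ci_gamma_nu (hJ : ∀ f ∈ m59b_J 𝒪 κ a l8 t0 ln, γ f = 0) (c : (T8 × Fin 6) ⊕ Tn) :
    Ideal.Quotient.liftₐ (m59b_J 𝒪 κ a l8 t0 ln) γ hJ (m59ci_nu κ a l8 t0 ln c) =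
      m59ci_nuT a t0 z c := by
  rcases c with ⟨t, i⟩ | l
  · fin_cases i
    · exact m59ci_gamma_Phi hγ t 0 0
    · exact m59ci_gamma_Phi hγ t 1 0
    · exact m59ci_gamma_Phi hγ t 1 1
    · exact hγ (Sum.inl (t, 0, 0, 0))
    · exact hγ (Sum.inl (t, 0, 1, 0))
    · exact hγ (Sum.inl (t, 0, 1, 1))
  · exact m59ci_gamma_tP (a := a) (t0 := t0) hγ (Sum.inr l)

end images

/-! ### the assembly -/

section main

variable {𝒪 : Type} [CommRing 𝒪] [IsDomain 𝒪] [IsLocalRing 𝒪] [IsNoetherianRing 𝒪] [CharZero 𝒪]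
  [IsAdicComplete (maximalIdeal 𝒪) 𝒪]
  {rr : ℕ} {m : ℕ} {d : Fin (m + 1) → ℕ} {e : Fin m → ℕ}
  {T8 Tn κ : Type} [Fintype T8] [Fintype Tn] [Fintype κ]
  {a : T8 → 𝒪} {l8 : T8 → ℕ} {t0 : Tn → 𝒪} {ln : Tn → ℕ} {ch : Fin m → T8 ⊕ Tn} {ee : Fin m → ℕ}
  {𝔞 𝔟 : Ideal (MvPowerSeries (Fin rr) 𝒪)} {h𝔟𝔞 : 𝔟 ≤ 𝔞}
  {T0 : Type} [CommRing T0] [Algebra 𝒪 T0]
  {j : T0 →+* Matrix (Fin (d (Fin.last m))) (Fin (d (Fin.last m)))
    (MvPowerSeries (Fin rr) 𝒪 ⧸ 𝔞)}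
  {β : (T8 × Fin 6) ⊕ Tn → T0}

/-- `p * scalar c * q = scalar c` when `p * q = 1`. -/
theorem m59ci_mul_scalar_mul {Λ : Type*} [CommRing Λ] {n k : ℕ} (p : Matrix (Fin k) (Fin n) Λ)
    (q : Matrix (Fin n) (Fin k) Λ) (hpq : p * q = 1) (c : Λ) :
    p * Matrix.scalar (Fin n) c * q = Matrix.scalar (Fin k) c := by
  rw [Matrix.scalar_apply, Matrix.scalar_apply, ← Matrix.smul_one_eq_diagonal,
    ← Matrix.smul_one_eq_diagonal, Matrix.mul_smul, Matrix.mul_one, Matrix.smul_mul, hpq]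

/-- **C/Level for the chain**: the level datum of block [D'] from a chain system. -/
theorem m59ci_level_of_sys
    [IsLocalRing (m59b_R 𝒪 κ a l8 t0 ln)]
    [IsAdicComplete (maximalIdeal (m59b_R 𝒪 κ a l8 t0 ln)) (m59b_R 𝒪 κ a l8 t0 ln)]
    (h𝔞 : 𝔞 ≠ ⊤)
    (hS : ∀ k : ℕ, Finite (MvPowerSeries (Fin rr) 𝒪 ⧸ maximalIdeal (MvPowerSeries (Fin rr) 𝒪) ^ k))
    (I0 : Ideal T0) [IsHausdorff I0 T0] (hT0 : ∀ N : ℕ, Finite (T0 ⧸ I0 ^ N))
    (he : ∀ k : Fin m, e k + 2 * d k.castSucc = d k.succ)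
    (ε8 : T8 → ℤ) (hε8 : ∀ t, ε8 t * ε8 t = 1) (εn : Tn → ℤ) (hεn : ∀ l, εn l * εn l = 1)
    {K : Type} (γ : K → T0)
    (sys : m59ci_LvSys 𝒪 rr d κ a l8 t0 ln ch ee 𝔞 𝔟 h𝔟𝔞 T0 j β) :
    Nonempty (m59d_ChainLevel 𝒪 (MvPowerSeries (Fin rr) 𝒪) (m59b_R 𝒪 κ a l8 t0 ln) T0 d e 1
      𝔞 𝔟 h𝔟𝔞 j (m59ci_theta 𝒪 rr T0) (m59ci_u κ a l8 t0 ln)
      (fun _ => (⊥ : Ideal (m59b_R 𝒪 κ a l8 t0 ln))) (m59ci_nu κ a l8 t0 ln) β γ
      (m59ci_r κ a l8 t0 ln ch ee) (m59ci_s κ a l8 t0 ln ch ε8 εn)) := by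
  classical
  have h𝔟 : 𝔟 ≠ ⊤ := fun h => h𝔞 (top_le_iff.mp (h ▸ h𝔟𝔞))
  haveI := twc_lv_B_isLocalRing h𝔟
  have hfinB := twc_lv_B_finite (𝔟 := 𝔟) hS
  obtain ⟨γ0, hγs, hγz⟩ := m59ci_sys_present sys
  have hJ : ∀ f ∈ m59b_J 𝒪 κ a l8 t0 ln, γ0 f = 0 :=
    fun f hf => RingHom.mem_ker.1 (sys.rel γ0 hγz hf)
  set lift : m59b_R 𝒪 κ a l8 t0 ln →ₐ[𝒪] sys.T :=
    Ideal.Quotient.liftₐ (m59b_J 𝒪 κ a l8 t0 ln) γ0 hJ with hliftdef
  have hlift : ∀ f, lift (Ideal.Quotient.mk _ f) = γ0 f := fun f => rfl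
  have hlift_surj : Function.Surjective lift := by
    intro t
    obtain ⟨f, rfl⟩ := hγs t
    exact ⟨Ideal.Quotient.mk _ f, rfl⟩
  -- `σ`
  have hY : ∀ i : Fin rr, ∃ Y : m59b_P 𝒪 T8 Tn κ, γ0 Y = sys.u i - 1 := fun i => hγs _
  choose Y hY using hY
  have hmem : ∀ i, Ideal.Quotient.mk (m59b_J 𝒪 κ a l8 t0 ln) (Y i) ∈
      maximalIdeal (m59b_R 𝒪 κ a l8 t0 ln) := by
    intro i
    rw [mem_maximalIdeal, mem_nonunits_iff]
    intro hu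
    have h1 : IsUnit (lift (Ideal.Quotient.mk _ (Y i))) := hu.map lift
    rw [hlift, hY i] at h1
    exact (mem_maximalIdeal _).1 (sys.u_mem i) h1
  set σ : MvPowerSeries (Fin rr) 𝒪 →ₐ[𝒪] m59b_R 𝒪 κ a l8 t0 ln :=
    s56ps_eval (𝒪 := 𝒪) (fun i => Ideal.Quotient.mk (m59b_J 𝒪 κ a l8 t0 ln) (Y i)) hmem with hσdef
  have hσX : ∀ i, lift (σ (X i)) = sys.u i - 1 := by
    intro i
    rw [hσdef, s56ps_eval_X, hlift, hY i]
  -- `α`
  let α : ∀ k : Fin (m + 1), m59b_R 𝒪 κ a l8 t0 ln →+*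
      Matrix (Fin (d k)) (Fin (d k)) (MvPowerSeries (Fin rr) 𝒪 ⧸ 𝔟) :=
    fun k => (((sys.act k).comp lift : _ →ₐ[𝒪] _) : _ →+* _)
  have hα : ∀ k f, α k f = sys.act k (lift f) := fun k f => rfl
  have hασ : ∀ k s, α k (σ s) = Matrix.scalar (Fin (d k)) (Ideal.Quotient.mk 𝔟 s) := by
    intro k
    let f1 : MvPowerSeries (Fin rr) 𝒪 →+*
        Matrix (Fin (d k)) (Fin (d k)) (MvPowerSeries (Fin rr) 𝒪 ⧸ 𝔟) :=
      ((((sys.act k).comp lift).comp σ : _ →ₐ[𝒪] _) : _ →+* _)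
    let f2 : MvPowerSeries (Fin rr) 𝒪 →+*
        Matrix (Fin (d k)) (Fin (d k)) (MvPowerSeries (Fin rr) 𝒪 ⧸ 𝔟) :=
      (Matrix.scalar (Fin (d k))).comp (Ideal.Quotient.mk 𝔟)
    have key : f1 = f2 := by
      refine twc_lv_ringHom_ext_matrix hfinB f1 f2 ?_ ?_
      · intro c
        show (((sys.act k).comp lift).comp σ) (C c) =
          Matrix.scalar (Fin (d k)) (Ideal.Quotient.mk 𝔟 (C c))
        rw [show (C c : MvPowerSeries (Fin rr) 𝒪) = algebraMap 𝒪 _ c from rfl, AlgHom.commutes,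
          Matrix.algebraMap_eq_diagonal]
        rfl
      · intro i
        show sys.act k (lift (σ (X i))) = Matrix.scalar (Fin (d k)) (Ideal.Quotient.mk 𝔟 (X i))
        rw [hσX, map_sub, map_one, sys.act_u k i, map_add, map_one, add_sub_cancel_left]
    intro s
    exact RingHom.congr_fun key s
  -- the trace coordinate and the sign at the step `k`
  let tR : Fin m → m59b_R 𝒪 κ a l8 t0 ln :=
    fun k => Ideal.Quotient.mk _ (m59ci_tP κ a t0 (ch k))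
  let εc : Fin m → ℤ := fun k => Sum.elim ε8 εn (ch k)
  have hεc : ∀ k, εc k * εc k = 1 := by
    intro k
    show Sum.elim ε8 εn (ch k) * Sum.elim ε8 εn (ch k) = 1
    rcases ch k with t | l
    · exact hε8 t
    · exact hεn l
  have htR : ∀ k, lift (tR k) = m59ci_trT a t0 sys.z (ch k) := fun k =>
    (hlift _).trans (m59ci_gamma_tP (a := a) (t0 := t0) hγz (ch k))
  have hs : ∀ k, m59ci_s κ a l8 t0 ln ch ε8 εn k =
      (((m59ci_lc l8 ln (ch k) : ℕ) : m59b_R 𝒪 κ a l8 t0 ln) + 1) - εc k • tR k := by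
    intro k
    show Ideal.Quotient.mk _ (m59lw_s κ a l8 t0 ln ε8 εn (ch k)) = _
    rw [m59ci_lw_s_eq, map_sub, map_add, map_one, map_natCast, map_mul, map_intCast,
      zsmul_eq_mul]
  have hr : ∀ k, m59ci_r κ a l8 t0 ln ch ee k =
      (tR k ^ 2 - (((m59ci_lc l8 ln (ch k) : ℕ) : m59b_R 𝒪 κ a l8 t0 ln) + 1) ^ 2) ^ ee k := by
    intro k
    show Ideal.Quotient.mk _ (m59lw_r κ a l8 t0 ln (ch k)) ^ ee k = _
    rw [m59ci_lw_r_eq, map_sub, map_pow, map_pow, map_add, map_one, map_natCast]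
  -- the steps
  have hstep : ∀ k : Fin m, ∃ (p : Matrix (Fin (e k)) (Fin (d k.succ)) (MvPowerSeries (Fin rr) 𝒪 ⧸ 𝔟))
      (q : Matrix (Fin (d k.succ)) (Fin (e k)) (MvPowerSeries (Fin rr) 𝒪 ⧸ 𝔟))
      (alN : m59b_R 𝒪 κ a l8 t0 ln →+*
        Matrix (Fin (e k)) (Fin (e k)) (MvPowerSeries (Fin rr) 𝒪 ⧸ 𝔟))
      (ρ' : Matrix (Fin (d k.succ)) (Fin (d k.castSucc)) (MvPowerSeries (Fin rr) 𝒪 ⧸ 𝔟))
      (Z : Matrix (Fin (d k.castSucc)) (Fin (d k.succ)) (MvPowerSeries (Fin rr) 𝒪 ⧸ 𝔟)),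
      p * q = 1 ∧ (∀ f, p * α k.succ f = alN f * p) ∧
      (sys.A' k - εc k • sys.B' k) * ρ' = 1 ∧
      (∀ f, (sys.A' k - εc k • sys.B' k) * α k.succ f =
        α k.castSucc f * (sys.A' k - εc k • sys.B' k)) ∧
      (sys.A' k - εc k • sys.B' k) * (1 - q * p) =
        α k.castSucc (m59ci_s κ a l8 t0 ln ch ε8 εn k) * Z ∧
      alN (m59ci_r κ a l8 t0 ln ch ee k) = 0 ∧ (∀ f, alN f = p * α k.succ f * q) := by
    intro k
    obtain ⟨L1, L2, hL1A, hL1B, hL2A, hL2B⟩ := sys.split k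
    obtain ⟨V1, hAV, hBV⟩ := sys.onto k
    obtain ⟨Y1, Y2, hYk⟩ := sys.new k
    have hl : lift (((m59ci_lc l8 ln (ch k) : ℕ) : m59b_R 𝒪 κ a l8 t0 ln) + 1) =
        ((m59ci_lc l8 ln (ch k) : ℕ) : sys.T) + 1 := by
      rw [map_add, map_natCast, map_one]
    obtain ⟨p, q, alN, h1, h2, h3, h4, h5, h6, h7⟩ := m59ci_abs_step (he k) (α k.castSucc)
      (α k.succ) (sys.A k) (sys.B k) (sys.A' k) (sys.B' k) (m59ci_lc l8 ln (ch k)) (εc k) (hεc k)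
      (tR k) (fun f => sys.A_act k (lift f)) (fun f => sys.B_act k (lift f))
      (fun f => sys.A'_act k (lift f)) (fun f => sys.B'_act k (lift f))
      (by rw [hα, hl]; exact sys.A'_A k) (by rw [hα, hl]; exact sys.B'_B k)
      (by rw [hα, htR]; exact sys.A'_B k) (by rw [hα, htR]; exact sys.B'_A k)
      L1 L2 hL1A hL1B hL2A hL2B V1 hAV hBV (m59ci_r κ a l8 t0 ln ch ee k) Y1 Y2
      (by
        have hlr : lift (m59ci_r κ a l8 t0 ln ch ee k) =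
            (m59ci_trT a t0 sys.z (ch k) ^ 2 -
              (((m59ci_lc l8 ln (ch k) : ℕ) : sys.T) + 1) ^ 2) ^ ee k := by
          rw [hr]
          simp only [map_pow, map_sub]
          rw [hl, htR]
        rw [hα, hlr]
        exact hYk)
    refine ⟨p, q, alN, V1, L1 - εc k • L2, h1, h2, h3, h4, ?_, h6, h7⟩
    rw [hs]
    exact h5
  choose p q alN ρ' Z h1 h2 h3 h4 h5 h6 h7 using hstep
  -- `π`
  let π : m59b_R 𝒪 κ a l8 t0 ln →+* T0 := ((sys.π0.comp lift : _ →ₐ[𝒪] T0) : _ →+* T0)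
  have hπ : ∀ f, π f = sys.π0 (lift f) := fun f => rfl
  have hπsurj : Function.Surjective π := fun t => by
    obtain ⟨t', rfl⟩ := sys.π0_surjective t
    obtain ⟨f, rfl⟩ := hlift_surj t'
    exact ⟨f, rfl⟩
  have hνn : ∀ c : K, ∃ f : m59b_R 𝒪 κ a l8 t0 ln, π f = γ c := fun c => hπsurj _
  choose νn hνn using hνn
  have hπσ : ∀ t, π (σ t) = m59ci_theta 𝒪 rr T0 t := by
    have key : π.comp (σ : MvPowerSeries (Fin rr) 𝒪 →+* m59b_R 𝒪 κ a l8 t0 ln) =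
        m59ci_theta 𝒪 rr T0 := by
      refine m59ci_ringHom_ext_T0 I0 hT0 _ _ ?_ ?_
      · intro c
        show sys.π0 (lift (σ (C c))) = m59ci_theta 𝒪 rr T0 (C c)
        rw [show (C c : MvPowerSeries (Fin rr) 𝒪) = algebraMap 𝒪 _ c from rfl, AlgHom.commutes,
          AlgHom.commutes, AlgHom.commutes, m59ci_theta_algebraMap]
      · intro i
        show sys.π0 (lift (σ (X i))) = m59ci_theta 𝒪 rr T0 (X i)
        rw [hσX, map_sub, map_one, sys.π0_u, sub_self]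
        simp [m59ci_theta]
    intro t
    exact RingHom.congr_fun key t
  exact ⟨{
    σ := (σ : MvPowerSeries (Fin rr) 𝒪 →+* m59b_R 𝒪 κ a l8 t0 ln)
    σ_algebraMap := σ.commutes
    α := α
    α_σ := hασ
    αN := alN
    αN_σ := fun k t => by
      have h := hασ k.succ t
      rw [h7]
      show p k * α k.succ (σ t) * q k = _
      rw [h]
      exact m59ci_mul_scalar_mul (p k) (q k) (h1 k) _
    p := p
    q := q
    j' := fun k => sys.A' k - εc k • sys.B' k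
    ρ' := ρ'
    Z := Z
    X := fun k => α k.castSucc (m59ci_s κ a l8 t0 ln ch ε8 εn k)
    p_q := h1
    p_α := h2
    j'_ρ' := h3
    j'_α := h4
    X_comm := fun k f => by rw [← map_mul, mul_comm, map_mul]
    X_nil := fun k => by rw [sub_self, pow_one]
    j'_Z := h5
    αN_r := h6
    un := m59ci_u κ a l8 t0 ln
    α_un := fun i => by
      show sys.act 0 (lift (Ideal.Quotient.mk _ (m59b_u 𝒪 κ i))) = 0
      rw [hlift, m59ci_gamma_u hγz]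
      exact sys.unr0 i
    un_u := fun i => by rw [sub_self]; exact Ideal.zero_mem _
    π := π
    α_mod := fun f => sys.act_mod (lift f)
    π_ν := fun c => by
      rw [hπ, hliftdef, m59ci_gamma_nu hγz hJ c]
      exact sys.π0_ν c
    νn := νn
    π_νn := hνn
    π_σ := hπσ }⟩

end main

/-! ### the cut of [CI-LEVEL] -/

open Polynomial CuspForm WeierstrassCurve in
/-- **[CI-SYS]** (cases (d0), (II)): `m59ci_Level_stmt` with, for every `n`, a chain system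
`m59ci_LvSys` in place of the level datum `m59d_ChainLevel` (and the rank condition
`e k + 2 d k = d (k + 1)`). -/
def m59ci_Sys_stmt (Peu : m59e_PeuPred) : Prop :=
  ∀ (p : ℕ) [Fact p.Prime], p = 3 ∨ p = 5 → ∀ W : WeierstrassCurve ℤ, W.Δ ≠ 0 →
    W.IsSemistableModel →
  ∀ (𝒪 : Type) [CommRing 𝒪] [IsDomain 𝒪] [IsDiscreteValuationRing 𝒪]
    [IsAdicComplete (maximalIdeal 𝒪) 𝒪] [Finite (ResidueField 𝒪)] [CharZero 𝒪],
    (p : 𝒪) ∈ maximalIdeal 𝒪 → (∃ ζ : 𝒪, IsPrimitiveRoot ζ p) →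
  ∀ ρ : GaloisRepAdic 𝒪, m59e_IsTate p W ρ →
  ∀ (S : Finset ℕ) (N₁ : ℕ), m59e_IsBadSet W p S → Squarefree N₁ →
    (∀ ℓ : ℕ, ℓ.Prime → ℓ ∣ N₁ → ℓ ∈ S) →
    m59e_Occ p W S N₁ →
    (∀ q : ℕ, q.Prime → q ≠ p → q ∣ N₁ → ¬ ρ.residual.IsUnramifiedAt q) →
    (p ∣ N₁ → ¬ m59e_Occ p W S (N₁ / p)) →
    (p ∣ N₁ → ¬ Peu (ResidueField 𝒪) ρ.residual p) →
    (W.IsGoodPrimeFor p → ¬ p ∣ N₁) →
    (W.IsGoodPrimeFor p ∨ p ∣ N₁) →
    ∃ (S' : Finset ℕ) (N : ℕ) (_ : NeZero N),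
      S ⊆ S' ∧ Squarefree N ∧ (∀ ℓ : ℕ, ℓ.Prime → ℓ ∣ N → ℓ ∈ S') ∧
      ∃ (T8 Tn κ : Type) (_ : Fintype T8) (_ : Fintype Tn) (_ : Fintype κ)
        (a : T8 → 𝒪) (l8 : T8 → ℕ) (t0 : Tn → 𝒪) (ln : Tn → ℕ) (ε8 : T8 → ℤ) (εn : Tn → ℤ)
        (m : ℕ) (ch : Fin m → T8 ⊕ Tn) (ee : Fin m → ℕ) (rr : ℕ)
        (d : Fin (m + 1) → ℕ) (e : Fin m → ℕ)
        (T0 : Type) (_ : CommRing T0) (_ : Algebra 𝒪 T0) (_ : Module.Finite 𝒪 T0)
        (x₂ : T0 →ₐ[𝒪] 𝒪)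
        (j : T0 →+* Matrix (Fin (d (Fin.last m))) (Fin (d (Fin.last m)))
          (MvPowerSeries (Fin rr) 𝒪 ⧸ twds_a 𝒪 rr))
        (β : (T8 × Fin 6) ⊕ Tn → T0)
        (act : heckeAlgebra N 2 (↑S' : Set ℕ) →+*
          Matrix (Fin (d (Fin.last m))) (Fin (d (Fin.last m)))
            (MvPowerSeries (Fin rr) 𝒪 ⧸ twds_a 𝒪 rr)),
        Function.Bijective ch ∧ (∀ t, l8 t % p = 1) ∧ (∀ t, 2 ≤ l8 t) ∧
        (∀ t, a t ^ 2 - (l8 t : 𝒪) ∈ maximalIdeal 𝒪) ∧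
        (∀ t, ε8 t * ε8 t = 1) ∧ (∀ l, εn l * εn l = 1) ∧
        rr = Fintype.card κ + 3 * Fintype.card T8 + Fintype.card Tn ∧ 0 < d 0 ∧
        (∀ k : Fin m, e k + 2 * d k.castSucc = d k.succ) ∧
        (∀ c, x₂ (β c) = m59ci_xval l8 ln ε8 εn c) ∧
        (∀ n : ℕ, Nonempty (m59ci_LvSys 𝒪 rr d κ a l8 t0 ln ch ee (twds_a 𝒪 rr)
          (twds_b 𝒪 rr (p ^ n)) (twds_b_le_a rr (p ^ n)) T0 j β)) ∧
        ∀ (ℓ : ℕ) (hℓ : ℓ.Prime) (hℓN : ¬ ℓ ∣ N) (hℓS : ℓ ∉ (↑S' : Set ℕ)),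
          ∃ t : T0, j t = act (heckeAlgebra.T hℓ hℓN hℓS) ∧
            x₂ t = ((W.apOfModel ℓ : ℤ) : 𝒪)

/-- **[CI-LEVEL] from [CI-SYS]**: `m59ci_level_of_sys` at every `n`. -/
theorem m59ci_level_of_sysStmt (Peu : m59e_PeuPred) (h : m59ci_Sys_stmt Peu) :
    m59ci_Level_stmt Peu := by
  intro p hpF hp W hΔ hW 𝒪 _ _ _ _ _ _ hp𝒪 hζ ρ hT S N₁ hS hN₁sq hN₁S hOcc hram hII hpeu hgood
    hcase
  obtain ⟨S', N, hNZ, hSS', hNsq, hNS', T8, Tn, κ, _, _, _, a, l8, t0, ln, ε8, εn, m, ch, ee,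
    rr, d, e, T0, _, _, _, x₂, j, β, act, hch, hl8, hl8', han, hε8, hεn, hrr, hd0, he, hβ, hsys,
    hact⟩ :=
    h p hp W hΔ hW 𝒪 hp𝒪 hζ ρ hT S N₁ hS hN₁sq hN₁S hOcc hram hII hpeu hgood hcase
  obtain ⟨lam, hlam⟩ := IsDiscreteValuationRing.exists_irreducible 𝒪
  have hmax : maximalIdeal 𝒪 = Ideal.span {lam} :=
    (IsDiscreteValuationRing.irreducible_iff_uniformizer lam).1 hlam
  obtain ⟨nK, γ, hγ⟩ := Module.Finite.exists_fin (R := 𝒪) (M := T0)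
  haveI hloc : IsLocalRing (m59b_R 𝒪 κ a l8 t0 ln) := m59b_R_isLocalRing 𝒪 κ a l8 t0 ln han
  haveI hcomplR : IsAdicComplete (maximalIdeal (m59b_R 𝒪 κ a l8 t0 ln)) (m59b_R 𝒪 κ a l8 t0 ln) :=
    m59b_R_isAdicComplete 𝒪 κ a l8 t0 ln
  haveI hcomplT0 : IsAdicComplete (Ideal.span {algebraMap 𝒪 T0 lam}) T0 := m59ci_complT0 lam hmax
  refine ⟨S', N, hNZ, hSS', hNsq, hNS', T8, Tn, κ, inferInstance, inferInstance, inferInstance,
    a, l8, t0, ln, ε8, εn, m, ch, ee, rr, d, e, 1, T0, inferInstance, inferInstance,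
    inferInstance, x₂, j, Fin nK, inferInstance, γ, β, act, hch, hl8, hl8', han, hε8, hεn, hrr,
    hd0, hγ, hβ, ?_, hact⟩
  intro n
  obtain ⟨sys⟩ := hsys n
  exact m59ci_level_of_sys (twds_a_isPrime 𝒪 rr).ne_top (twds_finite_quot rr)
    (Ideal.span {algebraMap 𝒪 T0 lam}) (twd_t0_finite_quot lam hmax) he ε8 hε8 εn hεn γ sys

end

end Fermat.Agent.M59
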