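import Fermat.Agent.M59.Top.Chain.ArithCore
import Fermat.Agent.M59.Act.Trace
import Fermat.Agent.M59.S38g.CTop.FramesType
import Fermat.Agent.M59.Top.Chain.LevelOfSys
import Fermat.Agent.M59.S38g.Ord.Entry
import Fermat.Agent.M59.S38g.Ord.CTop.Type

/-!
M59 / [CHAIN-inst], **[CI-ARITH]**, the wiring of the leaf [CI-SYS] (helper25, deputy; ruling #48).
Prefix `m59ci_`.

`m59ci_sysStmt_of : m59mo_TresDict_stmt Peu → m59ci_Chain0_stmt → m59ci_Act_stmt → m59ci_U_stmt →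
    m59ci_PairTop_stmt → m59ci_Cot_stmt → m59ci_Sys_stmt Peu`  (PROVED; every hypothesis is a closed
theorem at `Peu := m59rp_Peu`: M59/Top/Chain/SysClosed.lean).

The arithmetic of the chain:
* the rigidifier `r₀` (`m59ci_rigid_num`), base level `N₀ = N₁ r₀`;
* the chain primes `Th` = the primes `ℓ ∈ S`, `ℓ ≠ p`, `ℓ ∤ N₁` where `ρ_W` is RAMIFIED (there `ρ̄` is
  unramified: helper2's `m59lg_unrOdd`); base bad set `S₀ = (S ∖ Th) ∪ {r₀}`; `Smin` = the primes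
  `q ≠ p` of `N₁` (= the primes where `ρ̄` is ramified);
* the frame `rW` of `ρ_W` (`exists_framedRep`), tame generators (`m59ct_tameGen`), the splitting
  `Th = T8 ⊔ Tn` (Frobenius scalar / non-scalar modulo `𝔪`), the adapted frames `m59ci_frame`;
* the eigensystems: `θ₀` at level `N₁` away from `S ∖ Th` (helper2's `m59lg_entryExt`), lifted to
  every level of the chain (`m59e_compat_lift`);
* the core `m59ci_sys_core`, and the link with the Hecke operators (`m59ac_trace_frob`,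
  `m59ci_trace_frob_W`).
-/

set_option autoImplicit false
set_option linter.style.haveILetI false
set_option linter.unusedSectionVars false
set_option linter.unusedVariables false

open Polynomial CuspForm IsLocalRing WeierstrassCurve ExtCitation
open Fermat.Agent.S53 Fermat.Agent.S56 Fermat.Agent.TW Fermat.Agent.JT3 Fermat.Agent.S55
open Fermat.Agent.SS Fermat.Agent.DS

namespace Fermat.Agent.M59

noncomputable section

local notation "GQ" => (AlgebraicClosure ℚ ≃ₐ[ℚ] AlgebraicClosure ℚ)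
local notation "Qbar" => AlgebraicClosure ℚ

/-- a natural number `≡ 1 mod p` is `1` in a ring where `p ∈ 𝔪`, modulo `𝔪`. -/
theorem m59ci_one_sub_mem {𝒪 : Type*} [CommRing 𝒪] [IsLocalRing 𝒪] {p : ℕ}
    (hp𝒪 : (p : 𝒪) ∈ maximalIdeal 𝒪) {ℓ : ℕ} (h : ℓ % p = 1) :
    (1 : 𝒪) - (ℓ : 𝒪) ∈ maximalIdeal 𝒪 := by
  have e : ℓ = p * (ℓ / p) + 1 := by
    have := Nat.div_add_mod ℓ p
    omega
  have e' : (ℓ : 𝒪) = (p : 𝒪) * ((ℓ / p : ℕ) : 𝒪) + 1 := by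
    conv_lhs => rw [e]
    push_cast
    ring
  rw [e']
  have : (1 : 𝒪) - ((p : 𝒪) * ((ℓ / p : ℕ) : 𝒪) + 1) = (p : 𝒪) * (-((ℓ / p : ℕ) : 𝒪)) := by ring
  rw [this]
  exact Ideal.mul_mem_right _ _ hp𝒪

/-- a matrix which is scalar modulo `𝔪` stays the same scalar modulo `𝔪` in every frame. -/
theorem m59ci_scalar_frame {𝒪 : Type*} [CommRing 𝒪] [IsLocalRing 𝒪]
    (Φ g gi : Matrix (Fin 2) (Fin 2) 𝒪) (hgig : gi * g = 1) (c : ResidueField 𝒪)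
    (hc : Φ.map (residue 𝒪) = Matrix.scalar (Fin 2) c) (i j : Fin 2) :
    residue 𝒪 ((gi * Φ * g) i j) = (Matrix.scalar (Fin 2) c) i j := by
  have h1 : (gi * Φ * g).map (residue 𝒪) = Matrix.scalar (Fin 2) c := by
    rw [Matrix.map_mul, Matrix.map_mul, hc]
    have h2 : gi.map (residue 𝒪) * g.map (residue 𝒪) = 1 := by
      rw [← Matrix.map_mul, hgig, Matrix.map_one _ (map_zero _) (map_one _)]
    have h3 : (Matrix.scalar (Fin 2) c : Matrix (Fin 2) (Fin 2) (ResidueField 𝒪)) =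
        c • (1 : Matrix (Fin 2) (Fin 2) (ResidueField 𝒪)) := by
      ext i j
      simp [Matrix.scalar_apply, Matrix.diagonal_apply, Matrix.one_apply]
    rw [h3, Matrix.mul_smul, Matrix.mul_one, Matrix.smul_mul, h2]
  have := congrFun (congrFun h1 i) j
  rwa [Matrix.map_apply] at this

/-- **[CI-SYS] from its cells.** -/
theorem m59ci_sysStmt_of (Peu : m59e_PeuPred) (hTD : m59mo_TresDict_stmt Peu)
    (hE : m59ci_Chain0_stmt) (hA : m59ci_Act_stmt) (hU : m59ci_U_stmt)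
    (hP : m59ci_PairTop_stmt) (hC : m59ci_Cot_stmt) : m59ci_Sys_stmt Peu := by
  classical
  intro p hpF hp W hΔ hW 𝒪 _ _ _ _ _ _ hp𝒪 hζ ρ hT S N₁ hS hN₁sq hN₁S hOcc hram hII hpeu hgoodN
    hcase
  obtain ⟨ζ, hζ⟩ := hζ
  have hpp : p.Prime := hpF.out
  have hp2 : p ≠ 2 := by rcases hp with rfl | rfl <;> norm_num
  haveI : CharP (ResidueField 𝒪) p := s56a_charP p hp𝒪
  haveI : NeZero N₁ := ⟨hN₁sq.ne_zero⟩
  -- `ρ̄` is unramified outside `N₁ p`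
  have hunrbar : ∀ q : ℕ, q.Prime → q ≠ p → ¬ q ∣ N₁ → ρ.residual.IsUnramifiedAt q :=
    fun q hq hqp hqN => m59lg_unrOdd p hp W hΔ hW 𝒪 hp𝒪 ρ hT S N₁ q hS hN₁sq hN₁S hq hqp hqN hOcc
  -- the frame of `ρ_W`
  obtain ⟨rW, hWeq⟩ := exists_framedRep ρ
  obtain ⟨eW⟩ := hWeq
  have hWeq : ρ.IsEquiv rW.toGaloisRepAdic := ⟨eW⟩
  have hdet : rW.toGaloisRepAdic.DetIsCyclotomic p := s56t_tr_detIsCyclotomic eW hT.det
  have hunip : ∀ q : ℕ, q.Prime → q ≠ p → rW.toGaloisRepAdic.IsUnipotentOnInertiaAt q :=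
    fun q hq hqp => s56t_tr_isUnipotentOnInertiaAt eW (hT.unip q hq hqp)
  -- the rigidifier
  obtain ⟨r₀, hr₀, hrig⟩ := m59ci_rigid_num p hp hΔ hp𝒪 ρ hT S N₁
  -- the chain primes
  set ThN : Finset ℕ := S.filter (fun q => q.Prime ∧ q ≠ p ∧ ¬ q ∣ N₁ ∧ ¬ ρ.IsUnramifiedAt q)
    with hThN
  set Th : Finset Nat.Primes := (ThN.subtype Nat.Prime : Finset {n : ℕ // n.Prime}) with hThdef
  have hThmem : ∀ ℓ : Nat.Primes, ℓ ∈ Th ↔ ((ℓ : ℕ) ∈ S ∧ (ℓ : ℕ) ≠ p ∧ ¬ (ℓ : ℕ) ∣ N₁ ∧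
      ¬ ρ.IsUnramifiedAt (ℓ : ℕ)) := by
    intro ℓ
    refine (@Finset.mem_subtype ℕ Nat.Prime _ ThN ℓ).trans ?_
    rw [hThN, Finset.mem_filter]
    constructor
    · rintro ⟨h1, -, h2, h3, h4⟩
      exact ⟨h1, h2, h3, h4⟩
    · rintro ⟨h1, h2, h3, h4⟩
      exact ⟨h1, ℓ.2, h2, h3, h4⟩
  have hThp : ∀ ℓ ∈ Th, ((ℓ : Nat.Primes) : ℕ) ≠ p := fun ℓ hℓ => ((hThmem ℓ).1 hℓ).2.1
  -- the tame generators, the splitting `Th = T8 ⊔ Tn`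
  obtain ⟨td₀, hgen₀⟩ := m59ct_tameGen p Th hThp
  set T8 : Finset Nat.Primes :=
    Th.filter (fun ℓ => ∃ c, rW.residual (td₀.gφ ℓ) = Matrix.scalar (Fin 2) c) with hT8def
  set Tn : Finset Nat.Primes :=
    Th.filter (fun ℓ => ¬ ∃ c, rW.residual (td₀.gφ ℓ) = Matrix.scalar (Fin 2) c) with hTndef
  have hdisj : Disjoint T8 Tn := Finset.disjoint_filter_filter_not _ _ _
  have hsub : T8 ∪ Tn ⊆ Th := by
    intro ℓ hℓ
    rcases Finset.mem_union.1 hℓ with h | h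
    · exact (Finset.mem_filter.1 h).1
    · exact (Finset.mem_filter.1 h).1
  have hsup : Th ⊆ T8 ∪ Tn := by
    intro ℓ hℓ
    by_cases h : ∃ c, rW.residual (td₀.gφ ℓ) = Matrix.scalar (Fin 2) c
    · exact Finset.mem_union_left _ (Finset.mem_filter.2 ⟨hℓ, h⟩)
    · exact Finset.mem_union_right _ (Finset.mem_filter.2 ⟨hℓ, h⟩)
  set td : m59c_TameData p (T8 ∪ Tn) := m59ci_tdRestrict hsub td₀ with htd
  have hgen : m59ct_InertiaGen td := m59ci_inertiaGen_restrict hsub td₀ hgen₀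
  have hUmem : ∀ ℓ ∈ T8 ∪ Tn, ((ℓ : Nat.Primes) : ℕ) ∈ S ∧ ((ℓ : Nat.Primes) : ℕ) ≠ p ∧
      ¬ ((ℓ : Nat.Primes) : ℕ) ∣ N₁ ∧ ¬ ρ.IsUnramifiedAt ((ℓ : Nat.Primes) : ℕ) :=
    fun ℓ hℓ => (hThmem ℓ).1 (hsub hℓ)
  -- the enumeration
  set m : ℕ := Fintype.card (↥T8 ⊕ ↥Tn) with hmdef
  set ch : Fin m → ↥T8 ⊕ ↥Tn := fun k => (Fintype.equivFin (↥T8 ⊕ ↥Tn)).symm k with hchdef
  have hch : Function.Bijective ch := (Fintype.equivFin (↥T8 ⊕ ↥Tn)).symm.bijective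
  set l : Fin m → ℕ := m59ci_lch ch with hldef
  have hlmem : ∀ k, ∃ ℓ ∈ T8 ∪ Tn, l k = ((ℓ : Nat.Primes) : ℕ) := m59ci_lch_mem ch
  have hlinj : Function.Injective l := m59ci_lch_injective hdisj ch hch
  have hlp : ∀ i, (l i).Prime := fun i => by
    obtain ⟨ℓ, -, hli⟩ := hlmem i
    rw [hli]
    exact ℓ.2
  -- the base level and the base bad set
  set N₀ : ℕ := N₁ * r₀ with hN₀def
  set S₀ : Finset ℕ := (S \ ThN) ∪ r₀.primeFactors with hS₀def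
  have hr₀0 : r₀ ≠ 0 := by
    rcases hr₀ with h | h
    · rw [h]; exact one_ne_zero
    · exact h.1.ne_zero
  haveI : NeZero N₀ := ⟨mul_ne_zero hN₁sq.ne_zero hr₀0⟩
  have hr₀S : ∀ q ∈ r₀.primeFactors, q ∉ S ∧ q ≠ p ∧ q = r₀ := by
    intro q hq
    rcases hr₀ with h | h
    · rw [h] at hq
      simp at hq
    · rw [Nat.Prime.primeFactors h.1, Finset.mem_singleton] at hq
      subst hq
      exact ⟨h.2.1, h.2.2.1, rfl⟩
  have hThNmem : ∀ q : ℕ, q ∈ ThN → ∃ ℓ ∈ Th, ((ℓ : Nat.Primes) : ℕ) = q := by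
    intro q hq
    have hq' := (Finset.mem_filter.1 hq)
    exact ⟨⟨q, hq'.2.1⟩, (hThmem _).2 ⟨hq'.1, hq'.2.2.1, hq'.2.2.2.1, hq'.2.2.2.2⟩, rfl⟩
  have hpS₀ : p ∈ S₀ := by
    refine Finset.mem_union_left _ (Finset.mem_sdiff.2 ⟨hS.1, fun h => ?_⟩)
    exact (Finset.mem_filter.1 h).2.2.1 rfl
  have hN₀S₀ : ∀ q : ℕ, q.Prime → q ∣ N₀ → q ∈ S₀ := by
    intro q hq hqN
    rcases (Nat.Prime.dvd_mul hq).1 hqN with h | h
    · refine Finset.mem_union_left _ (Finset.mem_sdiff.2 ⟨hN₁S q hq h, fun h' => ?_⟩)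
      exact (Finset.mem_filter.1 h').2.2.2.1 h
    · exact Finset.mem_union_right _ (Nat.mem_primeFactors.2 ⟨hq, h, hr₀0⟩)
  have hThS₀ : ∀ ℓ ∈ T8 ∪ Tn, ((ℓ : Nat.Primes) : ℕ) ∉ S₀ := by
    intro ℓ hℓ h
    obtain ⟨h1, h2, h3, h4⟩ := hUmem ℓ hℓ
    rcases Finset.mem_union.1 h with h | h
    · exact (Finset.mem_sdiff.1 h).2 (Finset.mem_filter.2 ⟨h1, ℓ.2, h2, h3, h4⟩)
    · exact (hr₀S _ h).1 h1
  have hN₀sq : Squarefree N₀ := by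
    rcases hr₀ with h | h
    · rw [hN₀def, h, mul_one]; exact hN₁sq
    · refine (Nat.squarefree_mul_iff).2 ⟨?_, hN₁sq, h.1.prime.squarefree⟩
      refine (Nat.Coprime.symm ((Nat.Prime.coprime_iff_not_dvd h.1).2 fun hd => ?_))
      exact h.2.1 (hN₁S r₀ h.1 hd)
  have hlN₀ : ∀ i, ¬ l i ∣ N₀ := by
    intro i hd
    obtain ⟨ℓ, hℓ, hli⟩ := hlmem i
    exact hThS₀ ℓ hℓ (hli ▸ hN₀S₀ (l i) (hlp i) hd)
  have hsq : Squarefree (m59ep_lvl N₀ l m) := m59ci_lvl_squarefree hN₀sq hlinj hlp hlN₀ m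
  haveI hNZ : ∀ k : ℕ, NeZero (m59ep_lvl N₀ l k) := fun k =>
    ⟨m59ci_lvl_ne_zero (NeZero.ne N₀) (fun i => (hlp i).ne_zero) k⟩
  -- the eigensystems
  have hsdS : S \ ThN ⊆ S := Finset.sdiff_subset
  have hpS1 : p ∈ S \ ThN :=
    Finset.mem_sdiff.2 ⟨hS.1, fun h => (Finset.mem_filter.1 h).2.2.1 rfl⟩
  have hN₁S1 : ∀ q : ℕ, q.Prime → q ∣ N₁ → q ∈ S \ ThN := fun q hq h =>
    Finset.mem_sdiff.2 ⟨hN₁S q hq h, fun h' => (Finset.mem_filter.1 h').2.2.2.1 h⟩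
  obtain ⟨θ₀, hc₀, -⟩ := m59lg_entryExt p hp W hΔ hW 𝒪 hp𝒪 ρ hT S (S \ ThN) N₁ hS hN₁sq hsdS hpS1
    hN₁S1 hOcc
  have hN₁lvl : ∀ k, N₁ ∣ m59ep_lvl N₀ l k := fun k =>
    dvd_trans (Dvd.intro _ rfl) (m59ci_dvd_lvl N₀ l k)
  have hS1bad : ∀ k, S \ ThN ⊆ m59ep_bad S₀ l k := fun k q hq =>
    m59ci_subset_bad S₀ l k (Finset.mem_union_left _ hq)
  have hlift := fun k => m59e_compat_lift (hN₁lvl k) (S \ ThN) (m59ep_bad S₀ l k) (hS1bad k)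
    (m59ci_lvl_primes_bad hlp hN₀S₀ k) θ₀ ρ.residual hc₀
  choose θ hθc hθeq using hlift
  obtain ⟨hyp, hunriff, hchar⟩ := m59ci_hypW hp𝒪 hT rW hWeq hN₁S1 θ₀ hc₀
  have hcompat : ∀ k, twt_Compat (θ k) rW.residual.toResidualGaloisRep := by
    intro k ℓ hℓ hℓN hℓS A hA σ hσ
    rw [← hchar σ]
    exact hθc k ℓ hℓ hℓN hℓS A hA σ hσ
  -- the primes where `ρ̄` is ramified
  set Smin : Finset ℕ := N₁.primeFactors.erase p with hSmindef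
  have hpSmin : p ∉ Smin := Finset.notMem_erase p _
  have hSminmem : ∀ q : ℕ, q ∈ Smin ↔ q ≠ p ∧ q.Prime ∧ q ∣ N₁ := by
    intro q
    rw [hSmindef, Finset.mem_erase, Nat.mem_primeFactors]
    constructor
    · rintro ⟨h1, h2, h3, -⟩
      exact ⟨h1, h2, h3⟩
    · rintro ⟨h1, h2, h3⟩
      exact ⟨h1, h2, h3, hN₁sq.ne_zero⟩
  have hSminN : ∀ q ∈ Smin, q.Prime ∧ q ∣ N₀ := fun q hq =>
    ⟨((hSminmem q).1 hq).2.1, dvd_trans ((hSminmem q).1 hq).2.2 (Dvd.intro _ rfl)⟩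
  have hmin : ∀ q : ℕ, q.Prime → q ≠ p →
      (q ∈ Smin ↔ ¬ rW.residual.toResidualGaloisRep.IsUnramifiedAt q) := by
    intro q hq hqp
    rw [← hunriff q, hSminmem q]
    constructor
    · rintro ⟨-, -, h3⟩
      exact hram q hq hqp h3
    · intro h
      refine ⟨hqp, hq, ?_⟩
      by_contra hqN
      exact h (hunrbar q hq hqp hqN)
  -- `ρ_W` at the chain primes
  have hTh : ∀ ℓ ∈ T8 ∪ Tn, ((ℓ : Nat.Primes) : ℕ) ∉ S₀ ∧ ((ℓ : Nat.Primes) : ℕ) ≠ p ∧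
      ¬ rW.toGaloisRepAdic.IsUnramifiedAt ((ℓ : Nat.Primes) : ℕ) := fun ℓ hℓ =>
    ⟨hThS₀ ℓ hℓ, (hUmem ℓ hℓ).2.1, fun h =>
      (hUmem ℓ hℓ).2.2.2 (s56t_tr_isUnramifiedAt eW.symm h)⟩
  have hresW : ∀ ℓ ∈ T8 ∪ Tn, ∀ τ ∈ (primeLocalPlace ℓ).inertiaSubgroupIn ℚ,
      twc_lr_In (maximalIdeal 𝒪) (rW τ - 1) := fun ℓ hℓ =>
    m59ci_hres_W rW hWeq ℓ (hunrbar ℓ ℓ.2 (hUmem ℓ hℓ).2.1 (hUmem ℓ hℓ).2.2.1)
  obtain ⟨ε, g, gi, hframe⟩ := m59ci_frame p hp𝒪 td hgen rW hdet (fun ℓ hℓ =>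
    ⟨(hUmem ℓ hℓ).2.1, hunip ℓ ℓ.2 (hUmem ℓ hℓ).2.1, (hTh ℓ hℓ).2.2, hresW ℓ hℓ⟩)
  -- the scalar-hard primes
  have hT8c : ∀ ℓ ∈ T8, ∃ c, rW.residual (td.gφ ℓ) = Matrix.scalar (Fin 2) c :=
    fun ℓ hℓ => (Finset.mem_filter.1 hℓ).2
  have hT8val : ∀ ℓ ∈ T8, ∀ c, rW.residual (td.gφ ℓ) = Matrix.scalar (Fin 2) c →
      residue 𝒪 (((ε ℓ : ℤ) : 𝒪)) = c ∧
      residue 𝒪 (((ε ℓ : ℤ) : 𝒪) * (((ℓ : Nat.Primes) : ℕ) : 𝒪)) = c := by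
    intro ℓ hℓ c hc
    obtain ⟨-, hgig, -, h00, -, h11, -, -, -⟩ := hframe ℓ (Finset.mem_union_left _ hℓ)
    have hc' : (rW (td.gφ ℓ)).map (residue 𝒪) = Matrix.scalar (Fin 2) c := hc
    have e11 := m59ci_scalar_frame (rW (td.gφ ℓ)) (g ℓ) (gi ℓ) hgig c hc' 1 1
    have e00 := m59ci_scalar_frame (rW (td.gφ ℓ)) (g ℓ) (gi ℓ) hgig c hc' 0 0
    rw [h11] at e11
    rw [h00] at e00
    constructor
    · rw [e11]; simp [Matrix.scalar_apply]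
    · rw [e00]; simp [Matrix.scalar_apply]
  have hscal : ∀ ℓ ∈ T8, rW.residual (td.gφ ℓ) =
      Matrix.scalar (Fin 2) (residue 𝒪 (((ε ℓ : ℤ) : 𝒪))) := by
    intro ℓ hℓ
    obtain ⟨c, hc⟩ := hT8c ℓ hℓ
    rw [(hT8val ℓ hℓ c hc).1]
    exact hc
  have hT8 : ∀ ℓ ∈ T8, ((ℓ : Nat.Primes) : ℕ) % p = 1 := by
    intro ℓ hℓ
    obtain ⟨c, hc⟩ := hT8c ℓ hℓ
    obtain ⟨h1, h2⟩ := hT8val ℓ hℓ c hc
    have hε := (hframe ℓ (Finset.mem_union_left _ hℓ)).1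
    have hεu : residue 𝒪 (((ε ℓ : ℤ) : 𝒪)) * residue 𝒪 (((ε ℓ : ℤ) : 𝒪)) = 1 := by
      rw [← map_mul, ← Int.cast_mul, hε, Int.cast_one, map_one]
    have h3 : ((((ℓ : Nat.Primes) : ℕ) : ℕ) : ResidueField 𝒪) = ((1 : ℕ) : ResidueField 𝒪) := by
      rw [map_mul, h1, map_natCast] at h2
      rw [h1] at hεu
      rw [Nat.cast_one]
      calc ((((ℓ : Nat.Primes) : ℕ) : ℕ) : ResidueField 𝒪)
          = (c * c) * ((((ℓ : Nat.Primes) : ℕ) : ℕ) : ResidueField 𝒪) := by rw [hεu, one_mul]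
        _ = c * (c * ((((ℓ : Nat.Primes) : ℕ) : ℕ) : ResidueField 𝒪)) := by ring
        _ = 1 := by rw [h2, hεu]
    have h4 := (CharP.natCast_eq_natCast (ResidueField 𝒪) p).1 h3
    rw [Nat.ModEq, Nat.mod_eq_of_lt hpp.one_lt] at h4
    exact h4
  -- the cyclic vectors at the non-scalar primes
  have hex : ∀ ℓ : Nat.Primes, ∃ e : Fin 2 → 𝒪, ℓ ∈ Tn →
      (m59c_cyc (rW.residual (td.gφ ℓ)) (fun i => residue 𝒪 (e i))).det ≠ 0 := by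
    intro ℓ
    by_cases hℓ : ℓ ∈ Tn
    · have hns : ∀ c, rW.residual (td.gφ ℓ) ≠ Matrix.scalar (Fin 2) c := fun c hc =>
        (Finset.mem_filter.1 hℓ).2 ⟨c, hc⟩
      obtain ⟨eb, heb⟩ := m59c_exists_cyc (rW.residual (td.gφ ℓ)) hns
      choose e he using fun i => residue_surjective (eb i)
      refine ⟨e, fun _ => ?_⟩
      have : (fun i => residue 𝒪 (e i)) = eb := funext he
      rw [this]
      exact heb
    · exact ⟨0, fun h => absurd h hℓ⟩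
  choose e hcyc' using hex
  have hcyc : ∀ ℓ ∈ Tn,
      (m59c_cyc (rW.residual (td.gφ ℓ)) (fun i => residue 𝒪 (e ℓ i))).det ≠ 0 :=
    fun ℓ hℓ => hcyc' ℓ hℓ
  -- `ρ_W` outside the chain
  have hunr : ∀ q : ℕ, q.Prime → q ≠ p → q ∉ Smin →
      q ∉ (T8 ∪ Tn).image (fun ℓ : Nat.Primes => (ℓ : ℕ)) →
      rW.toGaloisRepAdic.IsUnramifiedAt q := by
    intro q hq hqp hqSmin hqTh
    have hqN : ¬ q ∣ N₁ := fun h => hqSmin ((hSminmem q).2 ⟨hqp, hq, h⟩)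
    apply s56t_tr_isUnramifiedAt eW
    by_cases hqS : q ∈ S
    · by_contra hcon
      apply hqTh
      refine Finset.mem_image.2 ⟨⟨q, hq⟩, hsup ((hThmem _).2 ⟨hqS, hqp, hqN, hcon⟩), rfl⟩
    · have hg : W.IsGoodPrimeFor q := by
        by_contra hcon
        exact hqS (hS.2 q hq hcon)
      exact hT.unram q hq hqp hg
  have hharm : ∀ q : ℕ, q.Prime → q ∣ N₀ → q ≠ p → q ∉ Smin →
      m59m_IsHarmless p rW.residual.toResidualGaloisRep q := by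
    intro q hq hqN hqp hqSmin
    rcases (Nat.Prime.dvd_mul hq).1 hqN with h | h
    · exact absurd ((hSminmem q).2 ⟨hqp, hq, h⟩) hqSmin
    · rcases hr₀ with h0 | h0
      · rw [h0] at h
        exact absurd (Nat.dvd_one.1 h) hq.one_lt.ne'
      · have hqr : q = r₀ := (Nat.prime_dvd_prime_iff_eq hq h0.1).1 h
        rw [hqr]
        obtain ⟨e1⟩ := m59ci_res_equiv rW hWeq
        exact m59ct_harmless_of_equiv ⟨e1.symm⟩ h0.2.2.2.2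
  have hpr₀ : ¬ p ∣ r₀ := by
    intro h
    rcases hr₀ with h0 | h0
    · rw [h0] at h
      exact hpp.one_lt.ne' (Nat.dvd_one.1 h)
    · exact h0.2.2.1 ((Nat.prime_dvd_prime_iff_eq hpp h0.1).1 h).symm
  have hgood : W.IsGoodPrimeFor p → ¬ p ∣ N₀ ∧ rW.toGaloisRepAdic.IsFlatAt p := fun h =>
    ⟨fun hd => by
      rcases (Nat.Prime.dvd_mul hpp).1 hd with h1 | h1
      · exact hgoodN h h1
      · exact hpr₀ h1, s56t_tr_isFlatAt eW (hT.flat h)⟩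
  have hbad : ¬ W.IsGoodPrimeFor p → p ∣ N₀ ∧ rW.toGaloisRepAdic.IsOrdinaryAt p ∧
      m59mo_IsTres p rW.residual.toResidualGaloisRep := fun h => by
    have hpN₁ : p ∣ N₁ := by
      rcases hcase with h1 | h1
      · exact absurd h1 h
      · exact h1
    obtain ⟨e1⟩ := m59ci_res_equiv rW hWeq
    exact ⟨dvd_trans hpN₁ (Dvd.intro _ rfl), s56t_tr_isOrdinaryAt eW (hT.ord h),
      m59moc_tres_of_equiv ⟨e1.symm⟩ (hTD p hp W hΔ hW 𝒪 hp𝒪 ρ hT h (hpeu hpN₁))⟩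
  -- the core
  obtain ⟨rr, c, hrr, B, T0, iCR, iAlg, iFin, x₂, p1, β, hβ, htr, hineq, hsys⟩ :=
    m59ci_sys_core hE hA hU hP hC hp2 hp𝒪 ζ hζ rW hyp hdet hunip N₀ hrig S₀ hpS₀ hN₀S₀
      T8 Tn hdisj m ch hch hTh hT8 hsq θ hcompat Smin hpSmin hSminN hmin hunr hharm
      (W.IsGoodPrimeFor p) hgood hbad td hgen ε g gi e hframe hscal hcyc
  -- the output
  have hSS' : S ⊆ m59ep_bad S₀ l m := by
    intro q hq
    by_cases hqTh : q ∈ ThN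
    · obtain ⟨ℓ, hℓ, rfl⟩ := hThNmem q hqTh
      obtain ⟨k, hk⟩ := m59ci_lch_surj ch hch ℓ (hsup hℓ)
      exact m59ci_mem_bad.2 (Or.inr ⟨k, k.2, hk.symm⟩)
    · exact m59ci_subset_bad S₀ l m (Finset.mem_union_left _ (Finset.mem_sdiff.2 ⟨hq, hqTh⟩))
  refine ⟨m59ep_bad S₀ l m, m59ep_lvl N₀ l m, hNZ m, hSS', hsq, m59ci_lvl_primes_bad hlp hN₀S₀ m,
    ↥T8, ↥Tn, Fin c, inferInstance, inferInstance, inferInstance,
    (fun ℓ : ↥T8 => ((ε ℓ : ℤ) : 𝒪)), (fun ℓ : ↥T8 => ((ℓ : Nat.Primes) : ℕ)),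
    (fun ℓ : ↥Tn => ((ε ℓ : ℤ) : 𝒪) * ((((ℓ : Nat.Primes) : ℕ) : 𝒪) + 1)),
    (fun ℓ : ↥Tn => ((ℓ : Nat.Primes) : ℕ)), (fun ℓ : ↥T8 => ε ℓ), (fun ℓ : ↥Tn => ε ℓ),
    m, ch, (fun k : Fin m => (B ((k : ℕ) + 1)).d * 2 ^ rr), rr,
    (fun k : Fin (m + 1) => (B (k : ℕ)).d * 2 ^ rr),
    (fun k : Fin m => (B ((k : ℕ) + 1)).d * 2 ^ rr - 2 * ((B (k : ℕ)).d * 2 ^ rr)),
    T0, iCR, iAlg, iFin, x₂, (twc_j (B m) rr).comp (p1 : T0 →+* (B m).T), β,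
    (twc_j (B m) rr).comp (B m).H.π, hch, ?_, ?_, ?_, ?_, ?_, ?_, ?_, ?_, hβ, hsys, ?_⟩
  · exact fun t => hT8 t.1 t.2
  · exact fun t => t.1.2.two_le
  · intro t
    have hε := (hframe t.1 (Finset.mem_union_left _ t.2)).1
    have h1 : (((ε t.1 : ℤ) : 𝒪)) ^ 2 = 1 := by
      rw [pow_two, ← Int.cast_mul, hε, Int.cast_one]
    show (((ε t.1 : ℤ) : 𝒪)) ^ 2 - ((((t.1 : Nat.Primes) : ℕ) : ℕ) : 𝒪) ∈ maximalIdeal 𝒪
    rw [h1]
    exact m59ci_one_sub_mem hp𝒪 (hT8 t.1 t.2)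
  · exact fun t => (hframe t.1 (Finset.mem_union_left _ t.2)).1
  · exact fun t => (hframe t.1 (Finset.mem_union_right _ t.2)).1
  · rw [Fintype.card_fin, Fintype.card_coe, Fintype.card_coe]
    exact hrr
  · show 0 < (B 0).d * 2 ^ rr
    exact Nat.mul_pos (B 0).d_pos (pow_pos (by norm_num) rr)
  · intro k
    show (B ((k : ℕ) + 1)).d * 2 ^ rr - 2 * ((B (k : ℕ)).d * 2 ^ rr) +
      2 * ((B (k : ℕ)).d * 2 ^ rr) = (B ((k : ℕ) + 1)).d * 2 ^ rr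
    exact Nat.sub_add_cancel (hineq k)
  · intro ℓ hℓ hℓN hℓS
    obtain ⟨σ, hσ⟩ := fex_exists_isFrobeniusAt hℓ (primeLocalPlace ⟨ℓ, hℓ⟩)
      (s56ld_liesOver ⟨ℓ, hℓ⟩)
    obtain ⟨t, ht1, ht2⟩ := htr σ
    have hℓS0 : ℓ ∉ S := fun h => hℓS (Finset.mem_coe.2 (hSS' h))
    have hℓp : ℓ ≠ p := fun h => hℓS0 (h ▸ hS.1)
    have hg : W.IsGoodPrimeFor ℓ := by
      by_contra hcon
      exact hℓS0 (hS.2 ℓ hℓ hcon)
    refine ⟨t, ?_, ?_⟩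
    · rw [RingHom.comp_apply, RingHom.comp_apply]
      congr 1
      rw [← m59ac_trace_frob (B m).H ℓ hℓ hℓN hℓS _ (s56ld_liesOver ⟨ℓ, hℓ⟩) σ hσ]
      exact ht1
    · rw [ht2]
      exact m59ci_trace_frob_W hT rW hWeq ℓ hℓ hℓp hg _ (s56ld_liesOver ⟨ℓ, hℓ⟩) σ hσ

end

end Fermat.Agent.M59
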