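import Fermat.Agent.M59.EP.Seams

/-!
M59 / [CHAIN-inst], arithmetic of the levels of the chain (helper25; ruling #48).  Prefix `m59ci_`.

Elementary facts on `m59ep_lvl N l k = N * ∏_{i < k} l i` and `m59ep_bad S₀ l k = S₀ ∪ {l i : i < k}`
(M59/EP/Seams.lean): divisibility, primes of the level, squarefreeness, monotonicity of the bad set.
-/

set_option autoImplicit false

namespace Fermat.Agent.M59

open Finset

variable {m : ℕ}

theorem m59ci_dvd_lvl (N : ℕ) (l : Fin m → ℕ) (k : ℕ) : N ∣ m59ep_lvl N l k :=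
  Dvd.intro _ rfl

theorem m59ci_lvl_ne_zero {N : ℕ} (hN : N ≠ 0) {l : Fin m → ℕ} (hl : ∀ i, l i ≠ 0) (k : ℕ) :
    m59ep_lvl N l k ≠ 0 := by
  unfold m59ep_lvl
  refine mul_ne_zero hN (Finset.prod_ne_zero_iff.2 fun i _ => ?_)
  split_ifs
  · exact hl i
  · exact one_ne_zero

theorem m59ci_prime_dvd_lvl {N : ℕ} {l : Fin m → ℕ} (hl : ∀ i, (l i).Prime) {k q : ℕ}
    (hq : q.Prime) (h : q ∣ m59ep_lvl N l k) : q ∣ N ∨ ∃ i : Fin m, (i : ℕ) < k ∧ q = l i := by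
  unfold m59ep_lvl at h
  rcases (Nat.Prime.dvd_mul hq).1 h with h | h
  · exact Or.inl h
  · right
    obtain ⟨i, -, hi⟩ := (Prime.dvd_finset_prod_iff hq.prime _).1 h
    by_cases hik : (i : ℕ) < k
    · rw [if_pos hik] at hi
      exact ⟨i, hik, (Nat.prime_dvd_prime_iff_eq hq (hl i)).1 hi⟩
    · rw [if_neg hik] at hi
      exact absurd (Nat.dvd_one.1 hi) hq.one_lt.ne'

theorem m59ci_dvd_lvl_of_lt (N : ℕ) (l : Fin m → ℕ) {k : ℕ} (i : Fin m) (hi : (i : ℕ) < k) :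
    l i ∣ m59ep_lvl N l k := by
  unfold m59ep_lvl
  refine dvd_mul_of_dvd_right ?_ _
  have h := Finset.dvd_prod_of_mem (fun j : Fin m => if (j : ℕ) < k then l j else 1)
    (Finset.mem_univ i)
  rwa [if_pos hi] at h

theorem m59ci_mem_bad {S₀ : Finset ℕ} {l : Fin m → ℕ} {k q : ℕ} :
    q ∈ m59ep_bad S₀ l k ↔ q ∈ S₀ ∨ ∃ i : Fin m, (i : ℕ) < k ∧ q = l i := by
  unfold m59ep_bad
  rw [Finset.mem_union, Finset.mem_image]
  constructor
  · rintro (h | ⟨i, hi, rfl⟩)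
    · exact Or.inl h
    · exact Or.inr ⟨i, (Finset.mem_filter.1 hi).2, rfl⟩
  · rintro (h | ⟨i, hi, rfl⟩)
    · exact Or.inl h
    · exact Or.inr ⟨i, Finset.mem_filter.2 ⟨Finset.mem_univ _, hi⟩, rfl⟩

theorem m59ci_lvl_primes_bad {N : ℕ} {S₀ : Finset ℕ} {l : Fin m → ℕ} (hl : ∀ i, (l i).Prime)
    (hNS : ∀ q : ℕ, q.Prime → q ∣ N → q ∈ S₀) (k q : ℕ) (hq : q.Prime)
    (h : q ∣ m59ep_lvl N l k) : q ∈ m59ep_bad S₀ l k := by
  rw [m59ci_mem_bad]
  rcases m59ci_prime_dvd_lvl hl hq h with h | h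
  · exact Or.inl (hNS q hq h)
  · exact Or.inr h

theorem m59ci_bad_mono (S₀ : Finset ℕ) (l : Fin m → ℕ) {k k' : ℕ} (h : k ≤ k') :
    m59ep_bad S₀ l k ⊆ m59ep_bad S₀ l k' := by
  intro q hq
  rw [m59ci_mem_bad] at hq ⊢
  rcases hq with hq | ⟨i, hi, rfl⟩
  · exact Or.inl hq
  · exact Or.inr ⟨i, lt_of_lt_of_le hi h, rfl⟩

theorem m59ci_subset_bad (S₀ : Finset ℕ) (l : Fin m → ℕ) (k : ℕ) : S₀ ⊆ m59ep_bad S₀ l k :=
  fun _ hq => m59ci_mem_bad.2 (Or.inl hq)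

theorem m59ci_lvl_dvd_lvl (N : ℕ) (l : Fin m → ℕ) {k k' : ℕ} (h : k ≤ k') :
    m59ep_lvl N l k ∣ m59ep_lvl N l k' := by
  unfold m59ep_lvl
  refine mul_dvd_mul_left N (Finset.prod_dvd_prod_of_dvd _ _ fun i _ => ?_)
  by_cases hik : (i : ℕ) < k
  · rw [if_pos hik, if_pos (lt_of_lt_of_le hik h)]
  · rw [if_neg hik]
    exact one_dvd _

theorem m59ci_lvl_squarefree {N : ℕ} (hN : Squarefree N) {l : Fin m → ℕ}
    (hinj : Function.Injective l) (hl : ∀ i, (l i).Prime) (hlN : ∀ i, ¬ l i ∣ N) (k : ℕ) :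
    Squarefree (m59ep_lvl N l k) := by
  rw [Nat.squarefree_iff_prime_squarefree]
  intro q hq hqq
  have hq1 : q ∣ m59ep_lvl N l k := dvd_trans (dvd_mul_right q q) hqq
  unfold m59ep_lvl at hqq
  -- the product is squarefree and coprime to `N`
  have hprod : Squarefree (∏ i : Fin m, if (i : ℕ) < k then l i else 1) := by
    classical
    have h1 : (∏ i : Fin m, if (i : ℕ) < k then l i else 1) =
        ∏ i ∈ Finset.univ.filter (fun i : Fin m => (i : ℕ) < k), l i := by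
      rw [Finset.prod_filter]
    rw [h1]
    refine Finset.squarefree_prod_of_pairwise_isCoprime ?_ (fun i _ => (hl i).prime.squarefree)
    intro i _ j _ hij
    show IsRelPrime (l i) (l j)
    rw [← Nat.coprime_iff_isRelPrime, Nat.coprime_primes (hl i) (hl j)]
    exact fun h => hij (hinj h)
  have hcop : Nat.Coprime N (∏ i : Fin m, if (i : ℕ) < k then l i else 1) := by
    refine Nat.Coprime.prod_right fun i _ => ?_
    split_ifs
    · exact (Nat.Coprime.symm ((Nat.Prime.coprime_iff_not_dvd (hl i)).2 (hlN i)))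
    · exact Nat.coprime_one_right N
  have hsq : Squarefree (N * ∏ i : Fin m, if (i : ℕ) < k then l i else 1) :=
    (Nat.squarefree_mul_iff).2 ⟨hcop, hN, hprod⟩
  exact hq.one_lt.ne' (Nat.isUnit_iff.1 (hsq q hqq))

end Fermat.Agent.M59
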