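import Fermat.Agent.M59.Top.Chain.Cot
import Fermat.Agent.M59.Top.Chain.LvlArith
import Fermat.Agent.M59.Top.Rigidifier
import Fermat.Agent.M59.Top.CoreSeams
import Fermat.Agent.M59.Act.ActStmt
import Fermat.Agent.M59.LG.ExitRes
import Fermat.Agent.M59.LG.EntryExt

/-!
M59 / [CHAIN-inst], [CI-ARITH], the Galois-side preliminaries of the wiring (helper25, deputy;
ruling #48).  Prefix `m59ci_`.

* `m59ci_rigid_num` : the rigidifier `r₀` (a prime for `p = 3`, helper9's `m59e_rigidifier`;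
  `1` for `p = 5`): outside `S`, good for `W`, harmless for `ρ̄`, and `m59ep_Rigid p (N₁ * r₀)`;
* `m59ci_res_equiv`, `m59ci_hypW` : the residual representation of the frame `rW` of `ρ_W` is
  equivalent to `ρ̄`, and satisfies the standing hypotheses `s56a_Hyp`;
* `m59ci_trace_frob_W` : `tr rW(Frob_ℓ) = a_ℓ(W)` at the good primes;
* `m59ci_hres_W` : `ρ̄` unramified at `ℓ` ⟹ `rW τ ≡ 1 mod 𝔪` on the inertia group;
* `m59ci_tdRestrict`, `m59ci_inertiaGen_restrict` : restriction of a tame datum to a subset.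
-/

set_option autoImplicit false
set_option linter.style.haveILetI false
set_option linter.unusedSectionVars false
set_option linter.unusedVariables false

open Polynomial CuspForm IsLocalRing WeierstrassCurve ExtCitation
open Fermat.Agent.S53 Fermat.Agent.S56 Fermat.Agent.TW Fermat.Agent.JT3 Fermat.Agent.S55
open Fermat.Agent.SS Fermat.Agent.DS

namespace Fermat.Agent.M59

noncomputable section

local notation "GQ" => (AlgebraicClosure ℚ ≃ₐ[ℚ] AlgebraicClosure ℚ)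
local notation "Qbar" => AlgebraicClosure ℚ

/-! ### tame data on a subset -/

/-- restriction of a tame datum to a subset of the primes. -/
def m59ci_tdRestrict {p : ℕ} {Th Th' : Finset Nat.Primes} (h : Th' ⊆ Th)
    (td : m59c_TameData p Th) : m59c_TameData p Th' where
  gφ := td.gφ
  gσ := td.gσ
  φ_mem := fun ℓ hℓ => td.φ_mem ℓ (h hℓ)
  φ_frob := fun ℓ hℓ => td.φ_frob ℓ (h hℓ)
  σ_mem := fun ℓ hℓ => td.σ_mem ℓ (h hℓ)
  rel := fun ℓ hℓ => td.rel ℓ (h hℓ)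
  gen := fun ℓ hℓ => td.gen ℓ (h hℓ)

theorem m59ci_inertiaGen_restrict {p : ℕ} {Th Th' : Finset Nat.Primes} (h : Th' ⊆ Th)
    (td : m59c_TameData p Th) (hgen : m59ct_InertiaGen td) :
    m59ct_InertiaGen (m59ci_tdRestrict h td) :=
  fun ℓ hℓ => hgen ℓ (h hℓ)

/-! ### the representation of `W` -/

section tate

variable {p : ℕ} [Fact p.Prime] {W : WeierstrassCurve ℤ}
  {𝒪 : Type} [CommRing 𝒪] [IsLocalRing 𝒪]
  {ρ : GaloisRepAdic 𝒪}

/-- the residual representation of a frame of `ρ` is equivalent to `ρ̄`. -/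
theorem m59ci_res_equiv (rW : FramedRep 𝒪) (hW : ρ.IsEquiv rW.toGaloisRepAdic) :
    ρ.residual.IsEquiv rW.residual.toResidualGaloisRep := by
  obtain ⟨e⟩ := hW
  obtain ⟨e1⟩ := rW.residual_isEquiv
  exact ⟨e.residual.trans e1⟩

/-- `tr rW(Frob_ℓ) = a_ℓ(W)` at the good primes `ℓ ≠ p`. -/
theorem m59ci_trace_frob_W (hT : m59e_IsTate p W ρ) (rW : FramedRep 𝒪)
    (hW : ρ.IsEquiv rW.toGaloisRepAdic) (ℓ : ℕ) (hℓ : ℓ.Prime) (hℓp : ℓ ≠ p)
    (hgood : W.IsGoodPrimeFor ℓ) (A : ValuationSubring Qbar) (hA : A.LiesOverPrime ℓ) (σ : GQ)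
    (hσ : A.IsFrobeniusAt σ ℓ) : (rW σ).trace = ((W.apOfModel ℓ : ℤ) : 𝒪) := by
  have h1 := twc_hp_charpoly_framedRep ρ rW hW σ
  rw [hT.frob ℓ hℓ hℓp hgood A hA σ hσ] at h1
  rw [Matrix.trace_eq_neg_charpoly_coeff, h1]
  simp only [Fintype.card_fin, coeff_add, coeff_sub, coeff_X_pow, coeff_C_mul, coeff_C]
  simp

/-- `ρ̄` unramified at `ℓ` ⟹ `rW τ ≡ 1 mod 𝔪` on the inertia group of `primeLocalPlace ℓ`. -/
theorem m59ci_hres_W (rW : FramedRep 𝒪) (hW : ρ.IsEquiv rW.toGaloisRepAdic) (ℓ : Nat.Primes)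
    (hunr : ρ.residual.IsUnramifiedAt (ℓ : ℕ)) :
    ∀ τ ∈ (primeLocalPlace ℓ).inertiaSubgroupIn ℚ, twc_lr_In (maximalIdeal 𝒪) (rW τ - 1) := by
  obtain ⟨e⟩ := hW
  intro τ hτ
  exact twlg_ax_framed_small ρ rW e τ (twib_hres_of_residual ρ hunr _ (s56ld_liesOver ℓ) hτ)

end tate

section hyp

variable {p : ℕ} [Fact p.Prime] {W : WeierstrassCurve ℤ}
  {𝒪 : Type} [CommRing 𝒪] [IsDomain 𝒪] [IsDiscreteValuationRing 𝒪]
  [IsAdicComplete (maximalIdeal 𝒪) 𝒪] [Finite (ResidueField 𝒪)]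
  {ρ : GaloisRepAdic 𝒪}

/-- the standing hypotheses of S56 for the residual representation of the frame of `ρ_W`, with the
transfer of ramification and characteristic polynomials. -/
theorem m59ci_hypW (hp𝒪 : (p : 𝒪) ∈ maximalIdeal 𝒪) (hT : m59e_IsTate p W ρ) (rW : FramedRep 𝒪)
    (hW : ρ.IsEquiv rW.toGaloisRepAdic) {N : ℕ} [NeZero N] {S : Finset ℕ}
    (hNS : ∀ ℓ : ℕ, ℓ.Prime → ℓ ∣ N → ℓ ∈ S)
    (θ : heckeAlgebra N 2 (↑S : Set ℕ) →+* ResidueField 𝒪) (hcompat : twt_Compat θ ρ.residual) :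
    s56a_Hyp p rW.residual.toResidualGaloisRep ∧
    (∀ q : ℕ, ρ.residual.IsUnramifiedAt q ↔ rW.residual.toResidualGaloisRep.IsUnramifiedAt q) ∧
    ∀ σ : GQ, LinearMap.charpoly (ρ.residual.ρ σ) =
      LinearMap.charpoly (rW.residual.toResidualGaloisRep.ρ σ) := by
  haveI : CharP (ResidueField 𝒪) p := s56a_charP p hp𝒪
  exact s56am_hypEquiv p (ResidueField 𝒪) ρ.residual rW.residual (m59ci_res_equiv rW hW)
    ⟨hT.irr, twt_det_of_compat hNS θ ρ.residual hcompat, hT.split, hT.tw⟩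

end hyp

/-! ### the rigidifier set -/

section rigid

variable {W : WeierstrassCurve ℤ}
  {𝒪 : Type} [CommRing 𝒪] [IsLocalRing 𝒪]

/-- **the rigidifier**: `r₀ = 1` (`p = 5`) or `r₀` a prime outside `S`, good for `W`, harmless for
`ρ̄` (`p = 3`; helper9's `m59e_rigidifier`), with `m59ep_Rigid p (N₁ * r₀)`. -/
theorem m59ci_rigid_num (p : ℕ) [Fact p.Prime] (hp : p = 3 ∨ p = 5) (hΔ : W.Δ ≠ 0)
    (hp𝒪 : (p : 𝒪) ∈ maximalIdeal 𝒪) (ρ : GaloisRepAdic 𝒪) (hT : m59e_IsTate p W ρ)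
    (S : Finset ℕ) (N₁ : ℕ) :
    ∃ r₀ : ℕ, (r₀ = 1 ∨ (r₀.Prime ∧ r₀ ∉ S ∧ r₀ ≠ p ∧ W.IsGoodPrimeFor r₀ ∧
      m59m_IsHarmless p ρ.residual r₀)) ∧ m59ep_Rigid p (N₁ * r₀) := by
  rcases hp with rfl | rfl
  · obtain ⟨r, hr, hrS, hr3, hgood, hmod, hne⟩ := m59e_rigidifier W hΔ hp𝒪 ρ hT S
    refine ⟨r, Or.inr ⟨hr, hrS, hr3, hgood, hmod, fun A hA σ hσ => ?_⟩, fun _ => ?_⟩
    · rw [hT.frobRes r hr hr3 hgood A hA σ hσ]
      simp only [coeff_add, coeff_sub, coeff_X_pow, coeff_C_mul, coeff_C]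
      simpa using hne
    · exact ⟨r, hr, dvd_mul_left r N₁, hmod⟩
  · refine ⟨1, Or.inl rfl, fun h => ?_⟩
    omega

end rigid

end

end Fermat.Agent.M59
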