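import Mathlib
import Fermat.Agent.M59.Top.Chain.Cot
import Fermat.Agent.M59.C.PairCot
import Fermat.Agent.M59.C.PairCotOrd

/-!
M59 / [CHAIN-inst], **[CI-COT] CLOSED** (helper25, deputy; ruling #48).  Prefix `m59ci_`.

`m59ci_cot : m59ci_Cot_stmt` : the Taylor–Wiles primes and the cotangent bound `m59ci_CotB`, from
helper21's `m59cp_cot_flat` (mode `good`: type flat at `p`, `s56f_closed`) and `m59cp_cot_ord` +
`m59cp_cotBound_ord` (mode `¬ good`: an ORDINARY pair with très ramifiée residual representation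
is STRICTLY ordinary, `s56o_final`; route of referee helper12, ref57).
-/

set_option autoImplicit false
set_option linter.style.haveILetI false
set_option linter.unusedSectionVars false
set_option linter.unusedVariables false

open Polynomial CuspForm IsLocalRing
open Fermat.Agent.S53 Fermat.Agent.S56 Fermat.Agent.TW Fermat.Agent.JT3

namespace Fermat.Agent.M59

noncomputable section

local notation "GQ" => (AlgebraicClosure ℚ ≃ₐ[ℚ] AlgebraicClosure ℚ)
local notation "Qbar" => AlgebraicClosure ℚ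

attribute [local instance] S53.dualNumberAlgebra

/-- **[CI-COT].** -/
theorem m59ci_cot : m59ci_Cot_stmt := by
  classical
  intro p hpF hp2 𝒪 _ _ _ _ _ _ hp𝒪 rW hyp S Smin hpS hSmin hmin good hbad T8 Tn hdisj hT td a e
    hφa hcyc
  by_cases hg : good
  · obtain ⟨rr, c, hrr, h⟩ := m59cp_cot_flat 𝒪 p hp2 hp𝒪 rW.residual hyp S Smin hpS hSmin hmin T8 Tn
      hdisj hT td a hφa e hcyc
    refine ⟨rr, c, hrr, fun n => ?_⟩
    obtain ⟨qv, h1, h2, h3, h4⟩ := h n
    refine ⟨qv, h1, h2, h3, fun H hType _ ι z hz => ?_⟩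
    exact h4 H ⟨hType.1, fun hpS' φ hφ => hType.2.1 hpS' φ hφ hg, hType.2.2.1, hType.2.2.2⟩ ι z hz
  · obtain ⟨rr, c, hrr, h⟩ := m59cp_cot_ord 𝒪 p hp2 hp𝒪 rW.residual hyp S Smin hpS hSmin hmin T8 Tn
      hdisj hT td a hφa e hcyc
    refine ⟨rr, c, hrr, fun n => ?_⟩
    obtain ⟨qv, h1, h2, h3, h4⟩ := h n
    refine ⟨qv, h1, h2, h3, fun H hType hX ι z hz => ?_⟩
    exact m59cp_cotBound_ord h4 (hbad hg) H hType (hX hg) ι z hz

end

end Fermat.Agent.M59
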