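import Fermat.Agent.M59.Top.CoreOfZ
import Fermat.Agent.M59.Loc.NZDim
import Fermat.Agent.TW.Loc.Main8
import Fermat.Agent.TW.Aut.LocAlg
import Fermat.Agent.TW.Patch.T0Inst

/-!
M59 / [CHAIN-inst], LEVEL 3 of [CORE] (helper25, deputy; ruling #48, assignment #5344 (a)).
Prefix `m59ci_`.

`m59ci_chainInput_of : m59ci_Level_stmt Peu → m59ci_CaseIII_stmt Peu → m59d_ChainInputZ_stmt Peu`
(PROVED; the seam of issue 2, M59/Top/CoreOfZ.lean: the coefficient ring contains a primitive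
`p`-th root of unity, which is handed to the leaves).

THE CONCRETE FRAME of `m59d_ChainData` (M59/Top/CoreOf.lean) in the cases (d0), (II):

* `S_∞ = MvPowerSeries (Fin rr) 𝒪`, `𝔞 = twds_a 𝒪 rr`, `𝔟 n = twds_b 𝒪 rr (p ^ n)` (main's [D]);
* `R_∞ = m59b_R 𝒪 κ a l8 t0 ln` (helper4, M59/Loc/Ring.lean): eight coordinates at the scalar-hard
  primes `T8` of `B'`, three at the non-scalar primes `Tn`, free variables `κ`;
  `rr = |κ| + 3 |T8| + |Tn|`;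
* `θ = m59ci_theta` : `S_∞ → 𝒪 → T₀` (the Taylor–Wiles variables die at the top level `B'`);
* `u = m59ci_u` (all `N`-coordinates; `= m59bi_uR` of M59/Loc/Irr.lean), `𝔠 = ⊥`;
* `r k = m59ci_r … k = (r_{ch k}) ^ (ee k)` (`ee k` = the exponent of (I3)), `s k = m59ci_s … k`;
* `ν = m59ci_nu` : the coordinates of `R_∞` whose values at the point of `W` are prescribed
  (`m59ci_xval`): in the frame ADAPTED to `ρ_W` at a scalar-hard prime `t`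
  (referee's (C1), finding #5326), `Φ_t ↦ (ε l, *; 0, ε)`, `N_t ↦ (0, *; 0, 0)`; at a non-scalar
  prime `l`, `tr Φ_l ↦ ε (l + 1)`.

PROVED here, on that frame (block [B] of helper4 / helper26 is CLOSED for these cases):
* `m59ci_hdim`  : (B1) `dim R_∞ ≤ dim S_∞` (`m59bd_dim_R_le` + `twb_main_dim_mvps`);
* `m59ci_hbase` : the field `hbase` ((B2) = `m59bi_irr`, through `m59d_hbase_of_irr`);
* `m59ci_hpts`  : the field `hpts` (`m59bz_hpts` = helper26's walk `m59lw_hpts` + [NZ] by dimension);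
* `m59ci_hgen`, `m59ci_complT0` : the fields `hgen`, `complT0` for ANY finite `𝒪`-algebra `T₀`;
* `m59ci_data`  : the bundled `m59d_ChainData` on the frame.

LEAVES:
* `m59ci_Level_stmt Peu` **[CI-LEVEL]** (cases (d0), (II): `W` good at `p`, or `p ∣ N₁`): the
  parameters of the frame, the base ring `T₀` (a finite `𝒪`-algebra with a point `x₂`; in use
  helper9's `m59ci_adj`, M59/Top/Chain/Adj.lean), the action `j`, the generators `γ`, the fixed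
  images `β` of the coordinates `ν` with `x₂ (β c) = m59ci_xval c`, the level data
  `m59d_ChainLevel` ON THAT FRAME for every `n`, and the link with the Hecke operators.
  (Producers: [E'] `m59ep_Chain_stmt`, [Act] `m59ac_chain` + `m59eo_abs_step`, [C-top], [ADJ],
  the rigidifier `m59e_rigidifier`.)
* `m59ci_CaseIII_stmt Peu` **[CI-III]** (case (III): `W` multiplicative at `p`, `p ∤ N₁`): the
  conclusion of [CHAIN-INPUT] itself; to be cut with [P-STEP] (helper10), [R_p-norm] (helper13)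
  and the ring `Rp` with the relation `X a * X v` (helper4 / helper26).
-/

set_option autoImplicit false
set_option linter.style.haveILetI false
set_option linter.unusedSectionVars false
set_option linter.unusedVariables false

open Polynomial CuspForm IsLocalRing WeierstrassCurve Fermat.Agent.TW

namespace Fermat.Agent.M59

noncomputable section

/-! ### the concrete frame -/

section frame

variable {𝒪 : Type} [CommRing 𝒪] [IsDomain 𝒪] [IsNoetherianRing 𝒪] [IsLocalRing 𝒪] [CharZero 𝒪]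
  {T8 Tn : Type} [Finite T8] [Finite Tn] (κ : Type) [Finite κ]
  (a : T8 → 𝒪) (l8 : T8 → ℕ) (t0 : Tn → 𝒪) (ln : Tn → ℕ)

/-- `θ : S_∞ → 𝒪 → T₀`. -/
def m59ci_theta (𝒪 : Type) [CommRing 𝒪] (rr : ℕ) (T0 : Type) [CommRing T0] [Algebra 𝒪 T0] :
    MvPowerSeries (Fin rr) 𝒪 →+* T0 :=
  (algebraMap 𝒪 T0).comp (MvPowerSeries.constantCoeff (σ := Fin rr) (R := 𝒪))

/-- `u` : all the `N`-coordinates, in `R_∞`. -/
def m59ci_u : (T8 × Fin 2 × Fin 2) ⊕ (Tn × Fin 2) → m59b_R 𝒪 κ a l8 t0 ln :=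
  fun i => Ideal.Quotient.mk _ (m59b_u 𝒪 κ i)

/-- `ν` : the coordinates with prescribed values at the point of `W`. -/
def m59ci_nu : (T8 × Fin 6) ⊕ Tn → m59b_R 𝒪 κ a l8 t0 ln :=
  Sum.elim
    (fun ti => Ideal.Quotient.mk _
      (![m59b_Phi8 𝒪 κ a ti.1 0 0, m59b_Phi8 𝒪 κ a ti.1 1 0, m59b_Phi8 𝒪 κ a ti.1 1 1,
        (MvPowerSeries.X (Sum.inl (ti.1, 0, 0, 0)) : m59b_P 𝒪 T8 Tn κ),
        (MvPowerSeries.X (Sum.inl (ti.1, 0, 1, 0)) : m59b_P 𝒪 T8 Tn κ),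
        (MvPowerSeries.X (Sum.inl (ti.1, 0, 1, 1)) : m59b_P 𝒪 T8 Tn κ)] ti.2))
    (fun l => Ideal.Quotient.mk _ (m59b_tn 𝒪 T8 κ t0 l))

/-- the prescribed values of `ν` at the point of `W` (adapted frames). -/
def m59ci_xval (ε8 : T8 → ℤ) (εn : Tn → ℤ) : (T8 × Fin 6) ⊕ Tn → 𝒪 :=
  Sum.elim
    (fun ti => ![((ε8 ti.1 : ℤ) : 𝒪) * ((l8 ti.1 : ℕ) : 𝒪), 0, ((ε8 ti.1 : ℤ) : 𝒪), 0, 0, 0] ti.2)
    (fun l => ((εn l : ℤ) : 𝒪) * (((ln l : ℕ) : 𝒪) + 1))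

variable {m : ℕ} (ch : Fin m → T8 ⊕ Tn)

/-- `r k = (r_{ch k}) ^ (ee k)`. -/
def m59ci_r (ee : Fin m → ℕ) : Fin m → m59b_R 𝒪 κ a l8 t0 ln :=
  fun k => Ideal.Quotient.mk _ (m59lw_r κ a l8 t0 ln (ch k)) ^ ee k

/-- `s k = s_{ch k}`. -/
def m59ci_s (ε8 : T8 → ℤ) (εn : Tn → ℤ) : Fin m → m59b_R 𝒪 κ a l8 t0 ln :=
  fun k => Ideal.Quotient.mk _ (m59lw_s κ a l8 t0 ln ε8 εn (ch k))

end frame

/-! ### the fields of `m59d_ChainData` which only depend on `T₀` being a finite `𝒪`-module -/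

section T0

/-- field `hgen`: module generators of `T₀` generate it as a ring together with the range of any
ring hom whose range contains the image of `𝒪`. -/
theorem m59ci_hgen {𝒪 T0 : Type*} [CommRing 𝒪] [CommRing T0] [Algebra 𝒪 T0] {K : Type*}
    (γ : K → T0) (hγ : Submodule.span 𝒪 (Set.range γ) = ⊤) {S : Type*} [CommRing S]
    (θ : S →+* T0) (hθ : ∀ c : 𝒪, algebraMap 𝒪 T0 c ∈ θ.range) :
    Subring.closure (Set.range γ ∪ Set.range θ) = ⊤ := by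
  rw [eq_top_iff]
  rintro t -
  have ht : t ∈ Submodule.span 𝒪 (Set.range γ) := by rw [hγ]; trivial
  induction ht using Submodule.span_induction with
  | mem x hx => exact Subring.subset_closure (Or.inl hx)
  | zero => exact Subring.zero_mem _
  | add x y _ _ hx hy => exact Subring.add_mem _ hx hy
  | smul c x _ hx =>
    rw [Algebra.smul_def]
    refine Subring.mul_mem _ (Subring.subset_closure (Or.inr ?_)) hx
    obtain ⟨s, hs⟩ := hθ c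
    exact ⟨s, hs⟩

/-- field `complT0`. -/
theorem m59ci_complT0 {𝒪 : Type} [CommRing 𝒪] [IsLocalRing 𝒪] [IsNoetherianRing 𝒪]
    [IsAdicComplete (maximalIdeal 𝒪) 𝒪] {T0 : Type} [CommRing T0] [Algebra 𝒪 T0]
    [Module.Finite 𝒪 T0] (lam : 𝒪) (hlam : maximalIdeal 𝒪 = Ideal.span {lam}) :
    IsAdicComplete (Ideal.span {algebraMap 𝒪 T0 lam}) T0 := by
  have h := twe_la_isAdicComplete_J (𝒪 := 𝒪) (B := T0)
  have he : twe_la_J 𝒪 T0 = Ideal.span {algebraMap 𝒪 T0 lam} := by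
    unfold twe_la_J
    rw [hlam, Ideal.map_span, Set.image_singleton]
  rwa [he] at h

end T0

/-! ### the ring side: (B1), [NZ] by dimension, `hpts` -/

section ring

variable {𝒪 : Type} [CommRing 𝒪] [IsDomain 𝒪] [IsDiscreteValuationRing 𝒪]
  {T8 Tn κ : Type} [Fintype T8] [Fintype Tn] [Fintype κ]

/-- `2` is a unit in a local ring of odd residue characteristic. -/
theorem m59ci_isUnit_two {p : ℕ} (hp : p.Prime) (hp2 : p ≠ 2) (hp𝒪 : (p : 𝒪) ∈ maximalIdeal 𝒪) :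
    IsUnit (2 : 𝒪) := by
  by_contra h
  have h2m : (2 : 𝒪) ∈ maximalIdeal 𝒪 := (mem_maximalIdeal _).mpr h
  obtain ⟨k, hk⟩ := hp.odd_of_ne_two hp2
  have : (1 : 𝒪) = (p : 𝒪) - 2 * (k : 𝒪) := by
    rw [hk]; push_cast; ring
  have h1 : (1 : 𝒪) ∈ maximalIdeal 𝒪 := by
    rw [this]
    exact Ideal.sub_mem _ hp𝒪 (Ideal.mul_mem_right _ _ h2m)
  exact (Ideal.ne_top_iff_one _).mp (maximalIdeal.isMaximal 𝒪).ne_top h1

/-- `1 + rr ≤ dim S_∞`. -/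
theorem m59ci_dimS (rr : ℕ) :
    ((1 + rr : ℕ) : WithBot ℕ∞) ≤ ringKrullDim (MvPowerSeries (Fin rr) 𝒪) := by
  have h1 := twb_main_dim_mvps 𝒪 rr
  rw [IsDiscreteValuationRing.ringKrullDim_eq_one 𝒪] at h1
  refine le_trans (le_of_eq ?_) h1
  push_cast
  rfl

/-- **(B1)** `dim R_∞ ≤ dim S_∞`. -/
theorem m59ci_hdim {lam : 𝒪} (hmax : maximalIdeal 𝒪 = Ideal.span {lam}) {p : ℕ} (hp : p.Prime)
    (hp2 : p ≠ 2) (hp𝒪 : (p : 𝒪) ∈ maximalIdeal 𝒪)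
    (a : T8 → 𝒪) (l8 : T8 → ℕ) (t0 : Tn → 𝒪) (ln : Tn → ℕ) (hl8 : ∀ t, l8 t % p = 1)
    (han : ∀ t, a t ^ 2 - (l8 t : 𝒪) ∈ maximalIdeal 𝒪) (rr : ℕ)
    (hrr : rr = Fintype.card κ + 3 * Fintype.card T8 + Fintype.card Tn) :
    ringKrullDim (m59b_R 𝒪 κ a l8 t0 ln) ≤ ringKrullDim (MvPowerSeries (Fin rr) 𝒪) := by
  have hpl : (p : 𝒪) ∈ Ideal.span {lam} := by rw [← hmax]; exact hp𝒪
  refine (m59bd_dim_R_le hmax hp hp2 hpl (m59ci_isUnit_two hp hp2 hp𝒪) a l8 t0 ln hl8 han).trans ?_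
  refine le_trans (le_of_eq ?_) (m59ci_dimS rr)
  rw [hrr]
  congr 1
  omega

variable [CharZero 𝒪]

/-- `a_t` is a unit (`a_t² ≡ l_t ≡ 1`). -/
theorem m59ci_isUnit_a {p : ℕ} (hp𝒪 : (p : 𝒪) ∈ maximalIdeal 𝒪) (a : T8 → 𝒪) (l8 : T8 → ℕ)
    (hl8 : ∀ t, l8 t % p = 1) (han : ∀ t, a t ^ 2 - (l8 t : 𝒪) ∈ maximalIdeal 𝒪) (t : T8) :
    IsUnit (a t) := by
  by_contra h
  have ham : a t ∈ maximalIdeal 𝒪 := (mem_maximalIdeal _).mpr h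
  have h1 : ((l8 t : ℕ) : 𝒪) ∈ maximalIdeal 𝒪 := by
    have h2 := Ideal.sub_mem _ (Ideal.pow_mem_of_mem _ ham 2 (by norm_num)) (han t)
    rwa [sub_sub_cancel] at h2
  obtain ⟨k, hk⟩ : ∃ k, l8 t = p * k + 1 := by
    refine ⟨l8 t / p, ?_⟩
    have := Nat.div_add_mod (l8 t) p
    rw [hl8 t] at this
    exact this.symm
  rw [hk] at h1
  have h4 : (1 : 𝒪) ∈ maximalIdeal 𝒪 := by
    have h5 : (1 : 𝒪) = ((p * k + 1 : ℕ) : 𝒪) - (p : 𝒪) * (k : 𝒪) := by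
      push_cast
      ring
    rw [h5]
    exact Ideal.sub_mem _ h1 (Ideal.mul_mem_right _ _ hp𝒪)
  exact (Ideal.ne_top_iff_one _).mp (maximalIdeal.isMaximal 𝒪).ne_top h4

/-- **the field `hpts`** on the concrete frame: helper4's `m59bz_hpts` (= helper26's walk
`m59lw_hpts` + [NZ] by dimension), with the values of the point read off from `ν`. -/
theorem m59ci_hpts {lam : 𝒪} (hmax : maximalIdeal 𝒪 = Ideal.span {lam}) {p : ℕ} (hp : p.Prime)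
    (hp2 : p ≠ 2) (hp𝒪 : (p : 𝒪) ∈ maximalIdeal 𝒪)
    (a : T8 → 𝒪) (l8 : T8 → ℕ) (t0 : Tn → 𝒪) (ln : Tn → ℕ) (hl8 : ∀ t, l8 t % p = 1)
    (hl8' : ∀ t, 2 ≤ l8 t)
    (han : ∀ t, a t ^ 2 - (l8 t : 𝒪) ∈ maximalIdeal 𝒪) (rr : ℕ)
    (hrr : rr = Fintype.card κ + 3 * Fintype.card T8 + Fintype.card Tn)
    {m : ℕ} (ch : Fin m → T8 ⊕ Tn) (hch : Function.Bijective ch) (ee : Fin m → ℕ)
    (ε8 : T8 → ℤ) (hε8 : ∀ t, ε8 t * ε8 t = 1) (εn : Tn → ℤ) (hεn : ∀ l, εn l * εn l = 1)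
    (x : m59b_R 𝒪 κ a l8 t0 ln →+* 𝒪)
    (hxν : ∀ c, x (m59ci_nu κ a l8 t0 ln c) = m59ci_xval l8 ln ε8 εn c)
    (hxC : ∀ c : 𝒪, x (algebraMap 𝒪 (m59b_R 𝒪 κ a l8 t0 ln) c) = c) :
    ∃ y : Fin (m + 1) → (m59b_R 𝒪 κ a l8 t0 ln →+* 𝒪),
      y (Fin.last m) = x ∧ (∀ i, y 0 (m59ci_u κ a l8 t0 ln i) = 0) ∧
      (∀ k : Fin m, y k.castSucc (m59ci_s κ a l8 t0 ln ch ε8 εn k) = 0) ∧
      ∀ (k : Fin m) (P : Ideal (m59b_R 𝒪 κ a l8 t0 ln)),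
        P ∈ minimalPrimes (m59b_R 𝒪 κ a l8 t0 ln) →
        ringKrullDim (MvPowerSeries (Fin rr) 𝒪) ≤ ringKrullDim (m59b_R 𝒪 κ a l8 t0 ln ⧸ P) →
        m59ci_r κ a l8 t0 ln ch ee k ∈ P →
        P ≤ RingHom.ker (y k.castSucc) → P ≤ RingHom.ker (y k.succ) := by
  have hpl : (p : 𝒪) ∈ Ideal.span {lam} := by rw [← hmax]; exact hp𝒪
  have hdS : ((1 + Fintype.card κ + 3 * Fintype.card T8 + Fintype.card Tn : ℕ) : WithBot ℕ∞) ≤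
      ringKrullDim (MvPowerSeries (Fin rr) 𝒪) := by
    have e : 1 + Fintype.card κ + 3 * Fintype.card T8 + Fintype.card Tn = 1 + rr := by omega
    rw [e]
    exact m59ci_dimS rr
  exact m59bz_hpts hmax hp hp2 hpl (m59ci_isUnit_two hp hp2 hp𝒪) a l8 t0 ln hl8 han
    (Equiv.ofBijective ch hch) hl8' ε8 hε8 εn hεn _ hdS ee x (fun c => hxC c)
    (fun t => hxν (Sum.inl (t, 0))) (fun t => hxν (Sum.inl (t, 1)))
    (fun t => hxν (Sum.inl (t, 2))) (fun t => hxν (Sum.inl (t, 3)))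
    (fun t => hxν (Sum.inl (t, 4))) (fun t => hxν (Sum.inl (t, 5)))
    (fun l => hxν (Sum.inr l))

end ring

/-! ### the leaves -/

/-- the conclusion of `m59d_ChainInput_stmt` / `m59d_ChainInputZ_stmt` (M59/Top/CoreOf.lean,
CoreOfZ.lean), verbatim. -/
def m59ci_Concl (W : WeierstrassCurve ℤ) (𝒪 : Type) [CommRing 𝒪] (S : Finset ℕ) : Prop :=
  ∃ (S' : Finset ℕ) (N : ℕ) (_ : NeZero N),
    S ⊆ S' ∧ Squarefree N ∧ (∀ ℓ : ℕ, ℓ.Prime → ℓ ∣ N → ℓ ∈ S') ∧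
    ∃ (lam : 𝒪) (T0 : Type) (_ : CommRing T0) (_ : Algebra 𝒪 T0) (x₂ : T0 →+* 𝒪)
      (D : m59d_ChainData 𝒪 lam T0 x₂)
      (act : heckeAlgebra N 2 (↑S' : Set ℕ) →+*
        Matrix (Fin (D.d (Fin.last D.m))) (Fin (D.d (Fin.last D.m))) (D.S ⧸ D.𝔞)),
      ∀ (ℓ : ℕ) (hℓ : ℓ.Prime) (hℓN : ¬ ℓ ∣ N) (hℓS : ℓ ∉ (↑S' : Set ℕ)),
        ∃ t : T0, D.j t = act (heckeAlgebra.T hℓ hℓN hℓS) ∧
          x₂ t = ((W.apOfModel ℓ : ℤ) : 𝒪)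

/-- **[CI-LEVEL]** (cases (d0), (II)): the level data on the concrete frame. -/
def m59ci_Level_stmt (Peu : m59e_PeuPred) : Prop :=
  ∀ (p : ℕ) [Fact p.Prime], p = 3 ∨ p = 5 → ∀ W : WeierstrassCurve ℤ, W.Δ ≠ 0 →
    W.IsSemistableModel →
  ∀ (𝒪 : Type) [CommRing 𝒪] [IsDomain 𝒪] [IsDiscreteValuationRing 𝒪]
    [IsAdicComplete (maximalIdeal 𝒪) 𝒪] [Finite (ResidueField 𝒪)] [CharZero 𝒪],
    (p : 𝒪) ∈ maximalIdeal 𝒪 → (∃ ζ : 𝒪, IsPrimitiveRoot ζ p) →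
  ∀ ρ : GaloisRepAdic 𝒪, m59e_IsTate p W ρ →
  ∀ (S : Finset ℕ) (N₁ : ℕ), m59e_IsBadSet W p S → Squarefree N₁ →
    (∀ ℓ : ℕ, ℓ.Prime → ℓ ∣ N₁ → ℓ ∈ S) →
    m59e_Occ p W S N₁ →
    (∀ q : ℕ, q.Prime → q ≠ p → q ∣ N₁ → ¬ ρ.residual.IsUnramifiedAt q) →
    (p ∣ N₁ → ¬ m59e_Occ p W S (N₁ / p)) →
    (p ∣ N₁ → ¬ Peu (ResidueField 𝒪) ρ.residual p) →
    (W.IsGoodPrimeFor p → ¬ p ∣ N₁) →
    -- cases (d0), (II)
    (W.IsGoodPrimeFor p ∨ p ∣ N₁) →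
    ∃ (S' : Finset ℕ) (N : ℕ) (_ : NeZero N),
      S ⊆ S' ∧ Squarefree N ∧ (∀ ℓ : ℕ, ℓ.Prime → ℓ ∣ N → ℓ ∈ S') ∧
      ∃ (T8 Tn κ : Type) (_ : Fintype T8) (_ : Fintype Tn) (_ : Fintype κ)
        (a : T8 → 𝒪) (l8 : T8 → ℕ) (t0 : Tn → 𝒪) (ln : Tn → ℕ) (ε8 : T8 → ℤ) (εn : Tn → ℤ)
        (m : ℕ) (ch : Fin m → T8 ⊕ Tn) (ee : Fin m → ℕ) (rr : ℕ)
        (d : Fin (m + 1) → ℕ) (e : Fin m → ℕ) (EE : ℕ)
        (T0 : Type) (_ : CommRing T0) (_ : Algebra 𝒪 T0) (_ : Module.Finite 𝒪 T0)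
        (x₂ : T0 →ₐ[𝒪] 𝒪)
        (j : T0 →+* Matrix (Fin (d (Fin.last m))) (Fin (d (Fin.last m)))
          (MvPowerSeries (Fin rr) 𝒪 ⧸ twds_a 𝒪 rr))
        (K : Type) (_ : Finite K) (γ : K → T0) (β : (T8 × Fin 6) ⊕ Tn → T0)
        (act : heckeAlgebra N 2 (↑S' : Set ℕ) →+*
          Matrix (Fin (d (Fin.last m))) (Fin (d (Fin.last m)))
            (MvPowerSeries (Fin rr) 𝒪 ⧸ twds_a 𝒪 rr)),
        Function.Bijective ch ∧ (∀ t, l8 t % p = 1) ∧ (∀ t, 2 ≤ l8 t) ∧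
        (∀ t, a t ^ 2 - (l8 t : 𝒪) ∈ maximalIdeal 𝒪) ∧
        (∀ t, ε8 t * ε8 t = 1) ∧ (∀ l, εn l * εn l = 1) ∧
        rr = Fintype.card κ + 3 * Fintype.card T8 + Fintype.card Tn ∧ 0 < d 0 ∧
        Submodule.span 𝒪 (Set.range γ) = ⊤ ∧
        (∀ c, x₂ (β c) = m59ci_xval l8 ln ε8 εn c) ∧
        (∀ n : ℕ, Nonempty (m59d_ChainLevel 𝒪 (MvPowerSeries (Fin rr) 𝒪)
          (m59b_R 𝒪 κ a l8 t0 ln) T0 d e EE (twds_a 𝒪 rr) (twds_b 𝒪 rr (p ^ n))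
          (twds_b_le_a rr (p ^ n)) j (m59ci_theta 𝒪 rr T0) (m59ci_u κ a l8 t0 ln)
          (fun _ => (⊥ : Ideal (m59b_R 𝒪 κ a l8 t0 ln))) (m59ci_nu κ a l8 t0 ln) β γ
          (m59ci_r κ a l8 t0 ln ch ee) (m59ci_s κ a l8 t0 ln ch ε8 εn))) ∧
        ∀ (ℓ : ℕ) (hℓ : ℓ.Prime) (hℓN : ¬ ℓ ∣ N) (hℓS : ℓ ∉ (↑S' : Set ℕ)),
          ∃ t : T0, j t = act (heckeAlgebra.T hℓ hℓN hℓS) ∧
            x₂ t = ((W.apOfModel ℓ : ℤ) : 𝒪)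

/-- **[CI-III]** (case (III): `W` multiplicative at `p`, `p ∤ N₁`). -/
def m59ci_CaseIII_stmt (Peu : m59e_PeuPred) : Prop :=
  ∀ (p : ℕ) [Fact p.Prime], p = 3 ∨ p = 5 → ∀ W : WeierstrassCurve ℤ, W.Δ ≠ 0 →
    W.IsSemistableModel →
  ∀ (𝒪 : Type) [CommRing 𝒪] [IsDomain 𝒪] [IsDiscreteValuationRing 𝒪]
    [IsAdicComplete (maximalIdeal 𝒪) 𝒪] [Finite (ResidueField 𝒪)] [CharZero 𝒪],
    (p : 𝒪) ∈ maximalIdeal 𝒪 → (∃ ζ : 𝒪, IsPrimitiveRoot ζ p) →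
  ∀ ρ : GaloisRepAdic 𝒪, m59e_IsTate p W ρ →
  ∀ (S : Finset ℕ) (N₁ : ℕ), m59e_IsBadSet W p S → Squarefree N₁ →
    (∀ ℓ : ℕ, ℓ.Prime → ℓ ∣ N₁ → ℓ ∈ S) →
    m59e_Occ p W S N₁ →
    (∀ q : ℕ, q.Prime → q ≠ p → q ∣ N₁ → ¬ ρ.residual.IsUnramifiedAt q) →
    -- case (III)
    ¬ W.IsGoodPrimeFor p → ¬ p ∣ N₁ →
    m59ci_Concl W 𝒪 S

/-! ### the wiring -/

theorem m59ci_theta_algebraMap (𝒪 : Type) [CommRing 𝒪] (rr : ℕ) (T0 : Type) [CommRing T0]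
    [Algebra 𝒪 T0] (c : 𝒪) :
    m59ci_theta 𝒪 rr T0 (algebraMap 𝒪 (MvPowerSeries (Fin rr) 𝒪) c) = algebraMap 𝒪 T0 c := by
  simp [m59ci_theta, MvPowerSeries.algebraMap_apply]

theorem m59ci_theta_a (𝒪 : Type) [CommRing 𝒪] (rr : ℕ) (T0 : Type) [CommRing T0]
    [Algebra 𝒪 T0] (x₂ : T0 →+* 𝒪) (t : MvPowerSeries (Fin rr) 𝒪) (ht : t ∈ twds_a 𝒪 rr) :
    x₂ (m59ci_theta 𝒪 rr T0 t) = 0 := by
  rw [twds_mem_a] at ht
  simp [m59ci_theta, ht]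

theorem m59ci_theta_range (𝒪 : Type) [CommRing 𝒪] (rr : ℕ) (T0 : Type) [CommRing T0]
    [Algebra 𝒪 T0] (c : 𝒪) : algebraMap 𝒪 T0 c ∈ (m59ci_theta 𝒪 rr T0).range :=
  ⟨MvPowerSeries.C c, by simp [m59ci_theta]⟩

/-- the field `hbase`, in the exact case `𝔠 = ⊥`: (B2) = helper4's `m59bi_irr` (`R_∞ / (u)` is a
domain) through `m59d_hbase_of_irr`; its dimension is bounded by (B1). -/
theorem m59ci_hbase {𝒪 : Type} [CommRing 𝒪] [IsDomain 𝒪] [IsDiscreteValuationRing 𝒪]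
    [IsAdicComplete (maximalIdeal 𝒪) 𝒪] [CharZero 𝒪]
    {lam : 𝒪} (hmax : maximalIdeal 𝒪 = Ideal.span {lam})
    {p : ℕ} (hp : p.Prime) (hp2 : p ≠ 2) (hp𝒪 : (p : 𝒪) ∈ maximalIdeal 𝒪)
    {T8 Tn κ : Type} [Fintype T8] [Fintype Tn] [Fintype κ]
    (a : T8 → 𝒪) (l8 : T8 → ℕ) (t0 : Tn → 𝒪) (ln : Tn → ℕ)
    (hl8 : ∀ t, l8 t % p = 1) (han : ∀ t, a t ^ 2 - (l8 t : 𝒪) ∈ maximalIdeal 𝒪) (rr : ℕ)
    (hrr : rr = Fintype.card κ + 3 * Fintype.card T8 + Fintype.card Tn) :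
    ∀ w : (T8 × Fin 2 × Fin 2) ⊕ (Tn × Fin 2) → m59b_R 𝒪 κ a l8 t0 ln,
      (∀ i, w i - m59ci_u κ a l8 t0 ln i ∈ (⊥ : Ideal (m59b_R 𝒪 κ a l8 t0 ln))) →
      ∀ P : Ideal (m59b_R 𝒪 κ a l8 t0 ln), P.IsPrime → (∀ i, w i ∈ P) →
      ringKrullDim (MvPowerSeries (Fin rr) 𝒪) ≤ ringKrullDim (m59b_R 𝒪 κ a l8 t0 ln ⧸ P) →
      ∀ y0 : m59b_R 𝒪 κ a l8 t0 ln →+* 𝒪, (∀ i, y0 (m59ci_u κ a l8 t0 ln i) = 0) →
        P ≤ RingHom.ker y0 := by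
  have hirr : (nilradical (m59b_R 𝒪 κ a l8 t0 ln ⧸
      Ideal.span (Set.range (m59ci_u κ a l8 t0 ln)))).IsPrime :=
    m59bi_irr a l8 t0 ln (m59ci_isUnit_a hp𝒪 a l8 hl8 han) han
  have hudim : ringKrullDim (m59b_R 𝒪 κ a l8 t0 ln ⧸
      Ideal.span (Set.range (m59ci_u κ a l8 t0 ln))) ≤ ringKrullDim (MvPowerSeries (Fin rr) 𝒪) :=
    (ringKrullDim_le_of_surjective (Ideal.Quotient.mk _) Ideal.Quotient.mk_surjective).trans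
      (m59ci_hdim hmax hp hp2 hp𝒪 a l8 t0 ln hl8 han rr hrr)
  haveI : IsDomain (MvPowerSeries (Fin rr) 𝒪) := NoZeroDivisors.to_isDomain _
  haveI : IsLocalRing (m59b_R 𝒪 κ a l8 t0 ln) := m59b_R_isLocalRing 𝒪 κ a l8 t0 ln han
  exact m59d_hbase_of_irr (𝔠 := fun _ => (⊥ : Ideal (m59b_R 𝒪 κ a l8 t0 ln)))
    (fun _ => rfl) hirr hudim

/-- **the bundled datum on the concrete frame** (cases (d0), (II)). -/
def m59ci_data {𝒪 : Type} [CommRing 𝒪] [IsDomain 𝒪] [IsDiscreteValuationRing 𝒪]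
    [IsAdicComplete (maximalIdeal 𝒪) 𝒪] [Finite (ResidueField 𝒪)] [CharZero 𝒪]
    {p : ℕ} (hp : p.Prime) (hp2 : p ≠ 2) (hp𝒪 : (p : 𝒪) ∈ maximalIdeal 𝒪)
    {lam : 𝒪} (hmax : maximalIdeal 𝒪 = Ideal.span {lam})
    {T8 Tn κ : Type} [Fintype T8] [Fintype Tn] [Fintype κ]
    (a : T8 → 𝒪) (l8 : T8 → ℕ) (t0 : Tn → 𝒪) (ln : Tn → ℕ) (ε8 : T8 → ℤ) (εn : Tn → ℤ)
    {m : ℕ} (ch : Fin m → T8 ⊕ Tn) (ee : Fin m → ℕ) (rr : ℕ)
    (d : Fin (m + 1) → ℕ) (e : Fin m → ℕ) (EE : ℕ)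
    {T0 : Type} [CommRing T0] [Algebra 𝒪 T0] [Module.Finite 𝒪 T0] (x₂ : T0 →ₐ[𝒪] 𝒪)
    (j : T0 →+* Matrix (Fin (d (Fin.last m))) (Fin (d (Fin.last m)))
      (MvPowerSeries (Fin rr) 𝒪 ⧸ twds_a 𝒪 rr))
    {K : Type} [Finite K] (γ : K → T0) (β : (T8 × Fin 6) ⊕ Tn → T0)
    (hch : Function.Bijective ch) (hl8 : ∀ t, l8 t % p = 1) (hl8' : ∀ t, 2 ≤ l8 t)
    (han : ∀ t, a t ^ 2 - (l8 t : 𝒪) ∈ maximalIdeal 𝒪)
    (hε8 : ∀ t, ε8 t * ε8 t = 1) (hεn : ∀ l, εn l * εn l = 1)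
    (hrr : rr = Fintype.card κ + 3 * Fintype.card T8 + Fintype.card Tn) (hd0 : 0 < d 0)
    (hγ : Submodule.span 𝒪 (Set.range γ) = ⊤)
    (hβ : ∀ c, x₂ (β c) = m59ci_xval l8 ln ε8 εn c)
    (hLv : ∀ n : ℕ, Nonempty (m59d_ChainLevel 𝒪 (MvPowerSeries (Fin rr) 𝒪)
      (m59b_R 𝒪 κ a l8 t0 ln) T0 d e EE (twds_a 𝒪 rr) (twds_b 𝒪 rr (p ^ n))
      (twds_b_le_a rr (p ^ n)) j (m59ci_theta 𝒪 rr T0) (m59ci_u κ a l8 t0 ln)
      (fun _ => (⊥ : Ideal (m59b_R 𝒪 κ a l8 t0 ln))) (m59ci_nu κ a l8 t0 ln) β γ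
      (m59ci_r κ a l8 t0 ln ch ee) (m59ci_s κ a l8 t0 ln ch ε8 εn))) :
    m59d_ChainData 𝒪 lam T0 (x₂ : T0 →+* 𝒪) :=
  haveI hloc : IsLocalRing (m59b_R 𝒪 κ a l8 t0 ln) := m59b_R_isLocalRing 𝒪 κ a l8 t0 ln han
  have hlam𝒪 : lam ∈ maximalIdeal 𝒪 := by
    rw [hmax]; exact Ideal.mem_span_singleton_self lam
  have hlam0 : lam ≠ 0 := by
    rintro rfl
    apply IsDiscreteValuationRing.not_a_field 𝒪
    rw [hmax]
    simp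
  { S := MvPowerSeries (Fin rr) 𝒪
    domS := NoZeroDivisors.to_isDomain _
    complS := twb_mvps_isAdicComplete 𝒪
    R := m59b_R 𝒪 κ a l8 t0 ln
    locR := hloc
    complR := m59b_R_isAdicComplete 𝒪 κ a l8 t0 ln
    complT0 := m59ci_complT0 lam hmax
    m := m
    d := d
    e := e
    EE := EE
    hd0 := hd0
    hS := twds_finite_quot rr
    hR := m59b_R_finite 𝒪 κ a l8 t0 ln
    hT0 := twd_t0_finite_quot lam hmax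
    hlamS := twds_algebraMap_mem_maximalIdeal rr hlam𝒪
    hlamS0 := twds_algebraMap_ne_zero rr hlam0
    𝔞 := twds_a 𝒪 rr
    𝔟 := fun n => twds_b 𝒪 rr (p ^ n)
    h𝔟𝔞 := fun n => twds_b_le_a rr (p ^ n)
    h𝔟 := fun n => twds_b_le_pow rr hp𝒪 n
    j := j
    θ := m59ci_theta 𝒪 rr T0
    hθalg := m59ci_theta_algebraMap 𝒪 rr T0
    hθ := m59ci_theta_a 𝒪 rr T0 (x₂ : T0 →+* 𝒪)
    ι := (T8 × Fin 2 × Fin 2) ⊕ (Tn × Fin 2)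
    κ := (T8 × Fin 6) ⊕ Tn
    K := K
    u := m59ci_u κ a l8 t0 ln
    𝔠 := fun _ => ⊥
    ν := m59ci_nu κ a l8 t0 ln
    β := β
    γ := γ
    r := m59ci_r κ a l8 t0 ln ch ee
    s := m59ci_s κ a l8 t0 ln ch ε8 εn
    hgen := m59ci_hgen γ hγ (m59ci_theta 𝒪 rr T0) (m59ci_theta_range 𝒪 rr T0)
    Lv := fun n => (hLv n).some
    hdim := m59ci_hdim hmax hp hp2 hp𝒪 a l8 t0 ln hl8 han rr hrr
    hbase := m59ci_hbase hmax hp hp2 hp𝒪 a l8 t0 ln hl8 han rr hrr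
    hpts := fun x hxν hxC => by
      obtain ⟨y, h1, h2, h3, h4⟩ := m59ci_hpts hmax hp hp2 hp𝒪 a l8 t0 ln hl8 hl8' han rr hrr ch
        hch ee ε8 hε8 εn hεn x (fun c => (hxν c).trans (hβ c))
        (fun c => by
          have h := hxC c
          rw [h]
          exact x₂.commutes c)
      exact ⟨y, h1, h2, h3, fun k P hP hd _ hr hPy => h4 k P hP hd hr hPy⟩ }

/-- **[CHAIN-INPUT] (issue 2) from [CI-LEVEL] + [CI-III].** -/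
theorem m59ci_chainInput_of (Peu : m59e_PeuPred) (hL : m59ci_Level_stmt Peu)
    (hIII : m59ci_CaseIII_stmt Peu) : m59d_ChainInputZ_stmt Peu := by
  intro p hpF hp W hΔ hW 𝒪 _ _ _ _ _ _ hp𝒪 hζ ρ hT S N₁ hS hN₁sq hN₁S hOcc hram hII hpeu hgood
  by_cases hcase : W.IsGoodPrimeFor p ∨ p ∣ N₁
  · obtain ⟨S', N, hNZ, hSS', hNsq, hNS', T8, Tn, κ, _, _, _, a, l8, t0, ln, ε8, εn, m, ch, ee,
      rr, d, e, EE, T0, _, _, _, x₂, j, K, _, γ, β, act, hch, hl8, hl8', han, hε8, hεn, hrr, hd0,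
      hγ, hβ, hLv, hact⟩ :=
      hL p hp W hΔ hW 𝒪 hp𝒪 hζ ρ hT S N₁ hS hN₁sq hN₁S hOcc hram hII hpeu hgood hcase
    have hp2 : p ≠ 2 := by
      rcases hp with rfl | rfl <;> norm_num
    obtain ⟨lam, hlam⟩ := IsDiscreteValuationRing.exists_irreducible 𝒪
    have hmax : maximalIdeal 𝒪 = Ideal.span {lam} :=
      (IsDiscreteValuationRing.irreducible_iff_uniformizer lam).1 hlam
    exact ⟨S', N, hNZ, hSS', hNsq, hNS', lam, T0, inferInstance, inferInstance,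
      (x₂ : T0 →+* 𝒪),
      m59ci_data hpF.out hp2 hp𝒪 hmax a l8 t0 ln ε8 εn ch ee rr d e EE x₂ j γ β hch hl8 hl8'
        han hε8 hεn hrr hd0 hγ hβ hLv,
      act, hact⟩
  · rw [not_or] at hcase
    exact hIII p hp W hΔ hW 𝒪 hp𝒪 hζ ρ hT S N₁ hS hN₁sq hN₁S hOcc hram hcase.1 hcase.2

end

end Fermat.Agent.M59
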