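import Mathlib
import Fermat.Agent.M59.Top.Chain.ArithOf
import Fermat.Agent.M59.Top.Chain.PairTop
import Fermat.Agent.M59.Top.Chain.CotOf
import Fermat.Agent.M59.EP.ChainClosed
import Fermat.Agent.M59.Act.ActStmt
import Fermat.Agent.M59.Act.GalDia
import Fermat.Agent.M59.KumConv.DictRp

/-!
M59 / [CHAIN-inst], **THE LEAF [CORE] cases (d0)/(II) IS CLOSED** (helper25, deputy; ruling #48).
Prefix `m59ci_`.

* `m59ci_chain0 : m59ci_Chain0_stmt` : block [E'] without `Q.Nonempty`, from the three closed leaves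
  of block [E'] (helper22 `m59epg_ihInv_closed`, helper8 `m59epgo_ihOnto`, helper2/helper3
  `m59eps_newPtH`);
* **`m59ci_sysStmt_rp : m59ci_Sys_stmt m59rp_Peu`** : [CI-SYS], from `m59ci_sysStmt_of` and its closed
  cells: [TRES-DICT] `m59kc_tresDict_rp` (helper6), [E'-0] `m59ci_chain0`, [CI-ACT] `m59ac_act_stmt`
  and [CI-U] `m59ac_u_stmt` (helper26), [CI-PAIRTOP] `m59ci_pairTop` (on helper21's [CI-PAIR] and
  helper24's gluing lemmas), [CI-COT] `m59ci_cot` (on helper21's `m59cp_cot_*`);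
* **`m59ci_level_rp : m59ci_Level_stmt m59rp_Peu`** : the leaf `hLv` of `m59t_final_of`
  (M59/Top/Final.lean), NO HYPOTHESIS.
-/

set_option autoImplicit false

namespace Fermat.Agent.M59

/-- **[E'-0]**, closed. -/
theorem m59ci_chain0 : m59ci_Chain0_stmt :=
  m59ci_chain0_of m59epg_ihInv_closed m59epgo_ihOnto m59eps_newPtH

/-- **[CI-SYS]** at `Peu := m59rp_Peu`, closed. -/
theorem m59ci_sysStmt_rp : m59ci_Sys_stmt m59rp_Peu :=
  m59ci_sysStmt_of m59rp_Peu m59kc_tresDict_rp m59ci_chain0 m59ac_act_stmt m59ac_u_stmt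
    m59ci_pairTop m59ci_cot

/-- **[CI-LEVEL]** (the leaf [CORE], cases (d0)/(II)) at `Peu := m59rp_Peu`, closed. -/
theorem m59ci_level_rp : m59ci_Level_stmt m59rp_Peu :=
  m59ci_level_of_sysStmt m59rp_Peu m59ci_sysStmt_rp

end Fermat.Agent.M59
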