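import Fermat.Agent.M59.Top.Chain.ArithOf3
import Fermat.Agent.M59.Top.Chain3.Frame3S
import Fermat.Agent.M59.KumConv.DictRp

/-!
M59 / [CHAIN-inst], case (III): **THE LEAF [CI3-SYS] IS CLOSED** (helper25, deputy; ruling #48).
Prefix `m59ci_`.

* `m59ci_sys3_rp : m59ci3S_Sys_stmt m59rp_Peu` = `m59ci_sysStmt3 m59rp_Peu`
  (M59/Top/Chain/ArithOf3.lean) : the binder `hSys3` of `M59/Top/Final.lean`;
* `m59ci_level3_rp : m59ci3S_Level_stmt m59rp_Peu` (helper26's `m59ci3S_level_of_sysStmt`);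
* `m59ci_caseIII_rp` : helper26's `m59ci3S_caseIII_of` applied to it (case (III) of the chain input).

With `m59ci_level_rp` (cases (d0)/(II), M59/Top/Chain/SysClosed.lean) the three cases of [CORE] are
theorems.
-/

set_option autoImplicit false

namespace Fermat.Agent.M59

/-- **[CI3-SYS]**, CLOSED at `Peu := m59rp_Peu`. -/
theorem m59ci_sys3_rp : m59ci3S_Sys_stmt m59rp_Peu := m59ci_sysStmt3 m59rp_Peu

/-- **[CI3-LEVEL]**, CLOSED at `Peu := m59rp_Peu`. -/
theorem m59ci_level3_rp : m59ci3S_Level_stmt m59rp_Peu :=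
  m59ci3S_level_of_sysStmt m59rp_Peu m59ci_sys3_rp

/-- **case (III) of [CHAIN-INPUT]**, CLOSED at `Peu := m59rp_Peu`. -/
theorem m59ci_caseIII_rp : m59ci_CaseIIIS_stmt m59rp_Peu :=
  m59ci3S_caseIII_of m59rp_Peu m59ci_level3_rp

end Fermat.Agent.M59
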